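import Mathlib
import Fermat.Agent.RTLift.Modules.HeckeModule

/-!
From systems to actions: an algebra of functions on finitely many systems acts on every module
killed by the relations between the systems. Bases lifting a basis of the coinvariants.
-/

set_option autoImplicit false

noncomputable section

namespace FermatAgent.RTLift.Engine

open FermatAgent.RTLift.Modules (commAeval commAeval_X)

variable {O : Type} [CommRing O]

/-- The action of an algebra `R` of functions on systems: `r` acts as any `g` with the same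
values at the systems. -/
theorem exists_act {R 𝕋 : Type} [CommRing R] [CommRing 𝕋] [Algebra O R] [Algebra O 𝕋]
    {E : Type} [Ring E] [Algebra O E] (φ : 𝕋 →ₐ[O] E) {ι : Type} {A : ι → Type}
    [∀ i, CommRing (A i)] [∀ i, Algebra O (A i)] (pt : ∀ i, R →ₐ[O] A i) (x : ∀ i, 𝕋 →ₐ[O] A i)
    (hker : ∀ g, (∀ i, x i g = 0) → φ g = 0) (hgen : ∀ y, ∃ g, ∀ i, pt i y = x i g) :
    ∃ act : R →ₐ[O] E, ∀ y g, (∀ i, pt i y = x i g) → act y = φ g := by
  choose g hg using hgen
  have key : ∀ y g', (∀ i, pt i y = x i g') → φ (g y) = φ g' := fun y g' h => by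
    rw [← sub_eq_zero, ← map_sub]
    exact hker _ fun i => by rw [map_sub, ← hg, h, sub_self]
  refine ⟨
    { toFun := fun y => φ (g y)
      map_one' := (key 1 1 fun i => by rw [map_one, map_one]).trans (map_one φ)
      map_mul' := fun a b =>
        (key _ (g a * g b) fun i => by rw [map_mul, map_mul, hg, hg]).trans (map_mul φ _ _)
      map_zero' := (key 0 0 fun i => by rw [map_zero, map_zero]).trans (map_zero φ)
      map_add' := fun a b =>
        (key _ (g a + g b) fun i => by rw [map_add, map_add, hg, hg]).trans (map_add φ _ _)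
      commutes' := fun o =>
        (key _ (algebraMap O 𝕋 o) fun i => by rw [AlgHom.commutes, AlgHom.commutes]).trans
          (φ.commutes o) }, key⟩

/-- An algebra generated by elements with values given by `g` has all its values given by the
image of the polynomial ring. -/
theorem exists_value_of_adjoin {R 𝕋 : Type} [CommRing R] [CommRing 𝕋] [Algebra O R] [Algebra O 𝕋]
    {ι : Type} {A : ι → Type} [∀ i, CommRing (A i)] [∀ i, Algebra O (A i)]
    (pt : ∀ i, R →ₐ[O] A i) (x : ∀ i, 𝕋 →ₐ[O] A i) {S : Set R}
    (hS : Algebra.adjoin O S = ⊤) (h : ∀ y ∈ S, ∃ g, ∀ i, pt i y = x i g) (y : R) :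
    ∃ g, ∀ i, pt i y = x i g := by
  have hy : y ∈ Algebra.adjoin O S := hS ▸ Algebra.mem_top
  induction hy using Algebra.adjoin_induction with
  | mem y hy => exact h y hy
  | algebraMap o => exact ⟨algebraMap O 𝕋 o, fun i => by rw [AlgHom.commutes, AlgHom.commutes]⟩
  | add a b _ _ ha hb =>
    obtain ⟨u, hu⟩ := ha
    obtain ⟨v, hv⟩ := hb
    exact ⟨u + v, fun i => by rw [map_add, map_add, hu, hv]⟩
  | mul a b _ _ ha hb =>
    obtain ⟨u, hu⟩ := ha
    obtain ⟨v, hv⟩ := hb
    exact ⟨u * v, fun i => by rw [map_mul, map_mul, hu, hv]⟩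

/-- A basis of a finite projective module lifting a basis of its coinvariants. -/
theorem exists_basis_lift {Λ : Type} [CommRing Λ] [IsLocalRing Λ] (aug : Λ →+* O)
    (haug : RingHom.ker aug ≤ IsLocalRing.maximalIdeal Λ)
    {M M₀ : Type} [AddCommGroup M] [Module Λ M] [Module.Finite Λ M] [Module.Projective Λ M]
    [AddCommGroup M₀] [Module O M₀] (π : M →+ M₀) (hπ : ∀ (c : Λ) m, π (c • m) = aug c • π m)
    (hsurj : Function.Surjective π) (hker : ∀ m, π m = 0 → m ∈ RingHom.ker aug • (⊤ : Submodule Λ M))
    {k : ℕ} (b₀ : Module.Basis (Fin k) O M₀) (hO : Function.Surjective aug) :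
    ∃ b : Module.Basis (Fin k) Λ M, ∀ i, π (b i) = b₀ i := by
  set I := RingHom.ker aug
  have hI : I ≤ (⊥ : Ideal Λ).jacobson := (IsLocalRing.jacobson_eq_maximalIdeal (⊥ : Ideal Λ) bot_ne_top).symm ▸ haug
  choose v hv using fun i => hsurj (b₀ i)
  set L : (Fin k → Λ) →ₗ[Λ] M := Fintype.linearCombination Λ v
  have hL : ∀ a, π (L a) = ∑ i, aug (a i) • b₀ i := fun a => by
    simp [L, Fintype.linearCombination_apply, map_sum, hπ, hv]
  have hLs : Function.Surjective L := by
    rw [← LinearMap.range_eq_top]
    refine eq_top_iff.mpr (Submodule.le_of_le_smul_of_le_jacobson_bot Module.Finite.fg_top hI ?_)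
    intro m _
    choose a ha using fun i => hO (b₀.repr (π m) i)
    have h0 : m - L a ∈ I • (⊤ : Submodule Λ M) := hker _ (by
      rw [map_sub, hL, Finset.sum_congr rfl fun i _ => by rw [ha i], b₀.sum_repr, sub_self])
    exact Submodule.mem_sup.mpr ⟨L a, LinearMap.mem_range_self L a, m - L a, h0, by abel⟩
  obtain ⟨s, hs⟩ := Module.projective_lifting_property L LinearMap.id hLs
  have hLs' : ∀ m, L (s m) = m := fun m => LinearMap.congr_fun hs m
  let q : (Fin k → Λ) →ₗ[Λ] (Fin k → Λ) := LinearMap.id - s.comp L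
  have hq : LinearMap.range q = LinearMap.ker L := by
    refine le_antisymm ?_ fun a ha => ⟨a, ?_⟩
    · rintro _ ⟨a, rfl⟩
      rw [LinearMap.mem_ker, LinearMap.sub_apply, LinearMap.id_apply, LinearMap.comp_apply,
        map_sub, hLs', sub_self]
    · rw [LinearMap.sub_apply, LinearMap.id_apply, LinearMap.comp_apply, ha, map_zero, sub_zero]
  have hKI : LinearMap.range q ≤ I • LinearMap.range q := by
    intro a ha
    have ha0 : L a = 0 := LinearMap.mem_ker.mp (hq ▸ ha)
    have h1 : ∀ i, aug (a i) = 0 := by
      have h2 := hL a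
      rw [ha0, map_zero] at h2
      exact Fintype.linearIndependent_iff.mp b₀.linearIndependent (fun i => aug (a i)) h2.symm
    have h2 : a ∈ I • (⊤ : Submodule Λ (Fin k → Λ)) := by
      rw [← (Pi.basisFun Λ (Fin k)).sum_repr a]
      exact Submodule.sum_mem _ fun i _ => Submodule.smul_mem_smul (h1 i) Submodule.mem_top
    have h3 := Submodule.mem_map_of_mem (f := q) h2
    rw [Submodule.map_smul'', Submodule.map_top] at h3
    rwa [show q a = a by
      rw [LinearMap.sub_apply, LinearMap.id_apply, LinearMap.comp_apply, ha0, map_zero,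
        sub_zero]] at h3
  have hK : LinearMap.ker L = ⊥ := by
    rw [← hq]
    exact Submodule.eq_bot_of_le_smul_of_le_jacobson_bot I _
      (LinearMap.range_eq_map q ▸ Module.Finite.fg_top.map q) hKI hI
  refine ⟨Module.Basis.ofEquivFun
    (LinearEquiv.ofBijective L ⟨LinearMap.ker_eq_bot.mp hK, hLs⟩).symm, fun i => ?_⟩
  rw [Module.Basis.coe_ofEquivFun]
  change π (L (Pi.single i 1)) = _
  rw [hL, Finset.sum_eq_single i]
  · simp
  · intro j _ hj
    simp [hj]
  · simp

section Act

variable {Λ : Type} [CommRing Λ] [Algebra O Λ] {R : Type} [CommRing R] [Algebra O R]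
  {M M' : Type} [AddCommGroup M] [Module Λ M] [Module O M] [IsScalarTower O Λ M]
  [AddCommGroup M'] [Module Λ M'] [Module O M'] [IsScalarTower O Λ M']

/-- Two actions agreeing with intertwined operators on generators are intertwined. -/
theorem intertwine_of_adjoin (act : R →ₐ[O] Module.End Λ M) (act' : R →ₐ[O] Module.End Λ M')
    {S : Set R} (hS : Algebra.adjoin O S = ⊤) (f : M →ₗ[Λ] M')
    (h : ∀ y ∈ S, ∀ v, f (act y v) = act' y (f v)) (y : R) (v : M) :
    f (act y v) = act' y (f v) := by
  have hy : y ∈ Algebra.adjoin O S := hS ▸ Algebra.mem_top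
  induction hy using Algebra.adjoin_induction generalizing v with
  | mem y hy => exact h y hy v
  | algebraMap o =>
    rw [AlgHom.commutes, AlgHom.commutes, Module.algebraMap_end_apply, Module.algebraMap_end_apply,
      ← algebraMap_smul Λ o v, map_smul, algebraMap_smul]
  | add a b _ _ ha hb =>
    rw [map_add, map_add, LinearMap.add_apply, LinearMap.add_apply, map_add, ha, hb]
  | mul a b _ _ ha hb =>
    rw [map_mul, map_mul, Module.End.mul_apply, Module.End.mul_apply, ha, hb]

end Act

section Mat

variable {Λ : Type} [CommRing Λ] [Algebra O Λ] {M M' : Type} [AddCommGroup M] [Module Λ M]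
  [Module O M] [IsScalarTower O Λ M] [AddCommGroup M'] [Module Λ M'] [Module O M']
  [IsScalarTower O Λ M'] {k k' : ℕ}

/-- Endomorphisms as matrices, over `O`. -/
def toMat (b : Module.Basis (Fin k) Λ M) : Module.End Λ M →ₐ[O] Matrix (Fin k) (Fin k) Λ where
  __ := (LinearMap.toMatrixAlgEquiv b).toRingEquiv.toRingHom
  commutes' o := by
    change LinearMap.toMatrixAlgEquiv b (algebraMap O (Module.End Λ M) o) = _
    rw [show algebraMap O (Module.End Λ M) o = algebraMap Λ (Module.End Λ M) (algebraMap O Λ o) from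
      LinearMap.ext fun m => by simp [Module.algebraMap_end_apply],
      AlgEquiv.commutes]
    rfl

theorem toMat_apply (b : Module.Basis (Fin k) Λ M) (f : Module.End Λ M) :
    toMat (O := O) b f = LinearMap.toMatrix b b f := rfl

end Mat

end FermatAgent.RTLift.Engine
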