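import Fermat.Agent.RTLift.Engine.Frame

/-!
Families of finite-level rings over the local deformation data and their slots: actions on free
modules over the diamond rings. The limits are patched pieces.
-/

set_option autoImplicit false

noncomputable section

namespace FermatAgent.RTLift.Engine

open IsLocalRing FermatAgent.RTLift.Patch FermatAgent.RTLift.LocalRings Filter Matrix

variable {O : Type} [CommRing O] {I : Type} {r rv : ℕ}

/-- The value `T² / (1 + T)` of the diamond variable in the diamond ring. -/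
def diamondZ (O : Type) [CommRing O] (r p n : ℕ) (j : Fin r) : Diamond O r p n :=
  Ideal.Quotient.mk _ (MvPowerSeries.X j ^ 2 * Ring.inverse (1 + MvPowerSeries.X j))

theorem diamondIdeal_le_ker_constantCoeff (p n : ℕ) :
    diamondIdeal O r p n ≤ RingHom.ker (MvPowerSeries.constantCoeff (σ := Fin r) (R := O)) := by
  rw [diamondIdeal, Ideal.span_le]
  rintro _ ⟨j, rfl⟩
  simp [RingHom.mem_ker]

/-- The augmentation of the diamond ring. -/
def diamondCC (O : Type) [CommRing O] (r p n : ℕ) : Diamond O r p n →+* O :=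
  Ideal.Quotient.lift _ MvPowerSeries.constantCoeff
    fun _ hx => diamondIdeal_le_ker_constantCoeff p n hx

section Framed

variable {R : Type} [CommRing R]

/-- The frame at an index. -/
def frameY (i : I) : Matrix (Fin 2) (Fin 2) (MvPowerSeries (I × Fin 3) R) :=
  1 + !![MvPowerSeries.X (i, 0), MvPowerSeries.X (i, 1);
         MvPowerSeries.X (i, 2), -MvPowerSeries.X (i, 0)]

theorem isUnit_det_frameY (i : I) : IsUnit (frameY (R := R) i).det := by
  rw [MvPowerSeries.isUnit_iff_constantCoeff]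
  simp [frameY, Matrix.det_fin_two]

/-- A matrix in the moving frame. -/
def framed (i : I) (M : Matrix (Fin 2) (Fin 2) R) :
    Matrix (Fin 2) (Fin 2) (MvPowerSeries (I × Fin 3) R) :=
  frameY i * M.map MvPowerSeries.C * (frameY i)⁻¹

theorem trace_framed (i : I) (M : Matrix (Fin 2) (Fin 2) R) :
    (framed i M).trace = MvPowerSeries.C M.trace := by
  rw [framed, Matrix.trace_mul_comm, ← Matrix.mul_assoc,
    Matrix.nonsing_inv_mul _ (isUnit_det_frameY i), Matrix.one_mul]
  simp [Matrix.trace_fin_two]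

theorem constantCoeff_framed (i : I) (M : Matrix (Fin 2) (Fin 2) R) :
    (framed i M).map MvPowerSeries.constantCoeff = M := by
  set φ := MvPowerSeries.constantCoeff (σ := I × Fin 3) (R := R)
  have hY : φ.mapMatrix (frameY (R := R) i) = 1 := by
    ext a b
    fin_cases a <;> fin_cases b <;> simp [φ, frameY]
  have h2 : φ.mapMatrix (frameY (R := R) i)⁻¹ = 1 := by
    have := congrArg φ.mapMatrix (Matrix.mul_nonsing_inv (frameY (R := R) i) (isUnit_det_frameY i))
    rwa [map_mul, hY, one_mul, map_one] at this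
  change φ.mapMatrix (framed i M) = M
  rw [framed, map_mul, map_mul, hY, h2, one_mul, mul_one]
  ext a b
  simp [φ]

/-- Configurations are invariant under conjugation. -/
theorem Sat.conj {S : Type} [CommRing S] {A : Cfg} {q c : S} {P N U V : Matrix (Fin 2) (Fin 2) S}
    (hUV : U * V = 1) (h : Sat A q c P N) : Sat A q c (U * P * V) (U * N * V) := by
  have hVU : V * U = 1 := mul_eq_one_comm.mp hUV
  have hmul : ∀ M M' : Matrix (Fin 2) (Fin 2) S,
      (U * M * V) * (U * M' * V) = U * (M * M') * V := fun M M' => by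
    rw [show (U * M * V) * (U * M' * V) = U * M * (V * U) * M' * V by simp only [Matrix.mul_assoc],
      hVU, Matrix.mul_one]
    simp only [Matrix.mul_assoc]
  have hdet : ∀ M, (U * M * V).det = M.det := fun M => by
    rw [Matrix.det_mul, Matrix.det_mul, mul_comm U.det, mul_assoc, ← Matrix.det_mul, hUV,
      Matrix.det_one, mul_one]
  have htr : ∀ M, (U * M * V).trace = M.trace := fun M => by
    rw [Matrix.trace_mul_comm, ← Matrix.mul_assoc, hVU, Matrix.one_mul]
  have hone : 1 + U * N * V = U * (1 + N) * V := by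
    rw [Matrix.mul_add, Matrix.mul_one, Matrix.add_mul, hUV]
  cases A with
  | ur =>
    obtain ⟨rfl, hd⟩ := sat_ur_iff.mp h
    exact sat_ur_iff.mpr ⟨by simp, by rw [hdet, hd]⟩
  | st ε =>
    obtain ⟨h1, h2, h3, h4, h5, h6⟩ := sat_st_iff.mp h
    exact sat_st_iff.mpr ⟨by rw [hdet, h1], by rw [htr, h2], by rw [htr, h3], by rw [hdet, h4],
      by rw [hmul, h5, Matrix.mul_smul, Matrix.smul_mul],
      by rw [hmul, h6, Matrix.mul_smul, Matrix.smul_mul]⟩
  | cc =>
    obtain ⟨h1, h2, h3, h4⟩ := sat_cc_iff.mp h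
    exact sat_cc_iff.mpr ⟨by rw [hdet, h1], by rw [hone, hdet, h2], by rw [hone, htr, h3],
      by rw [hone, hmul, hmul, h4]⟩
  | wall ε =>
    obtain ⟨rfl, hd, ht⟩ := sat_wall_iff.mp h
    exact sat_wall_iff.mpr ⟨by simp, by rw [hdet, hd], by rw [htr, ht]⟩

end Framed

variable [Finite I]

/-- A family of finite-level rings with local data at `I`, `rv` generators over them, and `r`
diamond elements. -/
structure Family (D : Datum O I) (rv r : ℕ) where
  /-- the rings -/
  R : ℕ → Type
  [instCommRing : ∀ n, CommRing (R n)]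
  [instAlgebra : ∀ n, Algebra O (R n)]
  [instIsLocalRing : ∀ n, IsLocalRing (R n)]
  [instFinite : ∀ n, Module.Finite O (R n)]
  [instFree : ∀ n, Module.Free O (R n)]
  /-- Frobenius at the indices -/
  frob : ∀ n, I → Matrix (Fin 2) (Fin 2) (R n)
  /-- monodromy at the indices -/
  mono : ∀ n, I → Matrix (Fin 2) (Fin 2) (R n)
  /-- the diamond elements -/
  z : ∀ n, Fin r → R n
  z_mem : ∀ n j, z n j ∈ maximalIdeal (R n)
  /-- the presentation -/
  π : ∀ n, Ambient O I rv →ₐ[O] MvPowerSeries (I × Fin 3) (R n)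
  π_surjective : ∀ n, Function.Surjective (π n)
  π_frob : ∀ n i, (D.frob rv i).map (π n) = framed i (frob n i)
  π_mono : ∀ n i, (D.mono rv i).map (π n) = framed i (mono n i)

attribute [instance] Family.instCommRing Family.instAlgebra Family.instIsLocalRing
  Family.instFinite Family.instFree

namespace Family

variable {D : Datum O I} (F : Family D rv r)

/-- The ideal of a configuration at level `n`. -/
def cfgIdealR (n : ℕ) (B : I → Cfg) : Ideal (F.R n) :=
  ⨆ i, Ideal.span (cfgEqns (B i) (D.q i : F.R n) (algebraMap O _ (D.c i)) (F.frob n i) (F.mono n i))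

omit [Finite I] in
theorem π_cfgIdeal (n : ℕ) (B : I → Cfg) {x : Ambient O I rv} (hx : x ∈ D.cfgIdeal rv B) :
    F.π n x ∈ (F.cfgIdealR n B).map MvPowerSeries.C := by
  set J := (F.cfgIdealR n B).map (MvPowerSeries.C (σ := I × Fin 3)) with hJ
  suffices h : D.cfgIdeal rv B ≤ RingHom.ker ((Ideal.Quotient.mk J).comp (F.π n).toRingHom) by
    exact Ideal.Quotient.eq_zero_iff_mem.mp (h hx)
  refine iSup_le fun i => (localIdeal_le_ker_iff D _ i _).mpr ?_
  set g := (Ideal.Quotient.mk J).comp (MvPowerSeries.C (σ := I × Fin 3) (R := F.R n))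
  have h0 : Sat (B i) (D.q i : MvPowerSeries (I × Fin 3) (F.R n) ⧸ J) (g (algebraMap O _ (D.c i)))
      ((F.frob n i).map g) ((F.mono n i).map g) := by
    rw [← map_natCast g, ← span_le_ker_iff]
    refine (le_iSup (fun i => Ideal.span (cfgEqns (B i) (D.q i : F.R n) (algebraMap O _ (D.c i))
      (F.frob n i) (F.mono n i))) i).trans fun y hy => ?_
    exact Ideal.Quotient.eq_zero_iff_mem.mpr (Ideal.mem_map_of_mem _ hy)
  set U := (frameY (R := F.R n) i).map (Ideal.Quotient.mk J)
  set V := (frameY (R := F.R n) i)⁻¹.map (Ideal.Quotient.mk J)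
  have hUV : U * V = 1 := by
    rw [← Matrix.map_mul, Matrix.mul_nonsing_inv _ (isUnit_det_frameY i),
      Matrix.map_one _ (map_zero _) (map_one _)]
  have hfr : ∀ (M : Matrix (Fin 2) (Fin 2) (Ambient O I rv)) (M' : Matrix (Fin 2) (Fin 2) (F.R n)),
      M.map (F.π n) = framed i M' →
      M.map ((Ideal.Quotient.mk J).comp (F.π n).toRingHom) = U * M'.map g * V := fun M M' hM => by
    have : M.map ((Ideal.Quotient.mk J).comp (F.π n).toRingHom) =
        (M.map (F.π n)).map (Ideal.Quotient.mk J) := rfl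
    rw [this, hM, framed, Matrix.map_mul, Matrix.map_mul]
    rfl
  rw [hfr _ _ (F.π_frob n i), hfr _ _ (F.π_mono n i)]
  convert Sat.conj hUV h0 using 2
  change Ideal.Quotient.mk J (F.π n (algebraMap O _ (D.c i))) = _
  rw [AlgHom.commutes, MvPowerSeries.algebraMap_apply]
  rfl

omit [Finite I] in
theorem map_prod_le {ι : Type} (s : Finset ι) (n : ℕ) (a : ι → Ideal (Ambient O I rv))
    (b : ι → Ideal (F.R n)) (h : ∀ i ∈ s, ∀ x ∈ a i, F.π n x ∈ (b i).map MvPowerSeries.C)
    {x : Ambient O I rv} (hx : x ∈ ∏ i ∈ s, a i) :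
    F.π n x ∈ (∏ i ∈ s, b i).map MvPowerSeries.C := by
  have h1 := Ideal.mem_map_of_mem (F.π n).toRingHom hx
  rw [← Ideal.mapHom_apply, map_prod] at h1
  rw [← Ideal.mapHom_apply, map_prod]
  refine SetLike.le_def.mp (Finset.prod_le_prod' fun B hB => ?_) h1
  rw [Ideal.mapHom_apply, Ideal.mapHom_apply, Ideal.map_le_iff_le_comap]
  exact fun y hy => h B hB y hy

omit [Finite I] in
theorem π_prod (n : ℕ) (𝒞 : Finset (I → Cfg)) {x : Ambient O I rv}
    (hx : x ∈ ∏ B ∈ 𝒞, D.cfgIdeal rv B) :
    F.π n x ∈ (∏ B ∈ 𝒞, F.cfgIdealR n B).map MvPowerSeries.C :=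
  F.map_prod_le 𝒞 n _ _ (fun B _ _ hy => F.π_cfgIdeal n B hy) hx

end Family

/-- An action of the rings of a family on free modules over the diamond rings. -/
structure Slot {D : Datum O I} (F : Family D rv r) (p k : ℕ) where
  /-- the actions -/
  act : ∀ n, F.R n →ₐ[O] Matrix (Fin k) (Fin k) (Diamond O r p n)
  act_z : ∀ n j, act n (F.z n j) = Matrix.scalar (Fin k) (diamondZ O r p n j)

namespace Slot

variable {D : Datum O I} {F : Family D rv r} {p k : ℕ} (M : Slot F p k)

/-- The action of the ambient ring at level `n`. -/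
def amb (n : ℕ) : Ambient O I rv →ₐ[O]
    Matrix (Fin k) (Fin k) (Scal O I r ⧸ levelIdeal O I r p n) :=
  (frameAct (Module.Free.chooseBasis O (F.R n)) (M.act n)).comp (F.π n)

theorem amb_apply (n : ℕ) (x : Ambient O I rv) :
    M.amb n x = frameAct (Module.Free.chooseBasis O (F.R n)) (M.act n) (F.π n x) := rfl

theorem amb_of_π {n : ℕ} {x : Ambient O I rv} {y : F.R n} (h : F.π n x = MvPowerSeries.C y) :
    M.amb n x = toLevel (I := I) (M.act n y) := by
  rw [amb_apply, h, frameAct_C]

/-- An ideal killing the slot at level `n` kills what maps into it. -/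
theorem amb_eq_zero_of_mem {n : ℕ} {b : Ideal (F.R n)}
    (h : ∀ y ∈ b, M.act n y = 0) {x : Ambient O I rv}
    (h1 : F.π n x ∈ b.map MvPowerSeries.C) : M.amb n x = 0 := by
  rw [amb_apply]
  rw [Ideal.map] at h1
  refine RingHom.mem_ker.mp ((Ideal.span_le.mpr ?_) h1 :
    F.π n x ∈ RingHom.ker (frameAct (Module.Free.chooseBasis O (F.R n)) (M.act n)).toRingHom)
  rintro _ ⟨y, hy, rfl⟩
  rw [SetLike.mem_coe, RingHom.mem_ker]
  exact (frameAct_C _ _ y).trans (by rw [h y hy, map_zero])

/-- The product of the configuration ideals kills the slot as soon as it does at level `n`. -/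
theorem amb_eq_zero {n : ℕ} {𝒞 : Finset (I → Cfg)}
    (h : ∀ y ∈ ∏ B ∈ 𝒞, F.cfgIdealR n B, M.act n y = 0) {x : Ambient O I rv}
    (hx : x ∈ ∏ B ∈ 𝒞, D.cfgIdeal rv B) : M.amb n x = 0 :=
  M.amb_eq_zero_of_mem h (F.π_prod n 𝒞 hx)

end Slot

end FermatAgent.RTLift.Engine
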