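import Fermat.Agent.RTLift.Engine.Frame
import Fermat.Agent.RTLift.Engine.Family
import Fermat.Prelude.Thm_IsLocalRing_isAdicComplete_of_module_finite

/-!
The diamond ring of a level is the group algebra of a finite `p`-group: local, finite free, with
the expected units `1 + T`. Characters of `(ℤ/M₀)ˣ` with values in it.
-/

set_option autoImplicit false

noncomputable section

namespace FermatAgent.RTLift.Engine

open IsLocalRing

variable {O : Type} [CommRing O] [IsLocalRing O] {p : ℕ}


theorem isUnit_of_sub_mem_jacobson {S : Type} [CommRing S] {a b : S} (hb : IsUnit b) {J : Ideal S}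
    (h : a - b ∈ J) (hJ : J ≤ Ideal.jacobson ⊥) : IsUnit a := by
  obtain ⟨u, rfl⟩ := hb
  have h1 := Ideal.mem_jacobson_bot.mp (hJ h) ((u⁻¹ : Sˣ) : S)
  rw [sub_mul, Units.mul_inv, sub_add_cancel] at h1
  exact isUnit_of_mul_isUnit_left h1

/-- The group algebra of a finite group killed by a power of `p` over a local ring with residue
characteristic `p` is local. -/
theorem isLocalRing_monoidAlgebra [hpf : Fact p.Prime] (hp : (p : ResidueField O) = 0)
    {G : Type} [CommGroup G] [Finite G] {N : ℕ} (hG : ∀ g : G, g ^ p ^ N = 1) :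
    IsLocalRing (MonoidAlgebra O G) := by
  have : CharP (ResidueField O) p :=
    (CharP.charP_iff_prime_eq_zero hpf.out).mpr hp
  have : Fintype G := Fintype.ofFinite G
  set ε : MonoidAlgebra O G →ₐ[O] O := MonoidAlgebra.lift O O G 1
  set J := (maximalIdeal O).map (algebraMap O (MonoidAlgebra O G))
  have hJ : J ≤ Ideal.jacobson ⊥ := by
    rw [Ideal.jacobson_bot]
    refine le_sInf fun P hP => Ideal.map_le_iff_le_comap.mpr (le_of_eq ?_)
    have hPm : Ideal.IsMaximal P := ⟨hP⟩
    exact (IsLocalRing.eq_maximalIdeal (Ideal.isMaximal_comap_of_isIntegral_of_isMaximal P)).symm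
  have key : ∀ x, IsUnit (ε x) → IsUnit x := fun x hx => by
    have h1 : x ^ p ^ N - algebraMap O _ (ε x ^ p ^ N) ∈ J := by
      have hpJ : Ideal.span {((p : ℕ) : MonoidAlgebra O G)} ≤ J := by
        rw [Ideal.span_le, Set.singleton_subset_iff, ← map_natCast (algebraMap O (MonoidAlgebra O G))]
        exact Ideal.mem_map_of_mem _ ((residue_eq_zero_iff _).mp (by rw [map_natCast]; exact hp))
      rw [map_pow]
      rcases subsingleton_or_nontrivial (MonoidAlgebra O G ⧸ J) with h | h
      · exact Ideal.Quotient.eq_zero_iff_mem.mp (Subsingleton.elim _ _)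
      have : CharP (MonoidAlgebra O G ⧸ J) p := (CharP.charP_iff_prime_eq_zero hpf.out).mpr (by
        rw [← map_natCast (Ideal.Quotient.mk J), Ideal.Quotient.eq_zero_iff_mem]
        exact hpJ (Ideal.mem_span_singleton_self _))
      rw [← Ideal.Quotient.eq, map_pow, map_pow]
      clear hx
      induction x using MonoidAlgebra.induction_linear with
      | zero => simp
      | add a b ha hb =>
        simp only [map_add, add_pow_char_pow, ha, hb]
      | single g o =>
        rw [← map_pow, ← map_pow]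
        congr 1
        simp [ε, MonoidAlgebra.single_pow, hG g, MonoidAlgebra.coe_algebraMap]
    have h2 : IsUnit (algebraMap O (MonoidAlgebra O G) (ε x ^ p ^ N)) := (hx.pow _).map _
    exact (isUnit_pow_iff (pow_ne_zero N hpf.out.ne_zero)).mp
      (isUnit_of_sub_mem_jacobson h2 h1 hJ)
  have : Nontrivial (MonoidAlgebra O G) := inferInstance
  refine IsLocalRing.of_isUnit_or_isUnit_one_sub_self fun x => ?_
  rcases IsLocalRing.isUnit_or_isUnit_one_sub_self (ε x) with h | h
  · exact .inl (key x h)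
  · exact .inr (key (1 - x) (by rwa [map_sub, map_one]))

/-- The group of the diamond operators. -/
abbrev DiamondGroup (r p n : ℕ) : Type := Fin r → Multiplicative (ZMod (p ^ n))

omit [IsLocalRing O] in
theorem one_add_X_pow (r n : ℕ) (j : Fin r) :
    (1 + Ideal.Quotient.mk (diamondIdeal O r p n) (MvPowerSeries.X j)) ^ p ^ n = 1 := by
  rw [← sub_eq_zero, ← map_one (Ideal.Quotient.mk (diamondIdeal O r p n)), ← map_add, ← map_pow,
    ← map_sub, Ideal.Quotient.eq_zero_iff_mem]
  exact Ideal.subset_span ⟨j, rfl⟩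

instance isLocalRing_diamond (r n : ℕ) : IsLocalRing (Diamond O r p n) := by
  have : Nontrivial (Diamond O r p n) := (diamondCC O r p n).domain_nontrivial
  exact .of_surjective' _ Ideal.Quotient.mk_surjective

theorem not_isUnit_mk_X (r n : ℕ) (j : Fin r) :
    ¬ IsUnit (Ideal.Quotient.mk (diamondIdeal O r p n) (MvPowerSeries.X j)) := fun hu => by
  have h : IsUnit (diamondCC O r p n (Ideal.Quotient.mk _ (MvPowerSeries.X j))) := hu.map _
  replace h : IsUnit (MvPowerSeries.constantCoeff (MvPowerSeries.X j : MvPowerSeries (Fin r) O)) := h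
  rw [MvPowerSeries.constantCoeff_X] at h
  exact not_isUnit_zero h

variable (O) in
/-- The diamond operators in the diamond ring. -/
def diamondUnit [Fact p.Prime] (r n : ℕ) : DiamondGroup r p n →* Diamond O r p n where
  toFun g := ∏ j, (1 + Ideal.Quotient.mk (diamondIdeal O r p n) (MvPowerSeries.X j)) ^
    (Multiplicative.toAdd (g j)).val
  map_one' := by simp
  map_mul' g h := by
    rw [← Finset.prod_mul_distrib]
    refine Finset.prod_congr rfl fun j _ => ?_
    rw [Pi.mul_apply, toAdd_mul, ZMod.val_add, ← pow_add]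
    exact (pow_eq_pow_mod _ (one_add_X_pow r n j)).symm

omit [IsLocalRing O] in
theorem diamondUnit_single [hpf : Fact p.Prime] {r n : ℕ} (j : Fin r) (a : Multiplicative (ZMod (p ^ n))) :
    diamondUnit O r n (Pi.mulSingle j a) =
      (1 + Ideal.Quotient.mk (diamondIdeal O r p n) (MvPowerSeries.X j)) ^
        (Multiplicative.toAdd a).val := by
  simp only [diamondUnit, MonoidHom.coe_mk, OneHom.coe_mk]
  rw [Finset.prod_eq_single j]
  · rw [Pi.mulSingle_eq_same]
  · intro i _ hi
    rw [Pi.mulSingle_eq_of_ne hi]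
    simp
  · simp

variable [IsNoetherianRing O] [IsAdicComplete (maximalIdeal O) O]

/-- The diamond ring is the group algebra. -/
theorem exists_diamond_equiv [hpf : Fact p.Prime] (hp : (p : ResidueField O) = 0) (r n : ℕ) :
    ∃ e : MonoidAlgebra O (DiamondGroup r p n) ≃ₐ[O] Diamond O r p n,
      ∀ g, e (MonoidAlgebra.single g 1) = diamondUnit O r n g := by
  have : NeZero (p ^ n) := ⟨pow_ne_zero n hpf.out.ne_zero⟩
  set G := DiamondGroup r p n
  have hG : ∀ g : G, g ^ p ^ n = 1 := fun g => funext fun j => by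
    rw [Pi.pow_apply, Pi.one_apply, ← ofAdd_toAdd (g j), ← ofAdd_nsmul, nsmul_eq_mul,
      ZMod.natCast_self, zero_mul, ofAdd_zero]
  have := isLocalRing_monoidAlgebra hp hG
  have : IsNoetherianRing (MonoidAlgebra O G) := IsNoetherianRing.of_finite O _
  have : IsHausdorff (maximalIdeal (MonoidAlgebra O G)) (MonoidAlgebra O G) :=
    IsHausdorff.of_isLocalRing _ _ (maximalIdeal.isMaximal _).ne_top
  have : IsLocalHom (algebraMap O (MonoidAlgebra O G)) := ⟨fun o ho => by
    simpa using ho.map (MonoidAlgebra.lift O O G 1)⟩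
  have : IsAdicComplete (maximalIdeal (MonoidAlgebra O G)) (MonoidAlgebra O G) :=
    IsLocalRing.isAdicComplete_of_module_finite (𝒪 := O)
  have : IsHausdorff (maximalIdeal (Diamond O r p n)) (Diamond O r p n) :=
    IsHausdorff.of_isLocalRing _ _ (maximalIdeal.isMaximal _).ne_top
  let gen : Fin r → G := fun j => Pi.mulSingle j (Multiplicative.ofAdd 1)
  have hmem : ∀ g : G, MonoidAlgebra.single g (1 : O) - 1 ∈ maximalIdeal (MonoidAlgebra O G) := by
    intro g
    refine (mem_maximalIdeal _).mpr fun hu => ?_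
    have := hu.map (MonoidAlgebra.lift O O G 1)
    simp at this
  obtain ⟨f, hf⟩ := DefRing.exists_eval (𝒪 := O)
    (fun j => MonoidAlgebra.single (gen j) (1 : O) - 1) fun j => hmem _
  have hfX : ∀ j, f (1 + MvPowerSeries.X j) = MonoidAlgebra.single (gen j) (1 : O) := fun j => by
    rw [map_add, map_one, hf, add_sub_cancel]
  have hle : diamondIdeal O r p n ≤ RingHom.ker f.toRingHom := by
    rw [diamondIdeal, Ideal.span_le]
    rintro _ ⟨j, rfl⟩
    rw [SetLike.mem_coe, RingHom.mem_ker]
    change f ((1 + MvPowerSeries.X j) ^ p ^ n - 1) = 0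
    rw [map_sub, map_pow, hfX, map_one, MonoidAlgebra.single_pow, hG, one_pow, sub_eq_zero,
      MonoidAlgebra.one_def]
  set F : Diamond O r p n →ₐ[O] MonoidAlgebra O G := Ideal.Quotient.liftₐ _ f hle
  set E : MonoidAlgebra O G →ₐ[O] Diamond O r p n := MonoidAlgebra.lift O _ G (diamondUnit O r n)
  have hEgen : ∀ j, E (MonoidAlgebra.single (gen j) (1 : O)) =
      1 + Ideal.Quotient.mk _ (MvPowerSeries.X j) := fun j => by
    rw [MonoidAlgebra.lift_single, one_smul, diamondUnit_single, toAdd_ofAdd]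
    rcases Nat.eq_zero_or_pos n with rfl | hn
    · have h0 := one_add_X_pow (O := O) (p := p) r 0 j
      rw [pow_zero, pow_one] at h0
      rw [h0, one_pow]
    · have : Fact (1 < p ^ n) := ⟨Nat.one_lt_pow hn.ne' hpf.out.one_lt⟩
      rw [ZMod.val_one, pow_one]
  have hFX : ∀ j, F (1 + Ideal.Quotient.mk _ (MvPowerSeries.X j)) =
      MonoidAlgebra.single (gen j) (1 : O) := fun j => by
    rw [← map_one (Ideal.Quotient.mk (diamondIdeal O r p n)), ← map_add]
    exact hfX j
  have h1 : E.comp F = AlgHom.id O _ := by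
    refine Ideal.Quotient.algHom_ext _ (DefRing.algHom_ext_of_hausdorff _ _ (fun j => ?_)
      fun j => ?_)
    · refine (mem_maximalIdeal _).mpr fun hu => ?_
      have h2 : (E (F (Ideal.Quotient.mk _ (MvPowerSeries.X j)))) =
          Ideal.Quotient.mk (diamondIdeal O r p n) (MvPowerSeries.X j) := by
        have := (congrArg E (hFX j)).trans (hEgen j)
        rwa [map_add, map_add, map_one, map_one, add_right_inj] at this
      have h3 := (h2 ▸ hu : IsUnit (Ideal.Quotient.mk (diamondIdeal O r p n) (MvPowerSeries.X j)))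
      exact not_isUnit_mk_X r n j h3
    · have := (congrArg E (hFX j)).trans (hEgen j)
      rwa [map_add, map_add, map_one, map_one, add_right_inj] at this
  have h2 : F.comp E = AlgHom.id O _ := by
    apply MonoidAlgebra.algHom_ext'
    case single_one_left => exact Subsingleton.elim _ _
    refine MonoidHom.functions_ext _ _ _ fun j a => ?_
    change F (E (MonoidAlgebra.single (Pi.mulSingle j a) (1 : O))) =
      MonoidAlgebra.single (Pi.mulSingle j a) (1 : O)
    have ha : a = Multiplicative.ofAdd (1 : ZMod (p ^ n)) ^ (Multiplicative.toAdd a).val := by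
      rw [← ofAdd_nsmul, nsmul_eq_mul, mul_one, ZMod.natCast_zmod_val, ofAdd_toAdd]
    rw [ha, Pi.mulSingle_pow, ← one_pow (M := O) (Multiplicative.toAdd a).val,
      ← MonoidAlgebra.single_pow, map_pow, map_pow, hEgen, hFX]
  exact ⟨AlgEquiv.ofAlgHom E F h1 h2, fun g => (MonoidAlgebra.lift_single _ _ _).trans (one_smul _ _)⟩

/-- The diamond ring is finite free. -/
theorem finite_free_diamond [Fact p.Prime] (hp : (p : ResidueField O) = 0) (r n : ℕ) :
    Module.Finite O (Diamond O r p n) ∧ Module.Free O (Diamond O r p n) := by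
  have : NeZero (p ^ n) := ⟨pow_ne_zero n (Fact.out : p.Prime).ne_zero⟩
  obtain ⟨e, -⟩ := exists_diamond_equiv (O := O) hp r n
  exact ⟨Module.Finite.equiv e.toLinearEquiv, Module.Free.of_equiv e.toLinearEquiv⟩

section Kappa

variable (O) [Fact p.Prime]

omit [IsLocalRing O] [IsNoetherianRing O] [IsAdicComplete (maximalIdeal O) O] [Fact p.Prime] in
/-- A surjection from the units modulo a prime `q ≡ 1 (mod p^n)` onto `ℤ/p^n`. -/
theorem exists_dlog {q n : ℕ} (hq : q.Prime) (hn : p ^ n ∣ q - 1) :
    ∃ e : (ZMod q)ˣ →* Multiplicative (ZMod (p ^ n)), Function.Surjective e := by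
  have : Fact q.Prime := ⟨hq⟩
  have hc : Nat.card (ZMod q)ˣ = q - 1 := by rw [Nat.card_eq_fintype_card, ZMod.card_units]
  let e₁ := (zmodCyclicMulEquiv (inferInstance : IsCyclic (ZMod q)ˣ)).symm
  let e₂ : ZMod (Nat.card (ZMod q)ˣ) →+ ZMod (p ^ n) :=
    (ZMod.castHom (hc ▸ hn) (ZMod (p ^ n))).toAddMonoidHom
  exact ⟨(AddMonoidHom.toMultiplicative e₂).comp e₁.toMonoidHom,
    (ZMod.castHom_surjective (hc ▸ hn)).comp e₁.surjective⟩

/-- The character of `(ℤ/∏ Q)ˣ` with values in the diamond operators. -/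
def kappa {r n : ℕ} (Q : Fin r → ℕ)
    (e : ∀ j, (ZMod (Q j))ˣ →* Multiplicative (ZMod (p ^ n))) :
    (ZMod (∏ j, Q j))ˣ →* Diamond O r p n :=
  (diamondUnit O r n).comp <| MonoidHom.pi fun j =>
    (e j).comp (ZMod.unitsMap (Finset.dvd_prod_of_mem Q (Finset.mem_univ j)))

variable {O} {r n : ℕ} (Q : Fin r → ℕ) (e : ∀ j, (ZMod (Q j))ˣ →* Multiplicative (ZMod (p ^ n)))

omit [IsNoetherianRing O] [IsAdicComplete (maximalIdeal O) O] [IsLocalRing O] in
@[simp] theorem diamondCC_diamondUnit (g : DiamondGroup r p n) :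
    diamondCC O r p n (diamondUnit O r n g) = 1 := by
  simp only [diamondUnit, MonoidHom.coe_mk, OneHom.coe_mk, map_prod, map_pow, map_add, map_one]
  refine Finset.prod_eq_one fun j _ => ?_
  rw [show diamondCC O r p n (Ideal.Quotient.mk _ (MvPowerSeries.X j)) = 0 from
    MvPowerSeries.constantCoeff_X _, add_zero, one_pow]

omit [IsNoetherianRing O] [IsAdicComplete (maximalIdeal O) O] [IsLocalRing O] in
theorem diamondCC_kappa (u : (ZMod (∏ j, Q j))ˣ) : diamondCC O r p n (kappa O Q e u) = 1 :=
  diamondCC_diamondUnit _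

omit [IsNoetherianRing O] [IsAdicComplete (maximalIdeal O) O] in
theorem kappa_sub_one_mem (u : (ZMod (∏ j, Q j))ˣ) :
    kappa O Q e u - 1 ∈ maximalIdeal (Diamond O r p n) :=
  (mem_maximalIdeal _).mpr fun hu => by
    have := hu.map (diamondCC O r p n)
    rw [map_sub, diamondCC_kappa, map_one, sub_self] at this
    exact not_isUnit_zero this

omit [IsNoetherianRing O] [IsAdicComplete (maximalIdeal O) O] [IsLocalRing O] in
theorem kappa_sq_neg_one : (kappa O Q e * kappa O Q e) (-1) = 1 := by
  rw [MonoidHom.mul_apply, ← map_mul, neg_one_mul, neg_neg, map_one]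

omit [IsNoetherianRing O] [IsAdicComplete (maximalIdeal O) O] [IsLocalRing O] in
/-- Some unit, trivial modulo the other primes, goes to `1 + T_j`. -/
theorem exists_kappa_eq (hcop : Pairwise fun i j => (Q i).Coprime (Q j))
    (he : ∀ j, Function.Surjective (e j)) (hn : 0 < n) (j : Fin r) :
    ∃ u : (ZMod (∏ j, Q j))ˣ, (∀ i ≠ j, ZMod.unitsMap
        (Finset.dvd_prod_of_mem Q (Finset.mem_univ i)) u = 1) ∧
      kappa O Q e u = 1 + Ideal.Quotient.mk _ (MvPowerSeries.X j) := by
  obtain ⟨v, hv⟩ := he j (Multiplicative.ofAdd 1)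
  let E := (Units.mapEquiv (ZMod.prodEquivPi Q hcop).toMulEquiv).trans MulEquiv.piUnits
  have hE : ∀ u i, E u i = ZMod.unitsMap (Finset.dvd_prod_of_mem Q (Finset.mem_univ i)) u :=
    fun u i => Units.ext (by simp [E, ZMod.unitsMap_def])
  refine ⟨E.symm (Pi.mulSingle j v), fun i hi => ?_, ?_⟩
  · rw [← hE, MulEquiv.apply_symm_apply, Pi.mulSingle_eq_of_ne hi]
  rw [kappa, MonoidHom.comp_apply]
  have h1 : (MonoidHom.pi fun i => (e i).comp
      (ZMod.unitsMap (Finset.dvd_prod_of_mem Q (Finset.mem_univ i)))) (E.symm (Pi.mulSingle j v)) =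
      Pi.mulSingle j (Multiplicative.ofAdd 1) := funext fun i => by
    simp only [MonoidHom.pi_apply, MonoidHom.comp_apply]
    rw [← hE, MulEquiv.apply_symm_apply]
    rcases eq_or_ne i j with rfl | hi
    · rw [Pi.mulSingle_eq_same, Pi.mulSingle_eq_same, hv]
    · rw [Pi.mulSingle_eq_of_ne hi, Pi.mulSingle_eq_of_ne hi, map_one]
  rw [h1, diamondUnit_single, toAdd_ofAdd]
  have : Fact (1 < p ^ n) := ⟨Nat.one_lt_pow hn.ne' (Fact.out : p.Prime).one_lt⟩
  rw [ZMod.val_one, pow_one]

end Kappa

end FermatAgent.RTLift.Engine
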