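import Fermat.Agent.RTLift.Engine.SlotLimit

/-!
The wall at `p` for slots of three families: no condition at `p`, flat and strict.
-/

set_option autoImplicit false

noncomputable section

namespace FermatAgent.RTLift.Engine

open IsLocalRing FermatAgent.RTLift.Patch FermatAgent.RTLift.LocalRings Filter Matrix

variable {O : Type} [CommRing O] [IsDomain O] [IsDiscreteValuationRing O]
  [IsAdicComplete (maximalIdeal O) O] [Finite (ResidueField O)]
  {I : Type} [Finite I] {r rv rb p : ℕ} {D : Datum O I}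

omit [IsDomain O] [IsDiscreteValuationRing O] [IsAdicComplete (maximalIdeal O) O]
  [Finite (ResidueField O)] [Finite I] in
theorem map_framed {R R' : Type} [CommRing R] [CommRing R'] (f : R →+* R') (i : I)
    (M : Matrix (Fin 2) (Fin 2) R) :
    (framed i M).map (MvPowerSeries.map (σ := I × Fin 3) f) = framed i (M.map f) := by
  set g := MvPowerSeries.map (σ := I × Fin 3) f
  have hY : (frameY (R := R) i).map g = frameY i := by
    ext a b
    fin_cases a <;> fin_cases b <;> simp [g, frameY]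
  have hinv : ((frameY (R := R) i)⁻¹).map g = (frameY (R := R') i)⁻¹ := by
    refine (Matrix.inv_eq_right_inv ?_).symm
    rw [← hY, ← Matrix.map_mul, Matrix.mul_nonsing_inv _ (isUnit_det_frameY i),
      Matrix.map_one _ (map_zero _) (map_one _)]
  rw [framed, framed, Matrix.map_mul, Matrix.map_mul, hY, hinv]
  congr 2
  ext a b
  simp [g]

omit [IsAdicComplete (maximalIdeal O) O] [Finite (ResidueField O)] in
/-- The target rings of presentations are Hausdorff. -/
theorem isHausdorff_framedRing (F : Family D rv r) (n : ℕ) :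
    IsHausdorff (maximalIdeal (MvPowerSeries (I × Fin 3) (F.R n)))
      (MvPowerSeries (I × Fin 3) (F.R n)) := by
  have : IsNoetherianRing (F.R n) := IsNoetherianRing.of_finite O (F.R n)
  exact IsHausdorff.of_isLocalRing _ _ (maximalIdeal.isMaximal _).ne_top

omit [IsDomain O] [IsDiscreteValuationRing O] [IsAdicComplete (maximalIdeal O) O]
  [Finite (ResidueField O)] [Finite I] in
/-- Two maps with the same values on the local matrices agree at the local variables. -/
theorem map_X_inl_eq {A : Type} [CommRing A] [Algebra O A] {r₁ r₂ : ℕ}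
    (f : Ambient O I r₁ →ₐ[O] A) (g : Ambient O I r₂ →ₐ[O] A)
    (h₁ : ∀ i, (D.frob r₁ i).map f = (D.frob r₂ i).map g)
    (h₂ : ∀ i, (D.mono r₁ i).map f = (D.mono r₂ i).map g) (v : I × Fin 8) :
    f (MvPowerSeries.X (Sum.inl v)) = g (MvPowerSeries.X (Sum.inl v)) := by
  obtain ⟨i, j⟩ := v
  have e₁ : ∀ a b, f (MvPowerSeries.X (Sum.inl (i, idxΦ a b))) =
      g (MvPowerSeries.X (Sum.inl (i, idxΦ a b))) := fun a b => by
    have := congrFun (congrFun (h₁ i) a) b
    simpa [Datum.frob] using this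
  have e₂ : ∀ a b, f (MvPowerSeries.X (Sum.inl (i, idxN a b))) =
      g (MvPowerSeries.X (Sum.inl (i, idxN a b))) := fun a b => by
    have := congrFun (congrFun (h₂ i) a) b
    simpa [Datum.mono] using this
  fin_cases j
  · exact e₁ 0 0
  · exact e₁ 0 1
  · exact e₁ 1 0
  · exact e₁ 1 1
  · exact e₂ 0 0
  · exact e₂ 0 1
  · exact e₂ 1 0
  · exact e₂ 1 1

/-- A surjection of families respecting the local data and diamond elements. -/
structure FamilyMap (Fb : Family D rb r) (F : Family D rv r) where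
  /-- the maps -/
  φ : ∀ n, Fb.R n →ₐ[O] F.R n
  surjective : ∀ n, Function.Surjective (φ n)
  map_frob : ∀ n i, (Fb.frob n i).map (φ n) = F.frob n i
  map_mono : ∀ n i, (Fb.mono n i).map (φ n) = F.mono n i
  map_z : ∀ n j, φ n (Fb.z n j) = F.z n j

namespace FamilyMap

variable {Fb : Family D rb r} {F : Family D rv r} (f : FamilyMap Fb F)

/-- The pushed presentation. -/
def push (n : ℕ) : Ambient O I rb →ₐ[O] MvPowerSeries (I × Fin 3) (F.R n) :=
  { (MvPowerSeries.map (f.φ n).toRingHom).comp (Fb.π n).toRingHom with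
    commutes' := fun o => by
      change MvPowerSeries.map (f.φ n).toRingHom (Fb.π n (algebraMap O _ o)) = _
      rw [AlgHom.commutes, MvPowerSeries.algebraMap_apply, MvPowerSeries.algebraMap_apply,
        MvPowerSeries.map_C]
      exact congrArg _ ((f.φ n).commutes o) }

omit [IsDomain O] [IsDiscreteValuationRing O] [IsAdicComplete (maximalIdeal O) O]
  [Finite (ResidueField O)] [Finite I] in
theorem push_apply (n : ℕ) (x : Ambient O I rb) :
    f.push n x = MvPowerSeries.map (f.φ n).toRingHom (Fb.π n x) := rfl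

omit [IsDomain O] [IsDiscreteValuationRing O] [IsAdicComplete (maximalIdeal O) O]
  [Finite (ResidueField O)] [Finite I] in
theorem push_X_inl (n : ℕ) (v : I × Fin 8) :
    f.push n (MvPowerSeries.X (Sum.inl v)) = F.π n (MvPowerSeries.X (Sum.inl v)) := by
  refine map_X_inl_eq (D := D) (f.push n) (F.π n) (fun i => ?_) (fun i => ?_) v
  · rw [F.π_frob, ← f.map_frob]
    exact (congrArg (fun M => Matrix.map M (MvPowerSeries.map (f.φ n).toRingHom))
      (Fb.π_frob n i)).trans (map_framed _ _ _)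
  · rw [F.π_mono, ← f.map_mono]
    exact (congrArg (fun M => Matrix.map M (MvPowerSeries.map (f.φ n).toRingHom))
      (Fb.π_mono n i)).trans (map_framed _ _ _)

omit [IsAdicComplete (maximalIdeal O) O] [Finite (ResidueField O)] [Finite I] in
theorem push_X_mem (n : ℕ) (v : Vars I rb) :
    f.push n (MvPowerSeries.X v) ∈ maximalIdeal (MvPowerSeries (I × Fin 3) (F.R n)) := by
  have : IsLocalHom (f.φ n).toRingHom := IsLocalHom.of_surjective _ (f.surjective n)
  have : IsLocalHom (Fb.π n).toRingHom := IsLocalHom.of_surjective _ (Fb.π_surjective n)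
  refine (mem_maximalIdeal _).mpr fun hu => ?_
  rw [push_apply, MvPowerSeries.isUnit_iff_constantCoeff, MvPowerSeries.constantCoeff_map] at hu
  have h2 := (MvPowerSeries.isUnit_iff_constantCoeff.mpr ((isUnit_map_iff (f.φ n).toRingHom _).mp hu))
  have h3 := (isUnit_map_iff (Fb.π n).toRingHom _).mp h2
  rw [MvPowerSeries.isUnit_iff_constantCoeff, MvPowerSeries.constantCoeff_X] at h3
  exact not_isUnit_zero h3

/-- Lifts of the values of the variables. -/
def liftVal (n : ℕ) : Vars I rb → Ambient O I rv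
  | .inl v => MvPowerSeries.X (Sum.inl v)
  | .inr j => Function.surjInv (F.π_surjective n) (f.push n (MvPowerSeries.X (Sum.inr j)))

omit [IsDomain O] [IsDiscreteValuationRing O] [IsAdicComplete (maximalIdeal O) O]
  [Finite (ResidueField O)] [Finite I] in
theorem π_liftVal (n : ℕ) (v : Vars I rb) :
    F.π n (f.liftVal n v) = f.push n (MvPowerSeries.X v) := by
  rcases v with v | j
  · exact (f.push_X_inl n v).symm
  · exact Function.surjInv_eq (F.π_surjective n) _

omit [IsAdicComplete (maximalIdeal O) O] [Finite (ResidueField O)] [Finite I] in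
theorem liftVal_mem (n : ℕ) (v : Vars I rb) :
    f.liftVal n v ∈ maximalIdeal (Ambient O I rv) := by
  refine (mem_maximalIdeal _).mpr fun hu => (mem_maximalIdeal _).mp (f.push_X_mem n v) ?_
  rw [← f.π_liftVal]
  exact hu.map _

/-- The lift to the ambient rings. -/
def lift (n : ℕ) : Ambient O I rb →ₐ[O] Ambient O I rv :=
  (DefRing.exists_eval (f.liftVal n) (f.liftVal_mem n)).choose

omit [Finite (ResidueField O)] in
theorem lift_X (n : ℕ) (v : Vars I rb) : f.lift n (MvPowerSeries.X v) = f.liftVal n v :=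
  (DefRing.exists_eval (f.liftVal n) (f.liftVal_mem n)).choose_spec v

omit [Finite (ResidueField O)] in
theorem overLocal_lift (n : ℕ) : OverLocal (f.lift n) := fun v => f.lift_X n (.inl v)

omit [Finite (ResidueField O)] in
theorem π_lift (n : ℕ) (x : Ambient O I rb) : F.π n (f.lift n x) = f.push n x := by
  have := isHausdorff_framedRing F n
  refine DFunLike.congr_fun (DefRing.algHom_ext_of_hausdorff ((F.π n).comp (f.lift n)) (f.push n)
    (fun v => ?_) fun v => ?_) x
  · rw [AlgHom.comp_apply, f.lift_X, f.π_liftVal]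
    exact f.push_X_mem n v
  · rw [AlgHom.comp_apply, f.lift_X, f.π_liftVal]

/-- A slot read over the bigger family. -/
def pull {k : ℕ} (N : Slot F p k) : Slot Fb p k where
  act n := (N.act n).comp (f.φ n)
  act_z n j := by rw [AlgHom.comp_apply, f.map_z, N.act_z]

omit [IsDomain O] [IsDiscreteValuationRing O] [IsAdicComplete (maximalIdeal O) O]
  [Finite (ResidueField O)] [Finite I] in
theorem pull_act {k : ℕ} (N : Slot F p k) (n : ℕ) (x : Fb.R n) :
    (f.pull N).act n x = N.act n (f.φ n x) := rfl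

omit [Finite (ResidueField O)] in
theorem amb_pull {k : ℕ} (N : Slot F p k) (n : ℕ) :
    (f.pull N).amb n = (N.amb n).comp (f.lift n) := by
  refine AlgHom.ext fun x => ?_
  rw [AlgHom.comp_apply, Slot.amb_apply, Slot.amb_apply, f.π_lift, push_apply]
  set e := Module.Free.chooseBasis O (Fb.R n)
  conv_rhs => rw [← sum_coords e (Fb.π n x), map_sum, map_sum]
  conv_lhs => rw [← sum_coords e (Fb.π n x), map_sum]
  refine Finset.sum_congr rfl fun t _ => ?_
  have hG : ∀ G : MvPowerSeries (I × Fin 3) O, MvPowerSeries.map (f.φ n).toRingHom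
      (MvPowerSeries.map (algebraMap O (Fb.R n)) G) =
      MvPowerSeries.map (algebraMap O (F.R n)) G := fun G => MvPowerSeries.ext fun m => by
    simp [MvPowerSeries.coeff_map]
  rw [map_mul (MvPowerSeries.map (f.φ n).toRingHom), MvPowerSeries.map_C, hG, frameAct_map_mul_C,
    frameAct_map_mul_C]
  rfl

theorem piece_pull {k : ℕ} (N : Slot F p k) (hp : (p : ResidueField O) = 0) :
    (N.piece hp).comp (limHom f.lift) = (f.pull N).piece hp := by
  rw [Slot.piece, limAct_comp, Slot.piece]
  congr 1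
  funext n
  exact (f.amb_pull N n).symm

end FamilyMap

variable {k k' kK : ℕ}

/-- The wall data at `p`. -/
structure PWallData {Fb : Family D rb r} {F₁ F₂ : Family D rv r} (f₁ : FamilyMap Fb F₁)
    (f₂ : FamilyMap Fb F₂) (N : Slot F₁ p k) (N' : Slot Fb p k') (K : Slot F₂ p kK) where
  /-- restrictions -/
  res : ∀ n, Fin 2 → Matrix (Fin k') (Fin k) (Diamond O r p n)
  /-- their left inverses -/
  resInv : ∀ n, Fin 2 → Matrix (Fin k) (Fin k') (Diamond O r p n)
  /-- transfers -/
  tra : ∀ n, Fin 2 → Matrix (Fin k) (Fin k') (Diamond O r p n)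
  /-- their right inverses -/
  traInv : ∀ n, Fin 2 → Matrix (Fin k') (Fin k) (Diamond O r p n)
  /-- the projection to the cokernel -/
  pr : ∀ n, Matrix (Fin kK) (Fin k') (Diamond O r p n)
  /-- its section -/
  sec : ∀ n, Matrix (Fin k') (Fin kK) (Diamond O r p n)
  /-- the trace of Frobenius -/
  t : ∀ n, Fb.R n
  /-- the unit root -/
  u : ∀ n, F₁.R n
  tra_traInv : ∀ n i j, tra n i * traInv n j = if i = j then 1 else 0
  pr_sec : ∀ n, pr n * sec n = 1
  sec_pr : ∀ n, sec n * pr n = 1 - ∑ i, res n i * resInv n i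
  pr_res : ∀ n i, pr n * res n i = 0
  res_act : ∀ n i x, res n i * N.act n (f₁.φ n x) = N'.act n x * res n i
  tra_act : ∀ n i x, tra n i * N'.act n x = N.act n (f₁.φ n x) * tra n i
  coker_act : ∀ n x, K.act n (f₂.φ n x) = pr n * N'.act n x * sec n
  tra_res : ∀ n i j, tra n i * res n j =
    N.act n (f₁.φ n ((!![(p : Fb.R n) + 1, t n; t n, (p : Fb.R n) + 1]) i j))
  unit_root : ∀ n, N.act n (f₁.φ n (t n) * u n) = N.act n (u n ^ 2 + p)

/-- The limit of matrices of the diamond rings. -/
def uLvl {a b : ℕ} (X : ∀ n, Matrix (Fin a) (Fin b) (Diamond O r p n)) :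
    Matrix (Fin a) (Fin b) (Scal O I r) :=
  ulimMat (b := fun n => levelIdeal O I r p n) fun n => lvl (I := I) (X n)

section Lemmas

variable (hp : (p : ResidueField O) = 0)
include hp

theorem uLvl_mul {a b c : ℕ} (X : ∀ n, Matrix (Fin a) (Fin b) (Diamond O r p n))
    (Y : ∀ n, Matrix (Fin b) (Fin c) (Diamond O r p n)) :
    uLvl (I := I) X * uLvl (I := I) Y = uLvl (I := I) (fun n => X n * Y n) := by
  rw [uLvl, uLvl, uLvl, ← ulimMat_mul (shrinks_levelIdeal hp)]
  simp only [lvl_mul]

theorem uLvl_add {a b : ℕ} (X Y : ∀ n, Matrix (Fin a) (Fin b) (Diamond O r p n)) :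
    uLvl (I := I) X + uLvl (I := I) Y = uLvl (I := I) (fun n => X n + Y n) := by
  rw [uLvl, uLvl, uLvl, ← ulimMat_add (shrinks_levelIdeal hp)]
  simp only [lvl, Matrix.map_add _ (map_add _)]

theorem uLvl_one {a : ℕ} :
    uLvl (I := I) (fun n => (1 : Matrix (Fin a) (Fin a) (Diamond O r p n))) = 1 := by
  simp only [uLvl, lvl, Matrix.map_one _ (map_zero _) (map_one _)]
  exact ulimMat_one (shrinks_levelIdeal hp)

theorem uLvl_zero {a b : ℕ} :
    uLvl (I := I) (fun n => (0 : Matrix (Fin a) (Fin b) (Diamond O r p n))) = 0 := by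
  simp only [uLvl, lvl, Matrix.map_zero _ (map_zero _)]
  exact ulimMat_zero (shrinks_levelIdeal hp)

theorem uLvl_ite {a : ℕ} (P : Prop) [Decidable P] : uLvl (I := I)
    (fun n => if P then (1 : Matrix (Fin a) (Fin a) (Diamond O r p n)) else 0) =
      if P then 1 else 0 := by
  split_ifs
  · exact uLvl_one hp
  · exact uLvl_zero hp

theorem uLvl_sub_sum {a b : ℕ} (X : ∀ n, Fin 2 → Matrix (Fin a) (Fin b) (Diamond O r p n))
    (Y : ∀ n, Fin 2 → Matrix (Fin b) (Fin a) (Diamond O r p n)) :
    uLvl (I := I) (fun n => 1 - ∑ i, X n i * Y n i) =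
      1 - ∑ i, uLvl (I := I) (fun n => X n i) * uLvl (I := I) (fun n => Y n i) := by
  simp only [Fin.sum_univ_two, uLvl_mul hp]
  rw [eq_sub_iff_add_eq, uLvl_add hp, uLvl_add hp, ← uLvl_one hp]
  congr 1
  funext n
  rw [sub_add_cancel]

/-- The presentations with one variable fewer in the limit. -/
theorem exists_lift_gen {F₁ : Family D rv r} (N : Slot F₁ p k) {r' : ℕ}
    (u : ∀ n, F₁.R n) (η : ℤˣ) (hη : ∀ n, u n - ((η : ℤ) : F₁.R n) ∈ maximalIdeal (F₁.R n))
    (π' : ∀ n, Ambient O I r' →ₐ[O] MvPowerSeries (I × Fin 3) (F₁.R n))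
    (hπ' : ∀ n v, π' n (MvPowerSeries.X (Sum.inl v)) = F₁.π n (MvPowerSeries.X (Sum.inl v)))
    (hπ'm : ∀ n v, π' n (MvPowerSeries.X v) ∈ maximalIdeal (MvPowerSeries (I × Fin 3) (F₁.R n)))
    (hgen : ∀ n (j : Fin rv), ∃ (y : Ambient O I r') (c : MvPowerSeries (I × Fin 3) (F₁.R n)),
      F₁.π n (MvPowerSeries.X (Sum.inr j)) =
        π' n y + c * MvPowerSeries.C (u n - ((η : ℤ) : F₁.R n)))
    (ul : ℕ → Ambient O I rv) (hul : ∀ n, F₁.π n (ul n) = MvPowerSeries.C (u n)) :
    ulim ul - ((η : ℤ) : Ambient O I rv) ∈ maximalIdeal (Ambient O I rv) ∧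
    ∃ h : Ambient O I r' →ₐ[O] Ambient O I rv, OverLocal h ∧ ∀ x, ∃ y c,
      N.piece hp (x - h y - c * (ulim ul - ((η : ℤ) : Ambient O I rv))) = 0 := by
  have hs := shrinks_levelIdeal (I := I) (r := r) hp
  set x₀ := fun n => ul n - ((η : ℤ) : Ambient O I rv) with hx₀
  have hx : ulim ul - ((η : ℤ) : Ambient O I rv) = ulim x₀ := by
    rw [← ulimHom_apply, ← map_intCast (ulimHom (A := Ambient O I rv)), ← map_sub]
    exact congrArg _ (funext fun n => by simp [hx₀])
  have hx₀π : ∀ n, F₁.π n (x₀ n) = MvPowerSeries.C (u n - ((η : ℤ) : F₁.R n)) := fun n => by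
    rw [hx₀, map_sub, map_intCast, hul, map_sub, map_intCast]
  refine ⟨?_, ?_⟩
  · rw [hx]
    refine ulim_mem_of_eventually (Eventually.of_forall fun n => (mem_maximalIdeal _).mpr fun hu => ?_)
    have h1 := MvPowerSeries.isUnit_iff_constantCoeff.mp (hu.map (F₁.π n))
    rw [hx₀π, MvPowerSeries.constantCoeff_C] at h1
    exact (mem_maximalIdeal _).mp (hη n) h1
  let val : ∀ n, Vars I r' → Ambient O I rv := fun n v => match v with
    | .inl v => MvPowerSeries.X (Sum.inl v)
    | .inr j => Function.surjInv (F₁.π_surjective n) (π' n (MvPowerSeries.X (Sum.inr j)))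
  have hval : ∀ n v, F₁.π n (val n v) = π' n (MvPowerSeries.X v) := fun n v => by
    rcases v with v | j
    · exact (hπ' n v).symm
    · exact Function.surjInv_eq (F₁.π_surjective n) _
  choose h hh using fun n => DefRing.exists_eval (𝒪 := O) (val n) fun v =>
    (mem_maximalIdeal _).mpr fun hu => (mem_maximalIdeal _).mp (hπ'm n v)
      (hval n v ▸ hu.map (F₁.π n))
  have hπh : ∀ n x, F₁.π n (h n x) = π' n x := fun n x => by
    have := isHausdorff_framedRing F₁ n
    refine DFunLike.congr_fun (DefRing.algHom_ext_of_hausdorff ((F₁.π n).comp (h n)) (π' n)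
      (fun v => ?_) fun v => ?_) x
    · rw [AlgHom.comp_apply, hh, hval]
      exact hπ'm n v
    · rw [AlgHom.comp_apply, hh, hval]
  refine ⟨limHom h, overLocal_limHom h fun n v => hh n (.inl v), fun x => ?_⟩
  suffices hJ : ∃ y, x - limHom h y ∈
      RingHom.ker (N.piece hp).toRingHom ⊔ Ideal.span {ulim x₀} by
    obtain ⟨y, hy⟩ := hJ
    obtain ⟨a, ha, b, hb, hab⟩ := Submodule.mem_sup.mp hy
    obtain ⟨c, rfl⟩ := Ideal.mem_span_singleton'.mp hb
    exact ⟨y, c, by rw [hx, ← hab, add_sub_cancel_right]; exact ha⟩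
  refine surjective_mod_of_vars (limHom h) _ (fun v => ?_) x
  rcases v with v | j
  · exact ⟨MvPowerSeries.X (Sum.inl v), by
      rw [overLocal_limHom h (fun n v => hh n (.inl v)) v, sub_self]; exact zero_mem _⟩
  choose y c hyc using fun n => hgen n j
  choose cl hcl using fun n => F₁.π_surjective n (c n)
  refine ⟨ulim y, Submodule.mem_sup.mpr ⟨ulim fun n => MvPowerSeries.X (Sum.inr j) - h n (y n) -
    cl n * x₀ n, ?_, ulim cl * ulim x₀,
    Ideal.mul_mem_left _ _ (Ideal.mem_span_singleton_self _), ?_⟩⟩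
  · change limAct hp N.amb _ = 0
    rw [limAct_ulim]
    refine (ulimMat_congr hs (g := fun _ => 0) (Eventually.of_forall fun n => ?_)).trans
      (ulimMat_zero hs)
    rw [Slot.amb_apply, map_sub (F₁.π n), map_sub (F₁.π n), map_mul (F₁.π n), hπh, hcl, hx₀π, hyc,
      add_sub_cancel_left, sub_self, map_zero]
  · have e1 : limHom h (ulim y) = ulim fun n => h n (y n) :=
      ulimRingHom_ulim (fun n => (h n).toRingHom) y
    rw [e1, ← ulim_mul, ← ulim_add, ← ulimHom_apply, ← ulimHom_apply,
      ← ulim_const (MvPowerSeries.X (Sum.inr j) : Ambient O I rv), ← ulimHom_apply, ← map_sub]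
    congr 1
    funext n
    simp

end Lemmas

variable [CharZero O] [Fintype I] [DecidableEq I] {ζ : I → O}

omit [DecidableEq I] in
/-- Raising at `p` for slots. `η` is the residual unit root; the flat rings are generated by one
variable fewer modulo `u - η`. -/
theorem PWallData.raise {Fb : Family D rb r} {F₁ F₂ : Family D r r} {f₁ : FamilyMap Fb F₁}
    {f₂ : FamilyMap Fb F₂} {N : Slot F₁ p k} {N' : Slot Fb p k'} {K : Slot F₂ p kK}
    (w : PWallData f₁ f₂ N N' K) (hp : (p : ResidueField O) = 0) (hV : D.Valid p ζ) {r' : ℕ}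
    (hr : r' + 1 = r) (η : ℤˣ) (hη : ∀ n, w.u n - ((η : ℤ) : F₁.R n) ∈ maximalIdeal (F₁.R n))
    (π' : ∀ n, Ambient O I r' →ₐ[O] MvPowerSeries (I × Fin 3) (F₁.R n))
    (hπ' : ∀ n v, π' n (MvPowerSeries.X (Sum.inl v)) = F₁.π n (MvPowerSeries.X (Sum.inl v)))
    (hπ'm : ∀ n v, π' n (MvPowerSeries.X v) ∈ maximalIdeal (MvPowerSeries (I × Fin 3) (F₁.R n)))
    (hgen : ∀ n (j : Fin r), ∃ (y : Ambient O I r') (c : MvPowerSeries (I × Fin 3) (F₁.R n)),
      F₁.π n (MvPowerSeries.X (Sum.inr j)) =
        π' n y + c * MvPowerSeries.C (w.u n - ((η : ℤ) : F₁.R n)))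
    {A : I → Cfg} (hA : ∀ i, D.Allowed i (A i)) (hAp : IsPlain A)
    (hsupp : RingHom.ker (N.piece hp).toRingHom ≤ D.cfgIdeal r A)
    {𝒞 : Finset (I → Cfg)} (h𝒞 : Listed D 𝒞) (h𝒞p : ∀ B ∈ 𝒞, IsPlain B) (hkill : K.Kills 𝒞) :
    RingHom.ker (K.piece hp).toRingHom ≤ D.cfgIdeal r A := by
  have hs := shrinks_levelIdeal (I := I) (r := r) hp
  choose tl htl using fun n => Fb.π_surjective n (MvPowerSeries.C (w.t n))
  choose ul hul using fun n => F₁.π_surjective n (MvPowerSeries.C (w.u n))
  obtain ⟨hu1, h, hloc, hsurj⟩ := exists_lift_gen hp N w.u η hη π' hπ' hπ'm hgen ul hul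
  have hsb : HasScalars ((N.piece hp).comp (limHom f₁.lift)) Fb.zlim := by
    rw [f₁.piece_pull]; exact (f₁.pull N).hasScalars hp
  refine raise_p (A := A) (u := ulim ul) (η := η) (t := ulim tl) hV hr (limHom f₁.lift)
    (limHom f₂.lift) (overLocal_limHom _ f₁.overLocal_lift) (overLocal_limHom _ f₂.overLocal_lift)
    hsb (N'.hasScalars hp) (K.hasScalars hp)
    (fun i => uLvl fun n => w.res n i) (fun i => uLvl fun n => w.resInv n i)
    (fun i => uLvl fun n => w.tra n i) (fun i => uLvl fun n => w.traInv n i)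
    (uLvl w.pr) (uLvl w.sec)
    (fun i j => ?_) ?_ ?_ (fun i => ?_) (fun i x => ?_) (fun i x => ?_) (fun x => ?_)
    (fun i j => ?_) ?_ hu1 h hloc hsurj hA hAp hsupp h𝒞 h𝒞p (K.prod_le_ker_piece hp hkill)
  · rw [uLvl_mul hp (fun n => w.tra n i) (fun n => w.traInv n j)]
    simp only [w.tra_traInv]
    exact uLvl_ite hp _
  · rw [uLvl_mul hp w.pr w.sec]
    simp only [w.pr_sec]
    exact uLvl_one hp
  · rw [uLvl_mul hp w.sec w.pr, ← uLvl_sub_sum hp]
    simp only [w.sec_pr]
  · rw [uLvl_mul hp w.pr (fun n => w.res n i)]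
    simp only [w.pr_res]
    exact uLvl_zero hp
  · rw [← AlgHom.comp_apply, f₁.piece_pull]
    exact limAct_intertwine hp (f₁.pull N).amb N'.amb _ x
      (Eventually.of_forall fun n => frameAct_intertwine _ _ _ _ (w.res_act n i) _)
  · rw [← AlgHom.comp_apply, f₁.piece_pull]
    exact limAct_intertwine hp N'.amb (f₁.pull N).amb _ x
      (Eventually.of_forall fun n => frameAct_intertwine _ _ _ _ (w.tra_act n i) _)
  · rw [← AlgHom.comp_apply, f₂.piece_pull, Slot.piece, Slot.piece, uLvl, uLvl, limAct_apply, limAct_apply,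
      ← ulimMat_mul hs, ← ulimMat_mul hs]
    refine ulimMat_congr hs (Eventually.of_forall fun n => ?_)
    simp only [Slot.amb_apply]
    set e := Module.Free.chooseBasis O (Fb.R n)
    rw [← sum_coords e (Fb.π n x), map_sum, map_sum, Matrix.mul_sum, Matrix.sum_mul]
    refine Finset.sum_congr rfl fun s _ => ?_
    rw [frameAct_map_mul_C, frameAct_map_mul_C, f₂.pull_act, w.coker_act, lvl_eq_toLevel,
      lvl_eq_toLevel, lvl_mul, lvl_mul, ← Matrix.mul_assoc (lvl (w.pr n)), mul_scalY]
    simp only [Matrix.mul_assoc]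
  · rw [← AlgHom.comp_apply, f₁.piece_pull,
      uLvl_mul hp (fun n => w.tra n i) (fun n => w.res n j)]
    have hent : (!![(p : Ambient O I rb) + 1, ulim tl; ulim tl, (p : Ambient O I rb) + 1]) i j =
        ulim fun n => (!![(p : Ambient O I rb) + 1, tl n; tl n, (p : Ambient O I rb) + 1]) i j := by
      fin_cases i <;> fin_cases j <;> simp
    rw [hent, Slot.piece, limAct_ulim, uLvl]
    refine ulimMat_congr hs (Eventually.of_forall fun n => ?_)
    rw [w.tra_res, ← f₁.pull_act, ← lvl_eq_toLevel]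
    refine ((f₁.pull N).amb_of_π ?_).symm
    fin_cases i <;> fin_cases j <;> simp [htl]
  · have e1 : limHom f₁.lift (ulim tl) = ulim fun n => f₁.lift n (tl n) :=
      ulimRingHom_ulim (fun n => (f₁.lift n).toRingHom) tl
    have e2 : limHom f₁.lift (ulim tl) * ulim ul = ulim fun n => f₁.lift n (tl n) * ul n := by
      rw [e1, ← ulim_mul]; rfl
    have e3 : ulim ul ^ 2 + (p : Ambient O I r) = ulim fun n => ul n ^ 2 + (p : Ambient O I r) := by
      simp only [← ulimHom_apply]
      rw [← map_pow, ← map_natCast (ulimHom (A := Ambient O I r)), ← map_add]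
      exact congrArg _ (funext fun n => by simp)
    rw [e2, e3, Slot.piece, limAct_ulim, limAct_ulim]
    refine ulimMat_congr hs (Eventually.of_forall fun n => ?_)
    rw [Slot.amb_apply, Slot.amb_apply, map_mul (F₁.π n), f₁.π_lift, FamilyMap.push_apply, htl,
      MvPowerSeries.map_C, hul, map_add (F₁.π n), map_pow (F₁.π n), hul, map_natCast,
      ← map_mul MvPowerSeries.C, ← map_pow MvPowerSeries.C,
      ← map_natCast (MvPowerSeries.C (σ := I × Fin 3) (R := F₁.R n)),
      ← map_add MvPowerSeries.C, frameAct_C, frameAct_C]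
    exact congrArg _ (w.unit_root n)

end FermatAgent.RTLift.Engine
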