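import Fermat.Agent.RTLift.Engine.WallMaps
import Fermat.Agent.RTLift.Engine.SlotAtP
import Fermat.Agent.RTLift.Engine.DiamondRing

/-!
Slots and wall data from actions on modules with bases; the point of a quotient slot at `p`.
-/

set_option autoImplicit false

noncomputable section

namespace FermatAgent.RTLift.Engine

open IsLocalRing FermatAgent.RTLift.Patch FermatAgent.RTLift.LocalRings Filter Matrix

variable {O : Type} [CommRing O] {I : Type} [Finite I] {r rv p : ℕ} {D : Datum O I}
  {F : Family D rv r} {k k' : ℕ}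
  {M : ℕ → Type} [∀ n, AddCommGroup (M n)] [∀ n, Module (Diamond O r p n) (M n)]
  [∀ n, Module O (M n)] [∀ n, IsScalarTower O (Diamond O r p n) (M n)]
  {M' : ℕ → Type} [∀ n, AddCommGroup (M' n)] [∀ n, Module (Diamond O r p n) (M' n)]
  [∀ n, Module O (M' n)] [∀ n, IsScalarTower O (Diamond O r p n) (M' n)]
  (b : ∀ n, Module.Basis (Fin k) (Diamond O r p n) (M n))
  (b' : ∀ n, Module.Basis (Fin k') (Diamond O r p n) (M' n))
  (act : ∀ n, F.R n →ₐ[O] Module.End (Diamond O r p n) (M n))
  (act' : ∀ n, F.R n →ₐ[O] Module.End (Diamond O r p n) (M' n))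

/-- A slot from actions on modules with bases. -/
def Slot.ofActs (hz : ∀ n j, act n (F.z n j) =
    algebraMap (Diamond O r p n) (Module.End (Diamond O r p n) (M n)) (diamondZ O r p n j)) :
    Slot F p k where
  act n := (toMat (b n)).comp (act n)
  act_z n j := by
    rw [AlgHom.comp_apply, hz]
    exact (LinearMap.toMatrixAlgEquiv (b n)).commutes _

omit [Finite I] in
theorem Slot.ofActs_act (hz) (n : ℕ) (x : F.R n) :
    (Slot.ofActs b act hz).act n x = LinearMap.toMatrix (b n) (b n) (act n x) := rfl

variable {hz : ∀ n j, act n (F.z n j) =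
    algebraMap (Diamond O r p n) (Module.End (Diamond O r p n) (M n)) (diamondZ O r p n j)}
  {hz' : ∀ n j, act' n (F.z n j) =
    algebraMap (Diamond O r p n) (Module.End (Diamond O r p n) (M' n)) (diamondZ O r p n j)}

/-- Wall data of slots from linear wall maps. -/
def WallData.ofLin (i0 : I)
    (w : ∀ n, LinWall (act n) (act' n) (D.q i0 : F.R n) (F.frob n i0).trace) :
    WallData (Slot.ofActs b act hz) (Slot.ofActs b' act' hz') i0 where
  res n i := LinearMap.toMatrix (b n) (b' n) ((w n).res i)
  resInv n i := LinearMap.toMatrix (b' n) (b n) ((w n).resInv i)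
  tra n i := LinearMap.toMatrix (b' n) (b n) ((w n).tra i)
  traInv n i := LinearMap.toMatrix (b n) (b' n) ((w n).traInv i)
  resInv_res n i j := by
    rw [← LinearMap.toMatrix_comp, show ((w n).resInv i).comp ((w n).res j) =
      if i = j then LinearMap.id else 0 from LinearMap.ext fun v => by
        rw [LinearMap.comp_apply, (w n).resInv_res]; split_ifs <;> rfl]
    split_ifs
    · exact LinearMap.toMatrix_id _
    · exact map_zero _
  tra_traInv n i j := by
    rw [← LinearMap.toMatrix_comp, show ((w n).tra i).comp ((w n).traInv j) =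
      if i = j then LinearMap.id else 0 from LinearMap.ext fun v => by
        rw [LinearMap.comp_apply, (w n).tra_traInv]; split_ifs <;> rfl]
    split_ifs
    · exact LinearMap.toMatrix_id _
    · exact map_zero _
  res_act n i x := by
    rw [Slot.ofActs_act, Slot.ofActs_act, ← LinearMap.toMatrix_comp, ← LinearMap.toMatrix_comp]
    exact congrArg _ (LinearMap.ext fun v => (w n).res_act i x v)
  tra_act n i x := by
    rw [Slot.ofActs_act, Slot.ofActs_act, ← LinearMap.toMatrix_comp, ← LinearMap.toMatrix_comp]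
    exact congrArg _ (LinearMap.ext fun v => (w n).tra_act i x v)
  tra_res n i j := by
    rw [Slot.ofActs_act, ← LinearMap.toMatrix_comp]
    exact congrArg _ (LinearMap.ext fun v => (w n).tra_res i j v)

omit [Finite I] in
/-- Configurations sending the module into the sum of the restrictions kill the cokernel. -/
theorem WallData.kills_ofLin {i0 : I}
    (w : ∀ n, LinWall (act n) (act' n) (D.q i0 : F.R n) (F.frob n i0).trace)
    {𝒞 : Finset (I → Cfg)}
    (h : ∀ᶠ n in atTop, ∀ y ∈ ∏ B ∈ 𝒞, F.cfgIdealR n B, ∀ v, ∃ u : Fin 2 → M n,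
      act' n y v = ∑ i, (w n).res i (u i)) :
    (WallData.ofLin b b' act act' (hz := hz) (hz' := hz') i0 w).Kills 𝒞 := by
  refine h.mono fun n hn y hy => ⟨fun i =>
    LinearMap.toMatrix (b' n) (b n) (((w n).resInv i).comp (act' n y)), ?_⟩
  simp only [WallData.ofLin, Slot.ofActs_act, ← LinearMap.toMatrix_comp, ← map_sum]
  refine congrArg _ (LinearMap.ext fun v => ?_)
  obtain ⟨u, hu⟩ := hn y hy v
  rw [LinearMap.sum_apply]
  simp only [LinearMap.comp_apply, hu, map_sum, (w n).resInv_res]
  simp

omit [Finite I] in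
/-- The kills of a slot from those of its actions. -/
theorem Slot.kills_ofActs {𝒞 : Finset (I → Cfg)}
    (h : ∀ᶠ n in atTop, ∀ y ∈ ∏ B ∈ 𝒞, F.cfgIdealR n B, act n y = 0) :
    (Slot.ofActs b act hz).Kills 𝒞 :=
  h.mono fun n hn y hy => by rw [Slot.ofActs_act, hn y hy, map_zero]

/-- The diamond elements act as their values. -/
theorem act_z_of_values {R : Type} [CommRing R] [Algebra O R] {n : ℕ} {A : Type} [Ring A]
    [Algebra O A] [Algebra (Diamond O r p n) A] (f : R →ₐ[O] A) (z : R) (j : Fin r)
    (h : f z = algebraMap (Diamond O r p n) A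
      ((1 + Ideal.Quotient.mk _ (MvPowerSeries.X j)) +
        Ring.inverse (1 + Ideal.Quotient.mk _ (MvPowerSeries.X j)) - 2)) :
    f z = algebraMap (Diamond O r p n) A (diamondZ O r p n j) := by
  rw [h]
  congr 1
  set u : MvPowerSeries (Fin r) O := 1 + MvPowerSeries.X j
  have hu : IsUnit u := by
    rw [MvPowerSeries.isUnit_iff_constantCoeff]
    simp [u]
  set m := Ideal.Quotient.mk (diamondIdeal O r p n)
  have hv : Ring.inverse (m u) = m (Ring.inverse u) := by
    refine (hu.map m).mul_left_cancel ?_
    rw [Ring.mul_inverse_cancel _ (hu.map m), ← map_mul, Ring.mul_inverse_cancel _ hu, map_one]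
  have hm : m u = 1 + m (MvPowerSeries.X j) := by rw [map_add, map_one]
  rw [← hm, hv, ← map_add, diamondZ, show (2 : Diamond O r p n) = m 2 from (map_ofNat m 2).symm,
    ← map_sub]
  refine congrArg m (hu.mul_left_cancel ?_)
  rw [mul_sub, mul_add, Ring.mul_inverse_cancel _ hu,
    show u * (MvPowerSeries.X j ^ 2 * Ring.inverse (1 + MvPowerSeries.X j)) =
      MvPowerSeries.X j ^ 2 * (u * Ring.inverse u) by ring,
    Ring.mul_inverse_cancel _ hu]
  simp only [u]
  ring

section Coker

variable {Λ : Type} [CommRing Λ] [Algebra O Λ] {Rb : Type} [CommRing Rb] [Algebra O Rb]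
  {P P' : Type} [AddCommGroup P] [Module Λ P] [Module O P] [IsScalarTower O Λ P]
  [AddCommGroup P'] [Module Λ P'] [Module O P'] [IsScalarTower O Λ P']
  {aP : Rb →ₐ[O] Module.End Λ P} {aP' : Rb →ₐ[O] Module.End Λ P'} {q tr : Rb}
  (w : LinWall aP aP' q tr)

/-- The complement of the restrictions. -/
def LinWall.coker : Submodule Λ P' := ⨅ i, LinearMap.ker (w.resInv i)

theorem LinWall.mem_coker {v : P'} : v ∈ w.coker ↔ ∀ i, w.resInv i v = 0 := by
  simp [LinWall.coker, Submodule.mem_iInf]

theorem LinWall.resInv_sum (j : Fin 2) (u : Fin 2 → P) :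
    w.resInv j (∑ i, w.res i (u i)) = u j := by
  fin_cases j <;> simp [Fin.sum_univ_two, w.resInv_res]

/-- The projection to the complement. -/
def LinWall.proj : P' →ₗ[Λ] w.coker :=
  (LinearMap.id - ∑ i, (w.res i).comp (w.resInv i)).codRestrict _ fun v => by
    rw [w.mem_coker]
    intro j
    rw [LinearMap.sub_apply, LinearMap.id_apply, LinearMap.sum_apply]
    simp only [LinearMap.comp_apply]
    rw [map_sub, w.resInv_sum, sub_self]

theorem LinWall.coe_proj (v : P') :
    (w.proj v : P') = v - ∑ i, w.res i (w.resInv i v) := by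
  simp [LinWall.proj]

theorem LinWall.proj_coe (v : w.coker) : w.proj v = v := Subtype.ext (by
  rw [w.coe_proj]
  simp [w.mem_coker.mp v.2])

theorem LinWall.proj_res (i : Fin 2) (v : P) : w.proj (w.res i v) = 0 := Subtype.ext (by
  rw [w.coe_proj]
  fin_cases i <;> simp [Fin.sum_univ_two, w.resInv_res])

theorem LinWall.proj_sum (u : Fin 2 → P) : w.proj (∑ i, w.res i (u i)) = 0 := by
  rw [map_sum]
  simp [w.proj_res]

/-- The action induced on the complement by a surjection killing it. -/
theorem LinWall.exists_cokerAct {R₂ : Type} [CommRing R₂] [Algebra O R₂] (φ : Rb →ₐ[O] R₂)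
    (hφ : Function.Surjective φ)
    (hk : ∀ y, φ y = 0 → ∀ v, ∃ u : Fin 2 → P, aP' y v = ∑ i, w.res i (u i)) :
    ∃ aK : R₂ →ₐ[O] Module.End Λ w.coker,
      ∀ y v, aK (φ y) (w.proj v) = w.proj (aP' y v) := by
  choose σ hσ using hφ
  let g : Rb → Module.End Λ w.coker := fun y => w.proj.comp ((aP' y).comp w.coker.subtype)
  have hg : ∀ y v, g y (w.proj v) = w.proj (aP' y v) := fun y v => by
    change w.proj (aP' y (w.proj v : P')) = _
    rw [w.coe_proj, map_sub, map_sub, map_sum]
    simp only [← w.res_act, w.proj_sum, sub_zero]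
  have key : ∀ y y', φ y = φ y' → g y = g y' := fun y y' h => LinearMap.ext fun v => by
    obtain ⟨u, hu⟩ := hk (y - y') (by rw [map_sub, h, sub_self]) (v : P')
    have h0 : w.proj (aP' (y - y') (v : P')) = 0 := by rw [hu, w.proj_sum]
    rw [map_sub, LinearMap.sub_apply, map_sub, sub_eq_zero] at h0
    exact h0
  refine ⟨
    { toFun := fun x => g (σ x)
      map_one' := (key _ 1 (by rw [hσ, map_one])).trans (LinearMap.ext fun v => by
        change w.proj (aP' 1 (v : P')) = v
        rw [map_one, Module.End.one_apply, w.proj_coe])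
      map_mul' := fun a c => (key _ (σ a * σ c) (by rw [map_mul, hσ, hσ, hσ])).trans
        (LinearMap.ext fun v => by
          change w.proj (aP' (σ a * σ c) (v : P')) = g (σ a) (w.proj (aP' (σ c) (v : P')))
          rw [hg, map_mul, Module.End.mul_apply])
      map_zero' := (key _ 0 (by rw [hσ, map_zero])).trans (LinearMap.ext fun v => by
        change w.proj (aP' 0 (v : P')) = 0
        rw [map_zero, LinearMap.zero_apply, map_zero])
      map_add' := fun a c => (key _ (σ a + σ c) (by rw [map_add, hσ, hσ, hσ])).trans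
        (LinearMap.ext fun v => by
          change w.proj (aP' (σ a + σ c) (v : P')) =
            w.proj (aP' (σ a) (v : P')) + w.proj (aP' (σ c) (v : P'))
          rw [map_add, LinearMap.add_apply, map_add])
      commutes' := fun o => (key _ (algebraMap O Rb o) (by rw [hσ, AlgHom.commutes])).trans
        (LinearMap.ext fun v => by
          change w.proj (aP' (algebraMap O Rb o) (v : P')) = _
          rw [AlgHom.commutes, Module.algebraMap_end_apply, LinearMap.map_smul_of_tower,
            w.proj_coe, Module.algebraMap_end_apply]) },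
    fun y v => ?_⟩
  change g (σ (φ y)) (w.proj v) = _
  rw [key _ y (hσ _), hg]

/-- The rank of the complement. -/
theorem LinWall.exists_basis_coker [IsLocalRing Λ] [Module.Finite Λ P'] [Module.Projective Λ P']
    {k k' : ℕ} (b : Module.Basis (Fin k) Λ P) (b' : Module.Basis (Fin k') Λ P') :
    Nonempty (Module.Basis (Fin (k' - 2 * k)) Λ w.coker) := by
  let E : ((Fin 2 → P) × w.coker) ≃ₗ[Λ] P' :=
    LinearEquiv.ofLinearMap
      ((LinearMap.lsum Λ (fun _ : Fin 2 => P) Λ w.res).coprod w.coker.subtype)
      ((LinearMap.pi w.resInv).prod w.proj)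
      (LinearMap.ext fun v => by
        simp [LinearMap.lsum_apply, w.coe_proj])
      (LinearMap.ext fun v => Prod.ext (funext fun i => by
          simp [LinearMap.lsum_apply, w.resInv_res, w.mem_coker.mp v.2.2]
          fin_cases i <;> simp)
        (by simp [LinearMap.lsum_apply, w.proj_res, w.proj_coe]))
  have : Module.Finite Λ w.coker :=
    Module.Finite.of_surjective w.proj fun v => ⟨v, w.proj_coe v⟩
  have : Module.Projective Λ w.coker :=
    Module.Projective.of_split w.coker.subtype w.proj (LinearMap.ext w.proj_coe)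
  have : Module.Free Λ w.coker := Module.free_of_flat_of_isLocalRing
  have : Module.Finite Λ P := Module.Finite.of_basis b
  have : Module.Free Λ P := Module.Free.of_basis b
  have h := E.finrank_eq
  rw [Module.finrank_prod, Module.finrank_pi_fintype, Finset.sum_const, Finset.card_univ,
    Fintype.card_fin, Module.finrank_eq_card_basis b, Module.finrank_eq_card_basis b',
    Fintype.card_fin, Fintype.card_fin, smul_eq_mul] at h
  exact ⟨Module.finBasisOfFinrankEq Λ w.coker (by omega)⟩

end Coker

section PWall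

variable {rb kK : ℕ} {Fb : Family D rb r} {F₁ F₂ : Family D rv r} {f₁ : FamilyMap Fb F₁}
  {f₂ : FamilyMap Fb F₂} (act₁ : ∀ n, F₁.R n →ₐ[O] Module.End (Diamond O r p n) (M n))
  (actb : ∀ n, Fb.R n →ₐ[O] Module.End (Diamond O r p n) (M' n))
  (t : ∀ n, Fb.R n) (u : ∀ n, F₁.R n)
  (wP : ∀ n, LinWall ((act₁ n).comp (f₁.φ n)) (actb n) (p : Fb.R n) (t n))
  (bK : ∀ n, Module.Basis (Fin kK) (Diamond O r p n) (wP n).coker)
  (actK : ∀ n, F₂.R n →ₐ[O] Module.End (Diamond O r p n) (wP n).coker)

/-- Wall data at `p` of slots from linear wall maps. -/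
def PWallData.ofLin (hK : ∀ n y v, actK n (f₂.φ n y) ((wP n).proj v) = (wP n).proj (actb n y v))
    (hu : ∀ n, act₁ n (f₁.φ n (t n) * u n) = act₁ n (u n ^ 2 + p))
    (hz₁ : ∀ n j, act₁ n (F₁.z n j) =
      algebraMap (Diamond O r p n) (Module.End (Diamond O r p n) (M n)) (diamondZ O r p n j))
    (hzb : ∀ n j, actb n (Fb.z n j) =
      algebraMap (Diamond O r p n) (Module.End (Diamond O r p n) (M' n)) (diamondZ O r p n j))
    (hzK : ∀ n j, actK n (F₂.z n j) =
      algebraMap (Diamond O r p n) (Module.End (Diamond O r p n) (wP n).coker)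
        (diamondZ O r p n j)) :
    PWallData f₁ f₂ (Slot.ofActs b act₁ hz₁) (Slot.ofActs b' actb hzb)
      (Slot.ofActs bK actK hzK) where
  res n i := LinearMap.toMatrix (b n) (b' n) ((wP n).res i)
  resInv n i := LinearMap.toMatrix (b' n) (b n) ((wP n).resInv i)
  tra n i := LinearMap.toMatrix (b' n) (b n) ((wP n).tra i)
  traInv n i := LinearMap.toMatrix (b n) (b' n) ((wP n).traInv i)
  pr n := LinearMap.toMatrix (b' n) (bK n) (wP n).proj
  sec n := LinearMap.toMatrix (bK n) (b' n) (wP n).coker.subtype
  t := t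
  u := u
  tra_traInv n i j := by
    rw [← LinearMap.toMatrix_comp, show ((wP n).tra i).comp ((wP n).traInv j) =
      if i = j then LinearMap.id else 0 from LinearMap.ext fun v => by
        rw [LinearMap.comp_apply, (wP n).tra_traInv]; split_ifs <;> rfl]
    split_ifs
    · exact LinearMap.toMatrix_id _
    · exact map_zero _
  pr_sec n := by
    rw [← LinearMap.toMatrix_comp, ← LinearMap.toMatrix_id (bK n)]
    exact congrArg _ (LinearMap.ext (wP n).proj_coe)
  sec_pr n := by
    simp only [← LinearMap.toMatrix_comp, ← map_sum]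
    rw [← LinearMap.toMatrix_id (b' n), ← map_sub]
    exact congrArg _ (LinearMap.ext fun v => by simp [(wP n).coe_proj])
  pr_res n i := by
    rw [← LinearMap.toMatrix_comp, show (wP n).proj.comp ((wP n).res i) = 0 from
      LinearMap.ext ((wP n).proj_res i), map_zero]
  res_act n i x := by
    rw [Slot.ofActs_act, Slot.ofActs_act, ← LinearMap.toMatrix_comp, ← LinearMap.toMatrix_comp]
    exact congrArg _ (LinearMap.ext fun v => (wP n).res_act i x v)
  tra_act n i x := by
    rw [Slot.ofActs_act, Slot.ofActs_act, ← LinearMap.toMatrix_comp, ← LinearMap.toMatrix_comp]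
    exact congrArg _ (LinearMap.ext fun v => (wP n).tra_act i x v)
  coker_act n x := by
    rw [Slot.ofActs_act, Slot.ofActs_act, ← LinearMap.toMatrix_comp, ← LinearMap.toMatrix_comp]
    refine congrArg _ (LinearMap.ext fun v => ?_)
    conv_lhs => rw [← (wP n).proj_coe v, hK]
    rfl
  tra_res n i j := by
    rw [Slot.ofActs_act, ← LinearMap.toMatrix_comp]
    exact congrArg _ (LinearMap.ext fun v => (wP n).tra_res i j v)
  unit_root n := by rw [Slot.ofActs_act, Slot.ofActs_act, hu]

end PWall

end FermatAgent.RTLift.Engine
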