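import Fermat.Agent.RTLift.Engine.Configs

/-!
The wall at `p`: from the component of the curve in the flat family at level `N` to the strict
component at level `N p`. Three rings: `Rb` (no condition at `p`), flat and strict.
-/

set_option autoImplicit false

noncomputable section

namespace FermatAgent.RTLift.Engine

open IsLocalRing FermatAgent.RTLift.Patch FermatAgent.RTLift.LocalRings Matrix

section Local

variable {O : Type} [CommRing O] {I : Type} {r r' : ℕ}

/-- A map of ambient rings over the local variables. -/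
def OverLocal (ψ : Ambient O I r →ₐ[O] Ambient O I r') : Prop :=
  ∀ v : I × Fin 8, ψ (MvPowerSeries.X (Sum.inl v)) = MvPowerSeries.X (Sum.inl v)

variable {ψ : Ambient O I r →ₐ[O] Ambient O I r'}

theorem OverLocal.map_frob (hψ : OverLocal ψ) (D : Datum O I) (i : I) :
    (D.frob r i).map ψ = D.frob r' i := by
  ext a b
  simp only [Datum.frob, Matrix.map_apply, Matrix.of_apply, map_add, AlgHom.commutes, hψ _]

theorem OverLocal.map_mono (hψ : OverLocal ψ) (D : Datum O I) (i : I) :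
    (D.mono r i).map ψ = D.mono r' i := by
  ext a b
  simp only [Datum.mono, Matrix.map_apply, Matrix.of_apply, map_add, AlgHom.commutes, hψ _]

theorem OverLocal.map_cfgIdeal (hψ : OverLocal ψ) (D : Datum O I) (A : I → Cfg) :
    (D.cfgIdeal r A).map ψ = D.cfgIdeal r' A := by
  change (D.cfgIdeal r A).map ψ.toRingHom = _
  rw [Datum.cfgIdeal, Datum.cfgIdeal, Ideal.map_iSup]
  refine iSup_congr fun i => ?_
  rw [Datum.localIdeal, Datum.localIdeal, Ideal.map_span, ← cfgEqns_map, map_natCast]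
  congr 2
  · exact ψ.commutes _
  · exact hψ.map_frob D i
  · exact hψ.map_mono D i

theorem OverLocal.cfgIdeal_le_comap (hψ : OverLocal ψ) (D : Datum O I) (A : I → Cfg) :
    D.cfgIdeal r A ≤ (D.cfgIdeal r' A).comap ψ :=
  Ideal.map_le_iff_le_comap.mp (hψ.map_cfgIdeal D A).le

end Local

variable {O : Type} [CommRing O] [IsDomain O] [IsDiscreteValuationRing O]
  [IsAdicComplete (maximalIdeal O) O] [Finite (ResidueField O)] [CharZero O]
  {I : Type} [Fintype I] [DecidableEq I] {r r' rb : ℕ} {D : Datum O I} {p : ℕ} {ζ : I → O}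

omit [DecidableEq I] [Finite (ResidueField O)] in
/-- A component cut by a non-unit, generated over the local variables by one fewer variable,
stays prime, and its trace on the smaller ring is the component there. -/
theorem cut_component (hV : D.Valid p ζ) (hr : r' + 1 = r) {A : I → Cfg}
    (hA : ∀ i, D.Allowed i (A i)) (_hAw : ∀ i, ¬ (A i).IsWall) {x₀ : Ambient O I r}
    (hx₀ : x₀ ∈ maximalIdeal (Ambient O I r)) (h : Ambient O I r' →ₐ[O] Ambient O I r)
    (hh : OverLocal h)
    (hsurj : ∀ x, ∃ y c, x - h y - c * x₀ ∈ D.cfgIdeal r A) :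
    (D.cfgIdeal r A ⊔ Ideal.span {x₀}).IsPrime ∧
      (D.cfgIdeal r A ⊔ Ideal.span {x₀}).comap h = D.cfgIdeal r' A := by
  set P := D.cfgIdeal r A ⊔ Ideal.span {x₀}
  set P' := D.cfgIdeal r' A
  obtain ⟨hPr, -, hdim⟩ := cfgIdeal_isPrime_and_dim (r := r) D hV hA
  obtain ⟨hP'r, -, hdim'⟩ := cfgIdeal_isPrime_and_dim (r := r') D hV hA
  have hle : P' ≤ P.comap h :=
    (hh.cfgIdeal_le_comap D A).trans (Ideal.comap_mono le_sup_left)
  let g : Ambient O I r' ⧸ P' →+* Ambient O I r ⧸ P := Ideal.quotientMap P h.toRingHom hle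
  have hg : Function.Surjective g := fun y => by
    obtain ⟨x, rfl⟩ := Ideal.Quotient.mk_surjective y
    obtain ⟨y, c, hy⟩ := hsurj x
    refine ⟨Ideal.Quotient.mk P' y, ?_⟩
    change Ideal.Quotient.mk P (h y) = _
    rw [eq_comm, Ideal.Quotient.eq, show x - h y = (x - h y - c * x₀) + c * x₀ by ring]
    exact add_mem (Submodule.mem_sup_left hy)
      (Ideal.mul_mem_left _ _ (Submodule.mem_sup_right (Ideal.mem_span_singleton_self _)))
  have hinj : Function.Injective g := by
    rw [injective_iff_map_eq_zero]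
    intro a ha
    by_contra ha0
    have : IsDomain (Ambient O I r' ⧸ P') := Ideal.Quotient.isDomain _
    have h1 := ringKrullDim_succ_le_of_surjective g hg (mem_nonZeroDivisors_of_ne_zero ha0) ha
    have : IsDomain (Ambient O I r ⧸ D.cfgIdeal r A) := Ideal.Quotient.isDomain _
    have : IsLocalRing (Ambient O I r ⧸ D.cfgIdeal r A) :=
      .of_surjective' (Ideal.Quotient.mk _) Ideal.Quotient.mk_surjective
    set x := Ideal.Quotient.mk (D.cfgIdeal r A) x₀
    have h2 := ringKrullDim_le_ringKrullDim_quotient_add_spanFinrank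
      (Ideal.span {x}) (by
        rw [IsLocalRing.ringJacobson_eq_maximalIdeal, Ideal.span_le, Set.singleton_subset_iff,
          SetLike.mem_coe, ← IsLocalRing.map_maximalIdeal_of_surjective _
            (Ideal.Quotient.mk_surjective (I := D.cfgIdeal r A))]
        exact Ideal.mem_map_of_mem _ hx₀)
    have h3 : ringKrullDim ((Ambient O I r ⧸ D.cfgIdeal r A) ⧸ Ideal.span {x}) =
        ringKrullDim (Ambient O I r ⧸ P) := by
      refine ringKrullDim_eq_of_ringEquiv ((Ideal.quotEquivOfEq ?_).trans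
        (DoubleQuot.quotQuotEquivQuotSup (D.cfgIdeal r A) (Ideal.span {x₀})))
      rw [Ideal.map_span, Set.image_singleton]
    rw [h3, hdim] at h2
    rw [hdim'] at h1
    have h4 : ((Ideal.span {x}).spanFinrank : WithBot ℕ∞) ≤ 1 := by
      have := Submodule.spanFinrank_span_le_ncard_of_finite
        (R := Ambient O I r ⧸ D.cfgIdeal r A) (Set.finite_singleton x)
      rw [Set.ncard_singleton] at this
      exact_mod_cast this
    have h5 := ((h2.trans (add_le_add_right h4 _)).trans h1)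
    norm_cast at h5
    omega
  have : IsDomain (Ambient O I r' ⧸ P') := Ideal.Quotient.isDomain _
  have e : (Ambient O I r' ⧸ P') ≃+* (Ambient O I r ⧸ P) := RingEquiv.ofBijective g ⟨hinj, hg⟩
  have : IsDomain (Ambient O I r ⧸ P) := MulEquiv.isDomain _ e.symm.toMulEquiv
  refine ⟨(Ideal.Quotient.isDomain_iff_prime P).mp inferInstance, le_antisymm (fun y hy => ?_) hle⟩
  rw [← Ideal.Quotient.eq_zero_iff_mem]
  refine hinj ?_
  rw [map_zero]
  exact Ideal.Quotient.eq_zero_iff_mem.mpr hy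

variable {α β : Type} [Fintype α] [DecidableEq α] [Fintype β] [DecidableEq β]
  {act₁ : Ambient O I r →ₐ[O] Matrix α α (Scal O I r)}
  {act' : Ambient O I rb →ₐ[O] Matrix β β (Scal O I r)}
  {k : ℕ} {act₂ : Ambient O I r →ₐ[O] Matrix (Fin k) (Fin k) (Scal O I r)}
  {z₁ z₂ : CVars I r → Ambient O I r} {zb : CVars I r → Ambient O I rb}

omit [DecidableEq I] in
/-- Raising at `p`. -/
theorem raise_p (hV : D.Valid p ζ) (hr : r' + 1 = r)
    (ψ₁ ψ₂ : Ambient O I rb →ₐ[O] Ambient O I r) (hψ₁ : OverLocal ψ₁) (hψ₂ : OverLocal ψ₂)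
    (hsb : HasScalars (act₁.comp ψ₁) zb) (hs' : HasScalars act' zb) (hs₂ : HasScalars act₂ z₂)
    (F : Fin 2 → Matrix β α (Scal O I r)) (G : Fin 2 → Matrix α β (Scal O I r))
    (T : Fin 2 → Matrix α β (Scal O I r)) (V : Fin 2 → Matrix β α (Scal O I r))
    (Pr : Matrix (Fin k) β (Scal O I r)) (L : Matrix β (Fin k) (Scal O I r))
    (hTV : ∀ i j, T i * V j = if i = j then 1 else 0)
    (hPL : Pr * L = 1) (hLP : L * Pr = 1 - ∑ i, F i * G i) (hPF : ∀ i, Pr * F i = 0)
    (hF : ∀ i x, F i * act₁ (ψ₁ x) = act' x * F i) (hT : ∀ i x, T i * act' x = act₁ (ψ₁ x) * T i)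
    (h₂ : ∀ x, act₂ (ψ₂ x) = Pr * act' x * L)
    (t : Ambient O I rb) (hE : ∀ i j, T i * F j =
      act₁ (ψ₁ ((!![(p : Ambient O I rb) + 1, t; t, (p : Ambient O I rb) + 1]) i j)))
    (u : Ambient O I r) (η : ℤˣ) (hu : act₁ (ψ₁ t * u) = act₁ (u ^ 2 + p))
    (huη : u - ((η : ℤ) : Ambient O I r) ∈ maximalIdeal (Ambient O I r))
    (h : Ambient O I r' →ₐ[O] Ambient O I r) (hh : OverLocal h)
    (hsurj : ∀ x, ∃ y c, act₁ (x - h y - c * (u - ((η : ℤ) : Ambient O I r))) = 0)
    {A : I → Cfg} (hA : ∀ i, D.Allowed i (A i)) (hAp : IsPlain A)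
    (hsupp : RingHom.ker act₁.toRingHom ≤ D.cfgIdeal r A)
    {𝒞 : Finset (I → Cfg)} (h𝒞 : Listed D 𝒞) (h𝒞p : ∀ B ∈ 𝒞, IsPlain B)
    (hkill : ∏ B ∈ 𝒞, D.cfgIdeal r B ≤ RingHom.ker act₂.toRingHom) :
    RingHom.ker act₂.toRingHom ≤ D.cfgIdeal r A := by
  obtain ⟨hQp, hQc⟩ := cut_component hV hr hA
    (fun i => by rcases hAp i with h | ⟨_, h⟩ <;> simp [h, Cfg.IsWall]) huη h hh
    (fun x => by
      obtain ⟨y, c, hy⟩ := hsurj x
      exact ⟨y, c, hsupp hy⟩)
  set Q := D.cfgIdeal r A ⊔ Ideal.span {u - ((η : ℤ) : Ambient O I r)}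
  have hQ1 : RingHom.ker act₁.toRingHom ≤ Q := hsupp.trans le_sup_left
  set Pb := Q.comap ψ₁ with hPb
  have : Pb.IsPrime := Ideal.IsPrime.comap ψ₁
  have hdet : (!![(p : Ambient O I rb) + 1, t; t, (p : Ambient O I rb) + 1]).det ∈ Pb := by
    rw [hPb, Ideal.mem_comap, ← Ideal.Quotient.eq_zero_iff_mem]
    have hu' : Ideal.Quotient.mk Q (ψ₁ t * u - (u ^ 2 + p)) = 0 :=
      Ideal.Quotient.eq_zero_iff_mem.mpr (hQ1 (show act₁ _ = 0 by rw [map_sub, hu, sub_self]))
    have hη : Ideal.Quotient.mk Q u = ((η : ℤ) : Ambient O I r ⧸ Q) := by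
      rw [← map_intCast (Ideal.Quotient.mk Q), Ideal.Quotient.eq]
      exact Submodule.mem_sup_right (Ideal.mem_span_singleton_self _)
    simp only [map_sub, map_mul, map_add, map_pow, map_natCast, hη] at hu'
    simp only [Matrix.det_fin_two, Matrix.of_apply, Matrix.cons_val', Matrix.cons_val_zero,
      Matrix.cons_val_one, Matrix.cons_val_fin_one, map_sub, map_mul, map_add, map_one, map_natCast]
    have hη2 := int_units_mul_self (S := Ambient O I r ⧸ Q) η
    linear_combination (-(Ideal.Quotient.mk Q (ψ₁ t) * ((η : ℤ) : Ambient O I r ⧸ Q))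
        - ((p : Ambient O I r ⧸ Q) + 1)) * hu' +
      (Ideal.Quotient.mk Q (ψ₁ t) * Ideal.Quotient.mk Q (ψ₁ t)
        - Ideal.Quotient.mk Q (ψ₁ t) * ((η : ℤ) : Ambient O I r ⧸ Q)
        - ((p : Ambient O I r ⧸ Q) + 1)) * hη2
  have hle : RingHom.ker (act₂.comp ψ₂).toRingHom ≤ Pb := fun x hx => by
    have hx' : Pr * act' x * L = 0 := (h₂ x).symm.trans hx
    exact wall_step hsb F T (fun i => G i * act' x) V hF hT hTV _ hE hdet
      (fun y hy => hQ1 hy) (eq_sum_mul_of_compress (act := act₁.comp ψ₁) F G Pr L hLP hPF hF hx')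
  -- `R₂ / ker act₂` is finite over `Rb`
  have hs2b : HasScalars (act₂.comp ψ₂) zb := hs'.compress Pr L hPL h₂
  have := hs2b.finite
  set K := RingHom.ker act₂.toRingHom
  let : Algebra (Ambient O I rb) (Ambient O I r ⧸ K) :=
    ((Ideal.Quotient.mk K).comp ψ₂.toRingHom).toAlgebra
  have : Module.Finite (Ambient O I rb) (Ambient O I r ⧸ K) := by
    let M := Fin k → Slot (act₂.comp ψ₂).toRingHom
    let e : (Ambient O I r ⧸ K) →+ M :=
      { toFun := fun x j => (Slot.toFun _).symm (RingHom.kerLift act₂.toRingHom x *ᵥ Pi.single j 1)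
        map_zero' := funext fun j => by rw [map_zero, Matrix.zero_mulVec, map_zero]; rfl
        map_add' := fun x y => funext fun j => by
          rw [map_add, Matrix.add_mulVec, map_add]; rfl }
    let eL : (Ambient O I r ⧸ K) →ₗ[Ambient O I rb] M :=
      { e with
        map_smul' := fun a x => funext fun j => by
          refine (Slot.toFun (act₂.comp ψ₂).toRingHom).injective ?_
          change RingHom.kerLift act₂.toRingHom (a • x) *ᵥ Pi.single j 1 =
            act₂ (ψ₂ a) *ᵥ (RingHom.kerLift act₂.toRingHom x *ᵥ Pi.single j 1)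
          rw [Algebra.smul_def, map_mul, Matrix.mulVec_mulVec]
          rfl }
    refine Module.Finite.of_injective eL fun x y hxy => ?_
    refine RingHom.kerLift_injective act₂.toRingHom (Matrix.ext fun i j => ?_)
    have h1 := congrArg (fun m : M => Slot.toFun _ (m j) i) hxy
    change (RingHom.kerLift act₂.toRingHom x *ᵥ Pi.single j 1) i =
      (RingHom.kerLift act₂.toRingHom y *ᵥ Pi.single j 1) i at h1
    simpa using h1
  obtain ⟨P2q, -, hP2q, hcomap⟩ := Ideal.exists_ideal_over_prime_of_isIntegral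
    (S := Ambient O I r ⧸ K) Pb ⊥ (fun x hx => hle (show act₂ (ψ₂ x) = 0 from
      Ideal.Quotient.eq_zero_iff_mem.mp (Ideal.mem_bot.mp (Ideal.mem_comap.mp hx))))
  set P2 := P2q.comap (Ideal.Quotient.mk K)
  have : P2.IsPrime := Ideal.IsPrime.comap _
  obtain ⟨B, hB, hBP, hBk⟩ := exists_cfg (P := P2) hV hs₂ h𝒞 hkill
    (fun x hx => Ideal.mem_comap.mpr (by rw [Ideal.Quotient.eq_zero_iff_mem.mpr hx]; exact zero_mem _))
  have hBb : D.cfgIdeal rb B ≤ Pb :=
    ((hψ₂.cfgIdeal_le_comap D B).trans (Ideal.comap_mono hBP)).trans hcomap.le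
  have hBQ : D.cfgIdeal r B ≤ Q := by
    rw [← hψ₁.map_cfgIdeal D B]
    exact Ideal.map_le_iff_le_comap.mpr hBb
  have hBA := eq_of_le hV hA hAp (h𝒞p B hB)
    (((hh.cfgIdeal_le_comap D B).trans (Ideal.comap_mono hBQ)).trans hQc.le)
  exact hBA ▸ hBk

end FermatAgent.RTLift.Engine
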