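import Mathlib.RingTheory.AdicCompletion.Functoriality
import Mathlib.RingTheory.KrullDimension.NonZeroDivisors
import Mathlib.RingTheory.Ideal.KrullsHeightTheorem
import Fermat.Prelude.Thm_IsAdicComplete_of_module_finite
import Fermat.Agent.RTLift.Patch.PowerSeries
import Fermat.Agent.RTLift.Patch.Support

/-!
The scalar ring of the patched family: `O[[Z, Y]]` mapping to `O[[T, Y]]` by
`Z ↦ T² / (1 + T)`, a finite injective map between rings of the same dimension.
-/

set_option autoImplicit false

noncomputable section

namespace FermatAgent.RTLift.Engine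

open IsLocalRing FermatAgent.RTLift.Patch

/-- A homomorphism of complete local rings with finite residue field is finite when the image of
the maximal ideal contains a power of the maximal ideal. -/
theorem finite_of_pow_le_map {A S : Type} [CommRing A] [IsLocalRing A] [IsNoetherianRing A]
    [IsAdicComplete (maximalIdeal A) A] [CommRing S] [IsLocalRing S] [IsNoetherianRing S]
    [Finite (ResidueField S)] (f : A →+* S) (hf : (maximalIdeal A).map f ≤ maximalIdeal S) (N : ℕ)
    (h : maximalIdeal S ^ N ≤ (maximalIdeal A).map f) : f.Finite := by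
  classical
  let : Algebra A S := f.toAlgebra
  have hlt : (maximalIdeal A).map (algebraMap A S) ≤ maximalIdeal S := hf
  have hfin : Finite (S ⧸ (maximalIdeal A).map (algebraMap A S)) := by
    have := finite_quotient_maximalIdeal_pow (A := S) N
    exact Finite.of_surjective _ (Ideal.Quotient.factor_surjective h)
  have : Fintype (S ⧸ (maximalIdeal A).map (algebraMap A S)) := Fintype.ofFinite _
  let L : (S ⧸ (maximalIdeal A).map (algebraMap A S) → A) →ₗ[A] S :=
    Fintype.linearCombination A fun q => Quotient.out q
  have hJ : IsHausdorff ((maximalIdeal A).map (algebraMap A S)) S :=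
    IsHausdorff.of_isLocalRing _ S (ne_top_of_le_ne_top (maximalIdeal.isMaximal S).ne_top hlt)
  have : IsHausdorff (maximalIdeal A) S :=
    (IsHausdorff.map_algebraMap_iff (I := maximalIdeal A) (S := S) (M := S)).mp hJ
  have := IsAdicComplete.of_module_finite (maximalIdeal A)
    (S ⧸ (maximalIdeal A).map (algebraMap A S) → A)
  refine Module.Finite.of_surjective L
    (surjective_of_mkQ_comp_surjective (I := maximalIdeal A) fun y => ?_)
  obtain ⟨s, rfl⟩ := Submodule.mkQ_surjective _ y
  refine ⟨Pi.single (Ideal.Quotient.mk _ s) 1, ?_⟩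
  simp only [LinearMap.coe_comp, Function.comp_apply, L, Submodule.mkQ_apply,
    Fintype.linearCombination_apply_single, one_smul, Submodule.Quotient.eq,
    Ideal.smul_top_eq_map, Submodule.restrictScalars_mem]
  rw [← Ideal.Quotient.eq, mk_out]

variable {O : Type} [CommRing O] [IsLocalRing O]

/-- The variables of the scalar ring. -/
abbrev SVars (I : Type) (r : ℕ) : Type := Fin r ⊕ (I × Fin 3)

/-- The variables `(Y, Z)` of the coefficient ring. -/
abbrev CVars (I : Type) (r : ℕ) : Type := (I × Fin 3) ⊕ Fin r

/-- The coefficient ring `O[[Y, Z]]`. -/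
abbrev Coef (O : Type) (I : Type) (r : ℕ) : Type := MvPowerSeries (CVars I r) O

/-- The scalar ring `O[[T, Y]]`. -/
abbrev Scal (O : Type) (I : Type) (r : ℕ) : Type := MvPowerSeries (SVars I r) O

variable {I : Type} {r : ℕ}

/-- The values of the variables `(Y, Z)` in `O[[T, Y]]`. -/
def zval : CVars I r → Scal O I r
  | .inr j => MvPowerSeries.X (.inl j) ^ 2 * Ring.inverse (1 + MvPowerSeries.X (.inl j))
  | .inl y => MvPowerSeries.X (.inr y)

omit [IsLocalRing O] in
theorem isUnit_one_add_X (j : SVars I r) : IsUnit (1 + MvPowerSeries.X j : Scal O I r) := by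
  rw [MvPowerSeries.isUnit_iff_constantCoeff]
  simp

omit [IsLocalRing O] in
/-- The diamond value: `z (1 + T) = T²`. -/
theorem zval_mul (j : Fin r) :
    zval (O := O) (I := I) (.inr j) * (1 + MvPowerSeries.X (.inl j)) = MvPowerSeries.X (.inl j) ^ 2 := by
  rw [zval, mul_assoc, Ring.inverse_mul_cancel _ (isUnit_one_add_X _), mul_one]

variable [Finite I]

omit [Finite I] in
theorem zval_mem (v : CVars I r) : zval (O := O) v ∈ maximalIdeal (Scal O I r) := by
  have hX : ∀ w : SVars I r, (MvPowerSeries.X w : Scal O I r) ∈ maximalIdeal (Scal O I r) :=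
    fun w => DefRing.varIdeal_le (Ideal.subset_span ⟨w, rfl⟩)
  rcases v with y | j
  · exact hX _
  · exact Ideal.mul_mem_right _ _ (Ideal.pow_mem_of_mem _ (hX _) _ (by norm_num))

variable [IsNoetherianRing O] [IsAdicComplete (maximalIdeal O) O] [Finite (ResidueField O)]

variable (O I r) in
/-- The map `O[[Y, Z]] → O[[T, Y]]`. -/
def zHom : Coef O I r →ₐ[O] Scal O I r :=
  (DefRing.exists_eval (zval (O := O) (I := I) (r := r)) zval_mem).choose

omit [Finite (ResidueField O)] in
theorem zHom_X (v : CVars I r) : zHom O I r (MvPowerSeries.X v) = zval v :=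
  (DefRing.exists_eval (zval (O := O) (I := I) (r := r)) zval_mem).choose_spec v

omit [Finite (ResidueField O)] in
theorem map_maximalIdeal_zHom :
    (maximalIdeal (Coef O I r)).map (zHom O I r).toRingHom ≤ maximalIdeal (Scal O I r) := by
  rw [DefRing.maximalIdeal_eq, Ideal.map_sup, sup_le_iff, Ideal.map_map]
  refine ⟨Ideal.map_le_iff_le_comap.mpr fun o ho => ?_,
    DefRing.map_varIdeal_le (zHom O I r) fun v => by rw [zHom_X]; exact zval_mem v⟩
  rw [Ideal.mem_comap, RingHom.comp_apply, AlgHom.toRingHom_eq_coe, RingHom.coe_coe,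
    AlgHom.commutes, DefRing.mem_maximalIdeal_iff, MvPowerSeries.algebraMap_apply]
  simpa using ho

theorem finite_zHom : (zHom O I r).toRingHom.Finite := by
  set J := (maximalIdeal (Coef O I r)).map (zHom O I r).toRingHom with hJ
  suffices h : ∃ N, maximalIdeal (Scal O I r) ^ N ≤ J by
    obtain ⟨N, hN⟩ := h
    exact finite_of_pow_le_map _ map_maximalIdeal_zHom N hN
  refine Ideal.exists_pow_le_of_le_radical_of_fg ?_ (IsNoetherian.noetherian _)
  have hz : ∀ v : CVars I r, zval v ∈ J := fun v => by
    rw [← zHom_X]
    exact Ideal.mem_map_of_mem _ (DefRing.varIdeal_le (Ideal.subset_span ⟨v, rfl⟩))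
  rw [DefRing.maximalIdeal_eq, sup_le_iff]
  refine ⟨Ideal.map_le_iff_le_comap.mpr fun o ho => Ideal.mem_comap.mpr (Ideal.le_radical ?_),
    Ideal.span_le.mpr ?_⟩
  · rw [← (zHom O I r).commutes o]
    refine Ideal.mem_map_of_mem _ ?_
    rw [DefRing.mem_maximalIdeal_iff, MvPowerSeries.algebraMap_apply]
    simpa using ho
  · rintro _ ⟨j | y, rfl⟩
    · exact ⟨2, by rw [← zval_mul]; exact Ideal.mul_mem_right _ _ (hz _)⟩
    · exact Ideal.le_radical (hz (.inl y))

section Dim

variable [IsDomain O] [IsDiscreteValuationRing O]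

omit [IsAdicComplete (maximalIdeal O) O] [Finite (ResidueField O)] [IsLocalRing O]
  [IsNoetherianRing O] [IsDomain O] [IsDiscreteValuationRing O] in
theorem add_natCard_le_ringKrullDim {σ : Type} [Finite σ] :
    ringKrullDim O + Nat.card σ ≤ ringKrullDim (MvPowerSeries σ O) := by
  induction σ using Finite.induction_empty_option with
  | of_equiv e H =>
    rw [← Nat.card_congr e]
    exact H.trans (ringKrullDim_eq_of_ringEquiv (MvPowerSeries.renameEquiv O e).toRingEquiv).le
  | h_empty =>
    simp only [Nat.card_of_isEmpty, Nat.cast_zero, add_zero]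
    exact ringKrullDim_le_of_surjective MvPowerSeries.constantCoeff
      fun o => ⟨MvPowerSeries.C o, MvPowerSeries.constantCoeff_C o⟩
  | @h_option σ _ IH =>
    classical
    rw [Nat.card_eq_fintype_card, Fintype.card_option, Nat.cast_add, Nat.cast_one, ← add_assoc,
      ← Nat.card_eq_fintype_card]
    refine (add_le_add_left IH 1).trans ?_
    refine ringKrullDim_succ_le_of_surjective (MvPowerSeries.killCompl (R := O)
      (Function.Embedding.some (α := σ))).toRingHom
      (fun p => ⟨_, MvPowerSeries.killCompl_rename_app p⟩)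
      (MvPowerSeries.X_mem_nonzeroDivisors (i := none)) ?_
    exact MvPowerSeries.killCompl_X_eq_zero (by simp)

omit [IsLocalRing O] [IsAdicComplete (maximalIdeal O) O] [Finite (ResidueField O)] in
theorem ringKrullDim_mvPowerSeries {σ : Type} [Finite σ] :
    ringKrullDim (MvPowerSeries σ O) = ((1 + Nat.card σ : ℕ) : WithBot ℕ∞) := by
  classical
  have : Fintype σ := Fintype.ofFinite _
  have hO : ringKrullDim O = 1 := IsPrincipalIdealRing.ringKrullDim_eq_one O
    (IsDiscreteValuationRing.not_isField O)
  refine le_antisymm ?_ ((le_of_eq ?_).trans add_natCard_le_ringKrullDim)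
  · obtain ⟨ϖ, hϖ⟩ := IsDiscreteValuationRing.exists_irreducible O
    refine (ringKrullDim_le_spanFinrank_maximalIdeal _).trans ?_
    let U : Finset (MvPowerSeries σ O) :=
      insert (algebraMap O _ ϖ) (Finset.univ.image MvPowerSeries.X)
    have hU : maximalIdeal (MvPowerSeries σ O) = Ideal.span (U : Set _) := by
      rw [DefRing.maximalIdeal_eq, hϖ.maximalIdeal_eq, Ideal.map_span, Set.image_singleton,
        ← Ideal.span_union, Finset.coe_insert, Set.singleton_union]
      simp
    rw [hU]
    refine WithBot.coe_le_coe.mpr (Nat.cast_le.mpr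
      ((Submodule.spanFinrank_span_le_ncard_of_finite U.finite_toSet).trans ?_))
    rw [Set.ncard_coe_finset, Nat.card_eq_fintype_card]
    exact (Finset.card_insert_le _ _).trans
      (by rw [Nat.add_comm 1]; exact Nat.succ_le_succ (Finset.card_image_le.trans Finset.card_univ.le))
  · rw [hO, Nat.cast_add, Nat.cast_one]

omit [IsLocalRing O] [IsAdicComplete (maximalIdeal O) O] [Finite (ResidueField O)] in
theorem ringKrullDim_scal [Fintype I] :
    ringKrullDim (Scal O I r) = ((1 + r + ∑ _i : I, 3 : ℕ) : WithBot ℕ∞) := by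
  rw [ringKrullDim_mvPowerSeries]
  congr 1
  simp [Fintype.card_sum, Fintype.card_prod]
  ring

omit [IsLocalRing O] [IsAdicComplete (maximalIdeal O) O] [Finite (ResidueField O)] in
theorem ringKrullDim_coef :
    ringKrullDim (Coef O I r) = ringKrullDim (Scal O I r) := by
  rw [ringKrullDim_mvPowerSeries, ringKrullDim_mvPowerSeries, Nat.card_congr (Equiv.sumComm _ _)]

-- `zHom` is stated over the complete local ring `O`, so `[IsLocalRing O]` stays next to the
-- valuation ring instance.
set_option linter.overlappingInstances false in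
theorem zHom_injective : Function.Injective (zHom O I r) := by
  rw [injective_iff_map_eq_zero]
  intro a ha
  by_contra h0
  have : IsDomain (Coef O I r) := NoZeroDivisors.to_isDomain _
  set f := (zHom O I r).toRingHom
  let : Algebra (Coef O I r ⧸ RingHom.ker f) (Scal O I r) := (RingHom.kerLift f).toAlgebra
  have : Module.Finite (Coef O I r ⧸ RingHom.ker f) (Scal O I r) :=
    RingHom.Finite.of_comp_finite (f := Ideal.Quotient.mk (RingHom.ker f))
      (g := RingHom.kerLift f) finite_zHom
  have : Algebra.IsIntegral (Coef O I r ⧸ RingHom.ker f) (Scal O I r) :=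
    Algebra.IsIntegral.of_finite _ _
  have h1 : ringKrullDim (Scal O I r) = ringKrullDim (Coef O I r ⧸ RingHom.ker f) :=
    ringKrullDim_eq_of_isIntegral (RingHom.kerLift_injective f)
  have h2 := ringKrullDim_succ_le_of_surjective (Ideal.Quotient.mk (RingHom.ker f))
    Ideal.Quotient.mk_surjective (mem_nonZeroDivisors_of_ne_zero h0)
    (Ideal.Quotient.eq_zero_iff_mem.mpr ha)
  rw [← h1, ringKrullDim_coef, ringKrullDim_mvPowerSeries] at h2
  norm_cast at h2
  exact Nat.not_succ_le_self _ h2

-- The section takes `[IsLocalRing O]` next to the valuation ring instance.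
set_option linter.overlappingInstances false in
instance finiteRingKrullDim_coef : FiniteRingKrullDim (Coef O I r) :=
  inferInstance

end Dim

section Ext

variable {α : Type} [Fintype α] [DecidableEq α]

omit [IsAdicComplete (maximalIdeal O) O] in
/-- Two actions of a power series ring through matrices over `O[[T, Y]]` agree if they agree on
constants and variables. -/
theorem hom_ext_matrix {σ : Type} [Finite σ] (f g : MvPowerSeries σ O →ₐ[O] Matrix α α (Scal O I r))
    (h : ∀ x, f (MvPowerSeries.X x) = g (MvPowerSeries.X x)) : f = g := by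
  refine AlgHom.ext fun p => Matrix.ext fun i j => eq_of_forall_sub_mem_pow fun k => ?_
  have := finite_quotient_maximalIdeal_pow (A := Scal O I r) k
  set π := (Ideal.Quotient.mk (maximalIdeal (Scal O I r) ^ k)).mapMatrix (m := α)
  set K := Nat.card (Matrix α α (Scal O I r ⧸ maximalIdeal (Scal O I r) ^ k))
  have hd : p - (MvPowerSeries.truncTotal K p : MvPolynomial σ O) ∈
      maximalIdeal (MvPowerSeries σ O) ^ K :=
    Ideal.pow_right_mono DefRing.varIdeal_le _ (DefRing.sub_truncTotal_mem p K)
  have hfg : ∀ q : MvPolynomial σ O, f (q : MvPowerSeries σ O) = g (q : MvPowerSeries σ O) := by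
    intro q
    induction q using MvPolynomial.induction_on with
    | C a => rw [MvPolynomial.coe_C, MvPowerSeries.c_eq_algebraMap, AlgHom.commutes, AlgHom.commutes]
    | add a b ha hb => simp [ha, hb]
    | mul_X a x ha => simp [ha, h]
  have h1 := map_eq_zero_of_mem_pow (π.comp f.toRingHom) le_rfl hd
  have h2 := map_eq_zero_of_mem_pow (π.comp g.toRingHom) le_rfl hd
  simp only [AlgHom.toRingHom_eq_coe, RingHom.coe_comp, RingHom.coe_coe, Function.comp_apply,
    map_sub, sub_eq_zero] at h1 h2
  rw [hfg, ← h2] at h1
  have hij := congrFun (congrFun h1 i) j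
  simp only [π, RingHom.mapMatrix_apply, Matrix.map_apply] at hij
  exact Ideal.Quotient.eq.mp hij

end Ext

end FermatAgent.RTLift.Engine
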