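import Fermat.Agent.RTLift.Modules.HeckeModule
import Fermat.Agent.RTLift.Systems.Change

/-!
The coinvariants of the cohomology with a character trivial modulo the augmentation: cohomology
with trivial coefficients, compatibly with local parts.
-/

set_option autoImplicit false

noncomputable section

namespace FermatAgent.RTLift.Engine

open FermatAgent.RTLift.Modules CongruenceSubgroup

variable {O : Type} [CommRing O] {Λ : Type} [CommRing Λ] [Algebra O Λ]

/-- Local parts correspond under a semilinear surjection of actions whose source and target have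
projectors. -/
theorem mem_part_of_bijective {H H' : Type} [AddCommGroup H] [Module O H] [AddCommGroup H']
    [Module O H'] {𝕋 : Type} [CommRing 𝕋] [Algebra O 𝕋] {Λ₁ Λ₂ : Type} [CommRing Λ₁] [CommRing Λ₂]
    [Module Λ₁ H] [Module Λ₂ H'] [Algebra O Λ₁] [Algebra O Λ₂] [IsScalarTower O Λ₁ H]
    [IsScalarTower O Λ₂ H'] (ρ : 𝕋 →ₐ[O] Module.End Λ₁ H) (ρ' : 𝕋 →ₐ[O] Module.End Λ₂ H')
    (m : Ideal 𝕋) (e : H ≃+ H') (he : ∀ s x, e (ρ s x) = ρ' s (e x)) (x : H) :
    e x ∈ part ρ' m ↔ x ∈ part ρ m := by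
  rw [mem_part_iff, mem_part_iff]
  refine ⟨fun h s hs => ?_, fun h s hs => ?_⟩
  · obtain ⟨y, hy⟩ := h s hs
    exact ⟨e.symm y, e.injective (by rw [he, e.apply_symm_apply, hy])⟩
  · obtain ⟨y, hy⟩ := h s hs
    exact ⟨e y, by rw [← he, hy]⟩

variable {M₀ M : ℕ} (h : M₀ ∣ M) (θ : (ZMod M₀)ˣ →* Λ) (aug : Λ →ₐ[O] O)

/-- The properties of the projection to the coinvariants. -/
structure IsCoinvMap {J : Type} (pr : J → Nat.Primes) [IsLocalRing O]
    (ξ : J → IsLocalRing.ResidueField O)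
    (π : H1 (levelChar h θ) Λ →+ H1 (levelChar (one_dvd M) (1 : (ZMod 1)ˣ →* O)) O) : Prop where
  map_smul : ∀ (c : Λ) x, π (c • x) = aug c • π x
  map_heckeOp : ∀ l x, π (heckeOp h θ Λ l x) = heckeOp (one_dvd M) 1 O l (π x)
  map_localH1 : ∀ x ∈ localH1 h θ Λ pr ξ, π x ∈ localH1 (one_dvd M) 1 O pr ξ
  exists_lift : ∀ y ∈ localH1 (one_dvd M) 1 O pr ξ, ∃ x ∈ localH1 h θ Λ pr ξ, π x = y
  ker : ∀ x ∈ localH1 h θ Λ pr ξ, π x = 0 → x ∈ RingHom.ker aug • localH1 h θ Λ pr ξ

omit aug in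
/-- A character trivial over an algebra gives trivial coefficients there. -/
theorem exists_trivEquiv {Ω : Type} [CommRing Ω] [Algebra Λ Ω]
    (hθ : ∀ a, algebraMap Λ Ω (θ a) = 1) :
    ∃ e : H1 (levelChar h θ) Ω ≃+ H1 (levelChar (one_dvd M) (1 : (ZMod 1)ˣ →* Ω)) Ω,
      (∀ (c : Λ) x, e (c • x) = algebraMap Λ Ω c • e x) ∧
        ∀ l x, e (heckeOp h θ Ω l x) = heckeOp (one_dvd M) 1 Ω l (e x) := by
  have hθ₁ : ∀ a, (1 : (ZMod M₀)ˣ →* Ω) a = algebraMap Λ Ω (θ (ZMod.unitsMap dvd_rfl a)) :=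
    fun a => (hθ _).symm
  let e₁ := Systems.levelChange (A := Ω) h dvd_rfl hθ₁
  have hθ₂ : ∀ a, (1 : (ZMod M₀)ˣ →* Ω) a =
      algebraMap Ω Ω ((1 : (ZMod 1)ˣ →* Ω) (ZMod.unitsMap (one_dvd M₀) a)) := fun a => by simp
  let e₂ := Systems.levelChange (A := Ω) h (one_dvd M₀) hθ₂
  refine ⟨e₁.trans e₂.symm, fun c x => ?_, fun l x => ?_⟩
  · apply e₂.injective
    rw [AddEquiv.trans_apply, AddEquiv.apply_symm_apply]
    refine (Systems.h1Change_smul _ Ω c x).trans (Eq.symm ?_)
    refine (Systems.h1Change_smul _ Ω (algebraMap Λ Ω c) _).trans ?_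
    exact congrArg _ (e₂.apply_symm_apply _)
  · have : NeZero (l : ℕ) := ⟨l.2.ne_zero⟩
    apply e₂.injective
    rw [AddEquiv.trans_apply, AddEquiv.apply_symm_apply]
    by_cases hl : (l : ℕ) ∣ M
    · rw [heckeOp_of_dvd h θ Ω hl, heckeOp_of_dvd (one_dvd M) 1 Ω hl]
      refine (Systems.levelChange_heckeU h dvd_rfl hθ₁ hl x).trans (Eq.symm ?_)
      refine (Systems.levelChange_heckeU h (one_dvd M₀) hθ₂ hl _).trans ?_
      rw [AddEquiv.trans_apply, AddEquiv.apply_symm_apply]
    · rw [heckeOp_of_not_dvd h θ Ω hl, heckeOp_of_not_dvd (one_dvd M) 1 Ω hl]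
      refine (Systems.levelChange_heckeT h dvd_rfl hθ₁ l.2 hl x).trans (Eq.symm ?_)
      refine (Systems.levelChange_heckeT h (one_dvd M₀) hθ₂ l.2 hl _).trans ?_
      rw [AddEquiv.trans_apply, AddEquiv.apply_symm_apply]

set_option maxHeartbeats 1000000 in
/-- A map of coefficients with kernel `I • ⊤` followed by an identification of operators is a
projection to the coinvariants. -/
theorem isCoinvMap_comp [IsLocalRing O] [IsNoetherianRing O]
    [IsAdicComplete (IsLocalRing.maximalIdeal O) O] [Module.Finite O Λ] [NeZero M]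
    (hχ : IsGoodChar (levelChar h θ)) {J : Type} (pr : J → Nat.Primes)
    (ξ : J → IsLocalRing.ResidueField O) {A : Type} [AddCommGroup A] [Module Λ A] [Module O A]
    [IsScalarTower O Λ A] [Module.Finite O A] (u : Λ →ₗ[Λ] A) (hu : Function.Surjective u)
    (hk : LinearMap.ker u = RingHom.ker aug • (⊤ : Submodule Λ Λ))
    (e : H1 (levelChar h θ) A ≃+ H1 (levelChar (one_dvd M) (1 : (ZMod 1)ˣ →* O)) O)
    (hesmul : ∀ (c : Λ) x, e (c • x) = aug c • e x)
    (heop : ∀ l x, e (heckeOp h θ A l x) = heckeOp (one_dvd M) 1 O l (e x)) :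
    IsCoinvMap h θ aug pr ξ (e.toAddMonoidHom.comp (h1Map u).toAddMonoidHom) := by
  obtain ⟨hmap, hker⟩ := localH1_baseChange (A := Λ) (B := A) h θ pr ξ hχ (RingHom.ker aug) u hu hk
  have hehom : ∀ (s : MvPolynomial J O) x,
      e (heckeHom h θ A pr s x) = heckeHom (one_dvd M) 1 O pr s (e x) := fun s => by
    induction s using MvPolynomial.induction_on with
    | C c =>
      intro x
      rw [← MvPolynomial.algebraMap_eq, AlgHom.commutes, AlgHom.commutes,
        Module.algebraMap_end_apply, Module.algebraMap_end_apply, ← algebraMap_smul Λ c x, hesmul,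
        AlgHom.commutes]
      rfl
    | add a b ha hb => intro x; simp [ha, hb]
    | mul_X a j ha =>
      intro x
      rw [map_mul, map_mul, Module.End.mul_apply, Module.End.mul_apply, ha, heckeHom_X, heckeHom_X]
      exact congrArg _ (heop (pr j) x)
  refine ⟨fun c x => ?_, fun l x => ?_, fun x hx => ?_, fun y hy => ?_, fun x hx hx0 => ?_⟩
  · change e (h1Map u (c • x)) = aug c • e (h1Map u x)
    have h1 : h1Map u (c • x) = c • h1Map u x := LinearMap.map_smul _ c x
    rw [h1]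
    exact hesmul c _
  · change e (h1Map u (heckeOp h θ Λ l x)) = heckeOp (one_dvd M) 1 O l (e (h1Map u x))
    rw [h1Map_heckeOp]
    exact heop l _
  · exact (mem_part_of_bijective _ _ _ e hehom _).mpr (hmap.le ⟨x, hx, rfl⟩)
  · have hy' : e.symm y ∈ localH1 h θ A pr ξ :=
      (mem_part_of_bijective _ _ _ e hehom _).mp (by rwa [e.apply_symm_apply])
    rw [← hmap] at hy'
    obtain ⟨x, hx, hxy⟩ := hy'
    exact ⟨x, hx, (congrArg e hxy).trans (e.apply_symm_apply y)⟩
  · exact hker x hx (e.injective (hx0.trans (map_zero e).symm))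

/-- The projection to the coinvariants exists. -/
theorem exists_coinvMap [IsLocalRing O] [IsNoetherianRing O]
    [IsAdicComplete (IsLocalRing.maximalIdeal O) O] [Module.Finite O Λ] [NeZero M]
    (hθ : ∀ a, aug (θ a) = 1) (hχ : IsGoodChar (levelChar h θ)) {J : Type} (pr : J → Nat.Primes)
    (ξ : J → IsLocalRing.ResidueField O) :
    ∃ π, IsCoinvMap h θ aug pr ξ π := by
  let : Algebra Λ O := aug.toRingHom.toAlgebra
  have : IsScalarTower O Λ O := IsScalarTower.of_algebraMap_eq fun o => (aug.commutes o).symm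
  obtain ⟨e, he1, he2⟩ := exists_trivEquiv h θ (Ω := O) hθ
  exact ⟨_, isCoinvMap_comp h θ aug hχ pr ξ (Algebra.linearMap Λ O)
    (fun o => ⟨algebraMap O Λ o, aug.commutes o⟩) (by
      rw [smul_eq_mul, ← Ideal.one_eq_top, mul_one]
      rfl) e he1 he2⟩

end FermatAgent.RTLift.Engine
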