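import Fermat.Agent.RTLift.Engine.Piece
import Fermat.Agent.RTLift.LocalRings.Interface

/-!
Raising and transferring components: the wall step at `q ≢ 1` and the `ψ` step at `q ≡ 1`.
-/

set_option autoImplicit false

noncomputable section

namespace FermatAgent.RTLift.Engine

open IsLocalRing FermatAgent.RTLift.Patch FermatAgent.RTLift.LocalRings Matrix

variable {O : Type} [CommRing O] [IsDomain O] [IsDiscreteValuationRing O]
  [IsAdicComplete (maximalIdeal O) O] [Finite (ResidueField O)] [CharZero O]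
  {I : Type} [Fintype I] [DecidableEq I] {r : ℕ} {D : Datum O I} {p : ℕ} {ζ : I → O}

/-- Every index is `ur` or `St_ε`. -/
def IsPlain (A : I → Cfg) : Prop := ∀ i, A i = .ur ∨ ∃ ε, A i = .st ε

/-- The datum with another trace at one index. -/
def withC (D : Datum O I) (i0 : I) (c : O) : Datum O I :=
  { D with c := Function.update D.c i0 c }

variable (D) in
/-- The hypotheses on a set of configurations killing a piece: allowed, no wall. -/
def Listed (𝒞 : Finset (I → Cfg)) : Prop :=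
  ∀ B ∈ 𝒞, (∀ i, D.Allowed i (B i)) ∧ ∀ i, ¬ (B i).IsWall

omit [IsAdicComplete (maximalIdeal O) O] [Finite (ResidueField O)] [CharZero O] [DecidableEq I]
  [Fintype I] in
theorem dim_eq_three {c : Cfg} (h : ¬ c.IsWall) : c.dim = 3 := by
  cases c <;> simp_all [Cfg.IsWall, Cfg.dim]

variable {α β : Type} [Fintype α] [DecidableEq α] [Fintype β] [DecidableEq β]
  {act : Ambient O I r →ₐ[O] Matrix α α (Scal O I r)}
  {act' : Ambient O I r →ₐ[O] Matrix β β (Scal O I r)}
  {z : CVars I r → Ambient O I r}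

omit [DecidableEq I] in
/-- A prime of the support contains a listed component, itself in the support. -/
theorem exists_cfg (hV : D.Valid p ζ) (hs : HasScalars act z) {𝒞 : Finset (I → Cfg)}
    (h𝒞 : Listed D 𝒞) (hkill : ∏ B ∈ 𝒞, D.cfgIdeal r B ≤ RingHom.ker act.toRingHom)
    {P : Ideal (Ambient O I r)} [P.IsPrime] (h : RingHom.ker act.toRingHom ≤ P) :
    ∃ B ∈ 𝒞, D.cfgIdeal r B ≤ P ∧ RingHom.ker act.toRingHom ≤ D.cfgIdeal r B := by
  have hP := fun B : 𝒞 => cfgIdeal_isPrime_and_dim (r := r) D hV (h𝒞 B B.2).1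
  obtain ⟨B, h1, h2⟩ := exists_component hs (ι := 𝒞) (fun B => D.cfgIdeal r B)
    (fun B => (hP B).1) (fun B => by
      rw [(hP B).2.2, ringKrullDim_scal]
      congr 2
      exact Finset.sum_congr rfl fun i _ => dim_eq_three ((h𝒞 B B.2).2 i))
    (by rwa [Finset.prod_coe_sort]) h
  exact ⟨B, B.2, h1, h2⟩

omit [DecidableEq I] [Finite (ResidueField O)] in
/-- Only the component itself lies under a component prime, among plain configurations. -/
theorem eq_of_le (hV : D.Valid p ζ) {A B : I → Cfg} (hA : ∀ i, D.Allowed i (A i))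
    (hAp : IsPlain A) (hB : IsPlain B) (h : D.cfgIdeal r B ≤ D.cfgIdeal r A) : B = A := by
  funext i
  by_contra hne
  exact not_cfgIdeal_le D hV hA hB ⟨i, hne, fun ε hε => by
    rcases hAp i with h' | ⟨ε', h'⟩ <;> rw [h'] at hε <;> exact nomatch hε⟩ h

omit [IsDomain O] [IsDiscreteValuationRing O] [IsAdicComplete (maximalIdeal O) O]
  [Finite (ResidueField O)] [CharZero O] [Fintype I] in
theorem cfgIdeal_le_update_wall {A : I → Cfg} {i0 : I} (hA : A i0 = .ur) (ε : ℤˣ) :
    D.cfgIdeal r A ≤ D.cfgIdeal r (Function.update A i0 (.wall ε)) := by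
  refine iSup_le fun i => le_trans ?_ (le_iSup _ i)
  rcases eq_or_ne i i0 with rfl | hi
  · rw [Function.update_self, hA]
    exact Ideal.span_mono (Set.union_subset_union le_rfl (by simp))
  · rw [Function.update_of_ne hi]

/-- Raising at `q ≢ 1`: from the component with `ur` at `i0` in the support at level `N` to the
component with `St_ε` at `i0` in the support at level `N q`. -/
theorem raise_wall (hV : D.Valid p ζ) (hs : HasScalars act z) (hs' : HasScalars act' z)
    (F : Fin 2 → Matrix β α (Scal O I r)) (G : Fin 2 → Matrix α β (Scal O I r))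
    (T : Fin 2 → Matrix α β (Scal O I r)) (V : Fin 2 → Matrix β α (Scal O I r))
    (hGF : ∀ i j, G i * F j = if i = j then 1 else 0)
    (hTV : ∀ i j, T i * V j = if i = j then 1 else 0)
    (hF : ∀ i x, F i * act x = act' x * F i) (hT : ∀ i x, T i * act' x = act x * T i)
    {i0 : I} (hE : ∀ i j, T i * F j =
      act ((!![(D.q i0 : Ambient O I r) + 1, (D.frob r i0).trace;
               (D.frob r i0).trace, (D.q i0 : Ambient O I r) + 1]) i j))
    {A : I → Cfg} (hA : ∀ i, D.Allowed i (A i)) (hAp : IsPlain A) (hi0 : A i0 = .ur)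
    {ε : ℤˣ} (hε : D.Allowed i0 (.wall ε)) {𝒞 : Finset (I → Cfg)} (h𝒞 : Listed D 𝒞)
    (h𝒞i : ∀ B ∈ 𝒞, IsPlain B ∧ ∃ ε', B i0 = .st ε')
    (hkill : ∀ x ∈ ∏ B ∈ 𝒞, D.cfgIdeal r B,
      ∃ U : Fin 2 → Matrix α β (Scal O I r), act' x = ∑ i, F i * U i)
    (hsupp : RingHom.ker act.toRingHom ≤ D.cfgIdeal r A) :
    RingHom.ker act'.toRingHom ≤ D.cfgIdeal r (Function.update A i0 (.st ε)) := by
  set W := Function.update A i0 (.wall ε) with hW
  have hWa : ∀ i, D.Allowed i (W i) := fun i => by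
    rcases eq_or_ne i i0 with rfl | hi
    · rwa [hW, Function.update_self]
    · rw [hW, Function.update_of_ne hi]; exact hA i
  have := (cfgIdeal_isPrime_and_dim (r := r) D hV hWa).1
  obtain ⟨k, Pr, L, hPL, hLP, hPF, -⟩ := exists_coker F G hGF
  set actK := cokerAct act' act Pr L F G hPL hLP hPF hF with hK
  have hsK : HasScalars actK z := hs'.compress Pr L hPL fun x => by rw [hK, cokerAct_apply]
  have hker : RingHom.ker actK.toRingHom ≤ D.cfgIdeal r W := fun x hx => by
    refine wall_step hs F T (fun i => G i * act' x) V hF hT hTV _ hE ?_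
      (hsupp.trans (cfgIdeal_le_update_wall hi0 ε))
      (eq_sum_mul_of_compress F G Pr L hLP hPF hF (show Pr * act' x * L = 0 from hx))
    have hw := (localIdeal_le_ker_iff D (Ideal.Quotient.mk (D.cfgIdeal r W)) i0 (W i0)).mp
      ((le_iSup (fun i => D.localIdeal r i (W i)) i0).trans Ideal.mk_ker.ge)
    rw [hW, Function.update_self, sat_wall_iff] at hw
    have htr : (D.frob r i0).map (Ideal.Quotient.mk (D.cfgIdeal r W)) 0 0 +
        (D.frob r i0).map (Ideal.Quotient.mk (D.cfgIdeal r W)) 1 1 =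
        ((ε : ℤ) : Ambient O I r ⧸ D.cfgIdeal r W) * ((D.q i0 : _) + 1) := by
      rw [← Matrix.trace_fin_two]; exact hw.2.2
    rw [← Ideal.Quotient.eq_zero_iff_mem]
    simp only [Matrix.det_fin_two, Matrix.trace_fin_two, Matrix.of_apply, Matrix.cons_val',
      Matrix.cons_val_zero, Matrix.cons_val_one, Matrix.cons_val_fin_one, map_sub, map_mul,
      map_add, map_one, map_natCast, Matrix.map_apply] at htr ⊢
    rw [htr]
    linear_combination -((D.q i0 : Ambient O I r ⧸ D.cfgIdeal r W) + 1) ^ 2 *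
      int_units_mul_self (S := Ambient O I r ⧸ D.cfgIdeal r W) ε
  obtain ⟨B, hB𝒞, hBW, hBk⟩ := exists_cfg hV hsK h𝒞 (fun x hx => by
    obtain ⟨U, hU⟩ := hkill x hx
    have : Pr * act' x = 0 := by
      rw [hU, Matrix.mul_sum]
      exact Finset.sum_eq_zero fun i _ => by rw [← Matrix.mul_assoc, hPF, Matrix.zero_mul]
    change Pr * act' x * L = 0
    rw [this, Matrix.zero_mul]) hker
  have hB : B = Function.update A i0 (.st ε) := by
    funext i
    by_contra hne
    refine not_cfgIdeal_le D hV hWa (h𝒞i B hB𝒞).1 ⟨i, fun h => ?_, fun ε' hε' => ?_⟩ hBW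
    · rcases eq_or_ne i i0 with rfl | hi
      · obtain ⟨ε', hε'⟩ := (h𝒞i B hB𝒞).2
        rw [hW, Function.update_self, hε'] at h
        exact nomatch h
      · rw [hW, Function.update_of_ne hi] at h
        exact hne (by rwa [Function.update_of_ne hi])
    · rcases eq_or_ne i i0 with rfl | hi
      · rw [hW, Function.update_self] at hε'
        cases hε'
        obtain ⟨ε', hε'⟩ := (h𝒞i B hB𝒞).2
        rw [Function.update_self, hε'] at hne
        rw [hε', Cfg.st.injEq]
        exact (Int.units_ne_iff_eq_neg.mp fun h => hne (by rw [h]))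
      · rw [hW, Function.update_of_ne hi] at hε'
        rcases hAp i with h' | ⟨_, h'⟩ <;> rw [h'] at hε' <;> exact nomatch hε'
  intro x hx
  refine hB ▸ hBk ?_
  change Pr * act' x * L = 0
  rw [RingHom.mem_ker] at hx
  rw [show act' x = 0 from hx, Matrix.mul_zero, Matrix.zero_mul]

omit [DecidableEq I] in
/-- A version of `exists_cfg` for configurations of several data. -/
theorem exists_cfg_family (hs : HasScalars act z) {ν : Type} (Dν : ν → Datum O I) (pν : ν → ℕ)
    (ζν : ν → I → O) (hVν : ∀ v, (Dν v).Valid (pν v) (ζν v)) {𝒞 : Finset (ν × (I → Cfg))}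
    (h𝒞 : ∀ B ∈ 𝒞, (∀ i, (Dν B.1).Allowed i (B.2 i)) ∧ ∀ i, ¬ (B.2 i).IsWall)
    (hkill : ∏ B ∈ 𝒞, (Dν B.1).cfgIdeal r B.2 ≤ RingHom.ker act.toRingHom)
    {P : Ideal (Ambient O I r)} [P.IsPrime] (h : RingHom.ker act.toRingHom ≤ P) :
    ∃ B ∈ 𝒞, (Dν B.1).cfgIdeal r B.2 ≤ P ∧
      RingHom.ker act.toRingHom ≤ (Dν B.1).cfgIdeal r B.2 := by
  have hP := fun B : 𝒞 => cfgIdeal_isPrime_and_dim (r := r) (Dν B.1.1) (hVν B.1.1) (h𝒞 B B.2).1
  obtain ⟨B, h1, h2⟩ := exists_component hs (ι := 𝒞) (fun B => (Dν B.1.1).cfgIdeal r B.1.2)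
    (fun B => (hP B).1) (fun B => by
      rw [(hP B).2.2, ringKrullDim_scal]
      congr 2
      exact Finset.sum_congr rfl fun i _ => dim_eq_three ((h𝒞 B B.2).2 i))
    (by rwa [Finset.prod_coe_sort 𝒞 fun B => (Dν B.1).cfgIdeal r B.2]) h
  exact ⟨B, B.2, h1, h2⟩

omit [IsDomain O] [IsDiscreteValuationRing O] [IsAdicComplete (maximalIdeal O) O]
  [Finite (ResidueField O)] [CharZero O] [Fintype I] in
theorem localIdeal_withC (i0 : I) (c : O) {i : I} {b : Cfg} (h : i ≠ i0 ∨ b ≠ .cc) :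
    (withC D i0 c).localIdeal r i b = D.localIdeal r i b := by
  rcases h with h | h
  · simp only [withC, Datum.localIdeal, Datum.frob, Datum.mono, Function.update_of_ne h]
  · cases b <;> first | exact absurd rfl h | rfl

/-- The `ψ` step at `q ≡ 1`: pieces congruent modulo `ϖ`, one of type `C_c` at `i0` for finitely
many values `c`, pass components between all configurations at `i0`. -/
theorem transfer_psi (hV : D.Valid p ζ) (hs : HasScalars act z)
    {actψ : Ambient O I r →ₐ[O] Matrix α α (Scal O I r)} (hsψ : HasScalars actψ z)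
    (hcongr : ∀ x i j, act x i j - actψ x i j ∈
      (maximalIdeal O).map (algebraMap O (Scal O I r)))
    {i0 : I} {ν : Type} (cν ξν : ν → O)
    (hVν : ∀ v, (withC D i0 (cν v)).Valid p (Function.update ζ i0 (ξν v)))
    {𝒞 : Finset (I → Cfg)} {𝒞ψ : Finset (ν × (I → Cfg))} (h𝒞 : Listed D 𝒞)
    (h𝒞p : ∀ B ∈ 𝒞, IsPlain B)
    (h𝒞ψ : ∀ B ∈ 𝒞ψ, (∀ i, (withC D i0 (cν B.1)).Allowed i (B.2 i)) ∧ ∀ i, ¬ (B.2 i).IsWall)
    (h𝒞ψi : ∀ B ∈ 𝒞ψ, B.2 i0 = .cc ∧ ∀ i ≠ i0, B.2 i = .ur ∨ ∃ ε, B.2 i = .st ε)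
    (hkill : ∏ B ∈ 𝒞, D.cfgIdeal r B ≤ RingHom.ker act.toRingHom)
    (hkillψ : ∏ B ∈ 𝒞ψ, (withC D i0 (cν B.1)).cfgIdeal r B.2 ≤ RingHom.ker actψ.toRingHom)
    {A : I → Cfg} (hA : ∀ i, D.Allowed i (A i)) (hAp : IsPlain A)
    (hsupp : RingHom.ker act.toRingHom ≤ D.cfgIdeal r A)
    {b : Cfg} (hb : b = .ur ∨ ∃ ε, b = .st ε) (hba : D.Allowed i0 b) :
    Function.update A i0 b ∈ 𝒞 ∧
      RingHom.ker act.toRingHom ≤ D.cfgIdeal r (Function.update A i0 b) := by
  obtain ⟨P, hPp, hAP, hϖP, hsepP⟩ := exists_fibre_prime (r := r) D hV hA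
  obtain ⟨⟨v, B⟩, hB𝒞, hBP, hBk⟩ := exists_cfg_family hsψ (fun v => withC D i0 (cν v))
    (fun _ => p) _ hVν h𝒞ψ hkillψ (ker_le_of_congr hs actψ hcongr hϖP (hsupp.trans hAP))
  obtain ⟨hcc, hoff⟩ := h𝒞ψi _ hB𝒞
  dsimp only at hBP hBk hcc hoff
  -- off `i0` the configuration `B` is `A`
  have hBeq : ∀ i ≠ i0, B i = A i := fun i hi => by
    by_contra hne
    refine hsepP (Function.update A i (B i)) i (hAp i) (by rw [Function.update_self]; exact hoff i hi)
      (by rwa [Function.update_self]) ((cfgIdeal_le_iff D P _).mpr fun j => ?_)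
    rcases eq_or_ne j i with rfl | hj
    · rw [Function.update_self, ← localIdeal_withC i0 (cν v) (Or.inl hi)]
      exact (cfgIdeal_le_iff (withC D i0 (cν v)) P B).mp hBP j
    · rw [Function.update_of_ne hj]
      exact (cfgIdeal_le_iff D P A).mp hAP j
  set A' := Function.update A i0 b with hA'
  have hA'a : ∀ i, D.Allowed i (A' i) := fun i => by
    rcases eq_or_ne i i0 with rfl | hi
    · rwa [hA', Function.update_self]
    · rw [hA', Function.update_of_ne hi]; exact hA i
  have hA'p : IsPlain A' := fun i => by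
    rcases eq_or_ne i i0 with rfl | hi
    · rwa [hA', Function.update_self]
    · rw [hA', Function.update_of_ne hi]; exact hAp i
  obtain ⟨P', hP'p, hA'P, hϖP', hsepP'⟩ := exists_fibre_prime (r := r) D hV hA'a
  have hBP' : (withC D i0 (cν v)).cfgIdeal r B ≤ P' :=
    (cfgIdeal_le_iff (withC D i0 (cν v)) P' B).mpr fun i => by
      have hA'i := (cfgIdeal_le_iff D P' A').mp hA'P i
      rcases eq_or_ne i i0 with rfl | hi
      · have hq : (D.q i : ResidueField O) = 1 := by
          have := (h𝒞ψ _ hB𝒞).1 i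
          dsimp only at this
          rw [hcc] at this
          exact this.1
        rw [hA', Function.update_self] at hA'i
        have hbc : b ≠ .cc := by rcases hb with rfl | ⟨ε, rfl⟩ <;> simp
        rw [hcc]
        refine (localIdeal_cc_le_sup _ (hVν v) i hq b hb).trans (sup_le ?_ hϖP')
        rw [localIdeal_withC i (cν v) (Or.inr hbc)]
        exact hA'i
      · rw [hA', Function.update_of_ne hi, ← hBeq i hi] at hA'i
        rw [localIdeal_withC i0 (cν v) (Or.inl hi)]
        exact hA'i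
  obtain ⟨C, hC𝒞, hCP', hCk⟩ := exists_cfg hV hs h𝒞 hkill
    (ker_le_of_congr hsψ act (fun x i j => by rw [← neg_sub, Ideal.neg_mem_iff]; exact hcongr x i j)
      hϖP' (hBk.trans hBP'))
  have hC : C = A' := funext fun i => by
    by_contra hne
    exact hsepP' C i (hA'p i) (h𝒞p C hC𝒞 i) hne hCP'
  exact hC ▸ ⟨hC𝒞, hCk⟩

end FermatAgent.RTLift.Engine
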