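import Fermat.Agent.RTLift.Engine.Limit

/-!
Framing: an action of a ring `R`, finite free over `O`, through matrices over
`O[[T]] / ((1+T)^(p^n) - 1)` extends to `R[[Y]]` through matrices over the finite level of `O[[T, Y]]`.
-/

set_option autoImplicit false

noncomputable section

namespace FermatAgent.RTLift.Engine

open IsLocalRing Matrix

variable (O : Type) [CommRing O] (I : Type) (r p n : ℕ)

/-- The ideal of `O[[T]]` of the level `n`. -/
def diamondIdeal : Ideal (MvPowerSeries (Fin r) O) :=
  Ideal.span (Set.range fun j : Fin r => (1 + MvPowerSeries.X j) ^ p ^ n - 1)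

/-- The diamond ring of the level `n`. -/
abbrev Diamond : Type := MvPowerSeries (Fin r) O ⧸ diamondIdeal O r p n

/-- The inclusion of `O[[T]]`. -/
def inclT : MvPowerSeries (Fin r) O →ₐ[O] Scal O I r :=
  MvPowerSeries.rename Sum.inl

/-- The inclusion of `O[[Y]]`. -/
def inclY [Finite I] : MvPowerSeries (I × Fin 3) O →ₐ[O] Scal O I r :=
  MvPowerSeries.rename Sum.inr

theorem diamondIdeal_le :
    diamondIdeal O r p n ≤ (levelIdeal O I r p n).comap (inclT O I r) := by
  rw [diamondIdeal, Ideal.span_le]
  rintro _ ⟨j, rfl⟩
  rw [SetLike.mem_coe, Ideal.mem_comap]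
  have : (inclT O I r) ((1 + MvPowerSeries.X j) ^ p ^ n - 1) =
      (1 + MvPowerSeries.X (Sum.inl j)) ^ p ^ n - 1 := by simp [inclT]
  rw [this]
  exact Ideal.subset_span ⟨j, rfl⟩

/-- The diamond ring inside the finite level. -/
def diamondHom : Diamond O r p n →ₐ[O] Scal O I r ⧸ levelIdeal O I r p n :=
  Ideal.quotientMapₐ _ (inclT O I r) (diamondIdeal_le O I r p n)

@[simp] theorem diamondHom_mk (x : MvPowerSeries (Fin r) O) :
    diamondHom O I r p n (Ideal.Quotient.mk _ x) = Ideal.Quotient.mk _ (inclT O I r x) := rfl

variable {O I r p n} [Finite I] {R : Type} [CommRing R] [Algebra O R]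

/-- The `O[[Y]]`-coordinates of a series with coefficients in `R` in a basis of `R`. -/
def coords {s : Type} (e : Module.Basis s O R) (F : MvPowerSeries (I × Fin 3) R) (k : s) :
    MvPowerSeries (I × Fin 3) O :=
  fun m => e.repr (MvPowerSeries.coeff m F) k

omit [Finite I] in
theorem coeff_coords {s : Type} (e : Module.Basis s O R) (F : MvPowerSeries (I × Fin 3) R) (k : s)
    (m : I × Fin 3 →₀ ℕ) :
    MvPowerSeries.coeff m (coords e F k) = e.repr (MvPowerSeries.coeff m F) k := rfl

omit [Finite I] in
/-- A series is the combination of its coordinates. -/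
theorem sum_coords {s : Type} [Fintype s] (e : Module.Basis s O R)
    (F : MvPowerSeries (I × Fin 3) R) :
    ∑ k, MvPowerSeries.map (algebraMap O R) (coords e F k) * MvPowerSeries.C (e k) = F := by
  ext m
  simp only [map_sum, MvPowerSeries.coeff_mul_C, MvPowerSeries.coeff_map, coeff_coords,
    ← Algebra.smul_def]
  exact e.sum_repr _

section Def

variable {α : Type} [Fintype α] [DecidableEq α] {s : Type} [Fintype s]
  (e : Module.Basis s O R) (act : R →ₐ[O] Matrix α α (Diamond O r p n))

/-- The matrices of the level, as a map. -/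
def toLevel : Matrix α α (Diamond O r p n) →ₐ[O] Matrix α α (Scal O I r ⧸ levelIdeal O I r p n) :=
  (diamondHom O I r p n).mapMatrix

/-- A series in `Y` as a scalar matrix of the level. -/
def scalY : MvPowerSeries (I × Fin 3) O →+* Matrix α α (Scal O I r ⧸ levelIdeal O I r p n) :=
  (Matrix.scalar α).comp ((Ideal.Quotient.mk (levelIdeal O I r p n)).comp (inclY O I r).toRingHom)

omit [Fintype s] in
theorem scalY_C (o : O) :
    scalY (α := α) (r := r) (p := p) (n := n) (MvPowerSeries.C o : MvPowerSeries (I × Fin 3) O) =
      algebraMap O (Matrix α α (Scal O I r ⧸ levelIdeal O I r p n)) o := by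
  rw [MvPowerSeries.c_eq_algebraMap, Matrix.algebraMap_eq_diagonal]
  change Matrix.scalar α (Ideal.Quotient.mk _ ((inclY O I r) (algebraMap O _ o))) = _
  rw [AlgHom.commutes]
  rfl

omit [Fintype s] in
theorem scalY_comm (G : MvPowerSeries (I × Fin 3) O)
    (M : Matrix α α (Scal O I r ⧸ levelIdeal O I r p n)) : scalY G * M = M * scalY G :=
  Matrix.scalar_commute _ (Commute.all _) M

/-- The extension to framed series, as an additive map. -/
def frameAdd : MvPowerSeries (I × Fin 3) R →+ Matrix α α (Scal O I r ⧸ levelIdeal O I r p n) where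
  toFun F := ∑ k, scalY (coords e F k) * toLevel (I := I) (act (e k))
  map_zero' := Finset.sum_eq_zero fun k _ => by
    rw [show coords e (0 : MvPowerSeries (I × Fin 3) R) k = 0 from MvPowerSeries.ext fun m => by
      simp [coeff_coords], map_zero, zero_mul]
  map_add' F G := by
    rw [← Finset.sum_add_distrib]
    refine Finset.sum_congr rfl fun k _ => ?_
    rw [show coords e (F + G) k = coords e F k + coords e G k from MvPowerSeries.ext fun m => by
      simp [coeff_coords], map_add, add_mul]

theorem frameAdd_map_mul_C (G : MvPowerSeries (I × Fin 3) O) (x : R) :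
    frameAdd e act (MvPowerSeries.map (algebraMap O R) G * MvPowerSeries.C x) =
      scalY G * toLevel (I := I) (act x) := by
  have h : ∀ k, coords e (MvPowerSeries.map (algebraMap O R) G * MvPowerSeries.C x) k =
      G * MvPowerSeries.C (e.repr x k) := fun k => MvPowerSeries.ext fun m => by
    simp [coeff_coords, MvPowerSeries.coeff_mul_C, ← Algebra.smul_def]
  change ∑ k, scalY (coords e _ k) * toLevel (act (e k)) = _
  simp only [h, map_mul, scalY_C, mul_assoc, ← Finset.mul_sum]
  congr 1
  conv_rhs => rw [← e.sum_repr x]
  rw [map_sum, map_sum]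
  refine Finset.sum_congr rfl fun k _ => ?_
  rw [map_smul, map_smul]
  exact (Algebra.smul_def _ _).symm

theorem frameAdd_mul (F G : MvPowerSeries (I × Fin 3) R) :
    frameAdd e act (F * G) = frameAdd e act F * frameAdd e act G := by
  conv_lhs => rw [← sum_coords e F, ← sum_coords e G]
  conv_rhs => rw [← sum_coords e F, ← sum_coords e G]
  rw [Finset.sum_mul_sum]
  simp only [map_sum, Finset.sum_mul_sum]
  refine Finset.sum_congr rfl fun k _ => Finset.sum_congr rfl fun l _ => ?_
  rw [mul_mul_mul_comm, ← map_mul, ← map_mul, frameAdd_map_mul_C, frameAdd_map_mul_C,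
    frameAdd_map_mul_C, map_mul, map_mul, map_mul, mul_assoc, mul_assoc,
    ← mul_assoc (scalY (coords e G l)), scalY_comm (coords e G l), mul_assoc]

/-- The framed action. -/
def frameAct : MvPowerSeries (I × Fin 3) R →ₐ[O] Matrix α α (Scal O I r ⧸ levelIdeal O I r p n) :=
  { frameAdd e act with
    map_one' := by
      have := frameAdd_map_mul_C (I := I) (r := r) (p := p) (n := n) e act 1 1
      simpa using this
    map_mul' := frameAdd_mul e act
    commutes' := fun o => by
      have := frameAdd_map_mul_C (I := I) (r := r) (p := p) (n := n) e act (MvPowerSeries.C o) 1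
      rw [map_one, map_one, mul_one, map_one, mul_one, scalY_C, MvPowerSeries.map_C] at this
      rw [← this]
      refine congrArg (frameAdd e act) ?_
      simp [MvPowerSeries.algebraMap_apply] }

theorem frameAct_map_mul_C (G : MvPowerSeries (I × Fin 3) O) (x : R) :
    frameAct e act (MvPowerSeries.map (algebraMap O R) G * MvPowerSeries.C x) =
      scalY G * toLevel (I := I) (act x) :=
  frameAdd_map_mul_C e act G x

theorem frameAct_C (x : R) : frameAct e act (MvPowerSeries.C x) = toLevel (I := I) (act x) := by
  have := frameAct_map_mul_C (I := I) e act 1 x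
  simpa using this

theorem frameAct_map (G : MvPowerSeries (I × Fin 3) O) :
    frameAct e act (MvPowerSeries.map (algebraMap O R) G) = scalY G := by
  have := frameAct_map_mul_C (I := I) e act G 1
  simpa using this

end Def

end FermatAgent.RTLift.Engine
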