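import Fermat.Agent.RTLift.Engine.Action
import Fermat.Agent.RTLift.Modules.HeckeModule

/-!
The action of a trace ring on the local part of cohomology at a level: the trace of Frobenius at a
prime `l` outside a finite set acts as `κ(l) T_l`; every element acts as a polynomial in the
operators having the same values at all points.
-/

set_option autoImplicit false

noncomputable section

namespace FermatAgent.RTLift.Engine

open FermatAgent.RTLift.Modules

variable {O : Type} [CommRing O] [IsLocalRing O] {Λ : Type} [CommRing Λ] [Algebra O Λ]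
  {M₀ M : ℕ} (h : M₀ ∣ M) (θ : (ZMod M₀)ˣ →* Λ) {J : Type} (pr : J → Nat.Primes)
  (ξ : J → IsLocalRing.ResidueField O)

/-- The good primes of a level. -/
abbrev Good (M p : ℕ) : Type := {l : Nat.Primes // ¬ (l : ℕ) ∣ M ∧ (l : ℕ) ≠ p}

theorem heckeOp_mem_localH1 (l : Nat.Primes) {x : H1 (levelChar h θ) Λ}
    (hx : x ∈ localH1 h θ Λ pr ξ) : heckeOp h θ Λ l x ∈ localH1 h θ Λ pr ξ :=
  map_mem_part (heckeOp h θ Λ l) (fun s x => commAeval_comm _ _ _ _ (heckeOp h θ Λ l)
    (fun j y => LinearMap.congr_fun (heckeOp_comm h θ Λ l (pr j)) y) s x) hx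

/-- A Hecke operator on the local part. -/
def localOp (l : Nat.Primes) : Module.End Λ (localH1 h θ Λ pr ξ) :=
  (heckeOp h θ Λ l).restrict fun _ hx => heckeOp_mem_localH1 h θ pr ξ l hx

@[simp] theorem coe_localOp (l : Nat.Primes) (x : localH1 h θ Λ pr ξ) :
    (localOp h θ pr ξ l x : H1 (levelChar h θ) Λ) = heckeOp h θ Λ l x := rfl

theorem localOp_comm (a b : Nat.Primes) :
    localOp h θ pr ξ a * localOp h θ pr ξ b = localOp h θ pr ξ b * localOp h θ pr ξ a :=
  LinearMap.ext fun x => Subtype.ext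
    (LinearMap.congr_fun (heckeOp_comm h θ Λ a b) (x : H1 (levelChar h θ) Λ))

theorem coe_commAeval_localOp (g : MvPolynomial (Good M 0) Λ) (v : localH1 h θ Λ pr ξ) :
    (commAeval (R := Λ) (fun l : Good M 0 => localOp h θ pr ξ l)
      (fun a b => localOp_comm h θ pr ξ a b) g v : H1 (levelChar h θ) Λ) =
      heckeHom (R := Λ) h θ Λ (fun l : Good M 0 => (l : Nat.Primes)) g v :=
  commAeval_comm _ _ _ _ (localH1 h θ Λ pr ξ).subtype (fun _ _ => rfl) g v

/-- The traces outside `B` act as the normalised operators. -/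
def IsTrAct {R : Type} [CommRing R] [Algebra O R] (B : Set Nat.Primes) (κv : Nat.Primes → Λ)
    (t : Nat.Primes → R) (act : R →ₐ[O] Module.End Λ (localH1 h θ Λ pr ξ)) : Prop :=
  ∀ l : Nat.Primes, l ∉ B → act (t l) = κv l • localOp h θ pr ξ l

variable {h θ pr ξ} {R : Type} [CommRing R] [Algebra O R] {B : Set Nat.Primes}
  {κv : Nat.Primes → Λ} {t : Nat.Primes → R}

/-- The trace ring acts when finitely many of its points detect the local part. -/
theorem exists_isTrAct (hB : ∀ l : Nat.Primes, l ∉ B → ¬ (l : ℕ) ∣ M) {ι : Type} {A : ι → Type}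
    [∀ i, CommRing (A i)] [∀ i, Algebra O (A i)] (pt : ∀ i, R →ₐ[O] A i)
    (x : ∀ i, MvPolynomial (Good M 0) Λ →ₐ[O] A i)
    (ht : ∀ i (l : Nat.Primes) (hl : l ∉ B),
      pt i (t l) = x i (MvPolynomial.C (κv l) * MvPolynomial.X ⟨l, hB l hl, l.2.ne_zero⟩))
    (hgen : Algebra.adjoin O (t '' Bᶜ) = ⊤)
    (hker : ∀ s, (∀ i, x i s = 0) → ∀ v ∈ localH1 h θ Λ pr ξ,
      heckeHom (R := Λ) h θ Λ (fun l : Good M 0 => (l : Nat.Primes)) s v = 0) :
    ∃ act : R →ₐ[O] Module.End Λ (localH1 h θ Λ pr ξ), IsTrAct h θ pr ξ B κv t act := by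
  let φ : MvPolynomial (Good M 0) Λ →ₐ[O] Module.End Λ (localH1 h θ Λ pr ξ) :=
    (commAeval (R := Λ) (fun l : Good M 0 => localOp h θ pr ξ l)
      fun a b => localOp_comm h θ pr ξ a b).restrictScalars O
  have h0 : ∀ g, (∀ i, x i g = 0) → φ g = 0 := fun g hg => LinearMap.ext fun v => Subtype.ext
      ((coe_commAeval_localOp h θ pr ξ g v).trans (hker g hg v v.2))
  obtain ⟨act, hact⟩ := exists_act (E := Module.End Λ (localH1 h θ Λ pr ξ)) φ pt x (hker := h0)
    fun y => exists_value_of_adjoin pt x hgen (by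
      rintro _ ⟨l, hl, rfl⟩
      exact ⟨_, fun i => ht i l hl⟩) y
  refine ⟨act, fun l hl => ?_⟩
  rw [hact _ _ fun i => ht i l hl]
  simp only [φ, AlgHom.restrictScalars_apply, ← MvPolynomial.algebraMap_eq, ← Algebra.smul_def,
    map_smul, commAeval_X]

set_option maxHeartbeats 1000000 in
/-- An element acts as a polynomial in the operators with the same values at all points. -/
theorem IsTrAct.exists_poly {act : R →ₐ[O] Module.End Λ (localH1 h θ Λ pr ξ)}
    (ha : IsTrAct h θ pr ξ B κv t act) (hgen : Algebra.adjoin O (t '' Bᶜ) = ⊤)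
    (hB : ∀ l : Nat.Primes, l ∉ B → ¬ (l : ℕ) ∣ M) (y : R) :
    ∃ s : MvPolynomial (Good M 0) Λ,
      (∀ v : localH1 h θ Λ pr ξ, (act y v : H1 (levelChar h θ) Λ) =
        heckeHom (R := Λ) h θ Λ (fun l : Good M 0 => (l : Nat.Primes)) s v) ∧
      ∀ (A : Type) [CommRing A] [Algebra O A] (g : R →ₐ[O] A)
        (x : MvPolynomial (Good M 0) Λ →ₐ[O] A),
        (∀ (l : Nat.Primes) (hl : l ∉ B),
          g (t l) = x (MvPolynomial.C (κv l) * MvPolynomial.X ⟨l, hB l hl, l.2.ne_zero⟩)) →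
        g y = x s := by
  have hy : y ∈ Algebra.adjoin O (t '' Bᶜ) := hgen ▸ Algebra.mem_top
  induction hy using Algebra.adjoin_induction with
  | mem y hy =>
    obtain ⟨l, hl, rfl⟩ := hy
    refine ⟨_, fun v => ?_, fun A _ _ g x hgx => hgx l hl⟩
    rw [ha l hl, LinearMap.smul_apply, ← MvPolynomial.algebraMap_eq, ← Algebra.smul_def, map_smul,
      heckeHom_X]
    rfl
  | algebraMap o =>
    refine ⟨algebraMap O _ o, fun v => ?_, fun A _ _ g x _ => by
      rw [AlgHom.commutes, AlgHom.commutes]⟩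
    rw [AlgHom.commutes, Module.algebraMap_end_apply,
      IsScalarTower.algebraMap_apply O Λ (MvPolynomial (Good M 0) Λ), AlgHom.commutes,
      Module.algebraMap_end_apply, algebraMap_smul]
    rfl
  | add a b _ _ ha' hb =>
    obtain ⟨u, hu, hu'⟩ := ha'
    obtain ⟨w, hw, hw'⟩ := hb
    exact ⟨u + w, fun v => by simp [hu, hw], fun A _ _ g x hx => by
      rw [map_add, map_add, hu' A g x hx, hw' A g x hx]⟩
  | mul a b _ _ ha' hb =>
    obtain ⟨u, hu, hu'⟩ := ha'
    obtain ⟨w, hw, hw'⟩ := hb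
    exact ⟨u * w, fun v => by rw [map_mul, map_mul, Module.End.mul_apply, hu, hw]; rfl,
      fun A _ _ g x hx => by rw [map_mul, map_mul, hu' A g x hx, hw' A g x hx]⟩

set_option maxHeartbeats 1000000 in
/-- Two such actions are intertwined by a map commuting with the operators outside `B`. -/
theorem IsTrAct.intertwine {M' : ℕ} {h' : M₀ ∣ M'} {pr' : J → Nat.Primes}
    {ξ' : J → IsLocalRing.ResidueField O} {act : R →ₐ[O] Module.End Λ (localH1 h θ Λ pr ξ)}
    {act' : R →ₐ[O] Module.End Λ (localH1 h' θ Λ pr' ξ')} (ha : IsTrAct h θ pr ξ B κv t act)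
    (ha' : IsTrAct h' θ pr' ξ' B κv t act') (hgen : Algebra.adjoin O (t '' Bᶜ) = ⊤)
    (f : localH1 h θ Λ pr ξ →ₗ[Λ] localH1 h' θ Λ pr' ξ')
    (hf : ∀ l : Nat.Primes, l ∉ B → ∀ v, f (localOp h θ pr ξ l v) = localOp h' θ pr' ξ' l (f v))
    (y : R) (v : localH1 h θ Λ pr ξ) : f (act y v) = act' y (f v) :=
  intertwine_of_adjoin act act' hgen f (fun y hy v => by
    obtain ⟨l, hl, rfl⟩ := hy
    rw [ha l hl, ha' l hl, LinearMap.smul_apply, LinearMap.smul_apply, map_smul, hf l hl]) y v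

end FermatAgent.RTLift.Engine
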