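import Fermat.Agent.RTLift.Engine.AtP
import Fermat.Agent.RTLift.Patch.Continuity

/-!
From the finite levels `O[[T, Y]] / ((1+T)^(p^n) - 1)` to the patched pieces.
-/

set_option autoImplicit false

noncomputable section

namespace FermatAgent.RTLift.Engine

open IsLocalRing FermatAgent.RTLift.Patch Filter Matrix

variable {O : Type} [CommRing O] {I : Type} {r : ℕ}

/-- The ideal of the level `n`. -/
def levelIdeal (O : Type) [CommRing O] (I : Type) (r p n : ℕ) : Ideal (Scal O I r) :=
  Ideal.span (Set.range fun j : Fin r => (1 + MvPowerSeries.X (Sum.inl j)) ^ p ^ n - 1)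

theorem levelIdeal_le_ker_constantCoeff (p n : ℕ) :
    levelIdeal O I r p n ≤ RingHom.ker (MvPowerSeries.constantCoeff (σ := SVars I r) (R := O)) := by
  rw [levelIdeal, Ideal.span_le]
  rintro _ ⟨j, rfl⟩
  simp [RingHom.mem_ker]

/-- The constant coefficient at a finite level. -/
def levelCC (p n : ℕ) : Scal O I r ⧸ levelIdeal O I r p n →+* O :=
  Ideal.Quotient.lift _ MvPowerSeries.constantCoeff
    fun _ hx => levelIdeal_le_ker_constantCoeff p n hx

@[simp] theorem levelCC_mk (p n : ℕ) (x : Scal O I r) :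
    levelCC p n (Ideal.Quotient.mk _ x) = MvPowerSeries.constantCoeff x := rfl

variable [IsDomain O] [IsDiscreteValuationRing O] [IsAdicComplete (maximalIdeal O) O]
  [Finite (ResidueField O)] [Finite I]

omit [IsAdicComplete (maximalIdeal O) O] [Finite (ResidueField O)] in
theorem shrinks_levelIdeal {p : ℕ} (hp : (p : ResidueField O) = 0) :
    Shrinks fun n => levelIdeal O I r p n := by
  refine shrinks_of_le_pow (fun n => n + 1) (tendsto_add_atTop_nat 1) fun n => ?_
  have hpm : (p : Scal O I r) ∈ maximalIdeal (Scal O I r) := by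
    rw [DefRing.mem_maximalIdeal_iff, map_natCast, ← residue_eq_zero_iff, map_natCast]
    exact hp
  rw [levelIdeal, Ideal.span_le]
  rintro _ ⟨j, rfl⟩
  simp only [SetLike.mem_coe]
  have key : ∀ m : ℕ, (1 + MvPowerSeries.X (Sum.inl j) : Scal O I r) ^ p ^ m - 1 ∈
      maximalIdeal (Scal O I r) ^ (m + 1) := by
    intro m
    induction m with
    | zero =>
      simp only [pow_zero, pow_one, add_sub_cancel_left, zero_add]
      exact DefRing.varIdeal_le (Ideal.subset_span ⟨_, rfl⟩)
    | succ m ih =>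
      rw [pow_succ p, pow_mul]
      set a := (1 + MvPowerSeries.X (Sum.inl j) : Scal O I r) ^ p ^ m
      have h1 : a ^ p - 1 = (∑ i ∈ Finset.range p, a ^ i) * (a - 1) := (geom_sum_mul a p).symm
      have h2 : ∑ i ∈ Finset.range p, a ^ i ∈ maximalIdeal (Scal O I r) := by
        have : ∑ i ∈ Finset.range p, a ^ i = (p : Scal O I r) +
            ∑ i ∈ Finset.range p, (a ^ i - 1) := by simp
        rw [this]
        refine add_mem hpm (Ideal.sum_mem _ fun i _ => ?_)
        rw [← geom_sum_mul a i]
        exact Ideal.mul_mem_left _ _ (Ideal.pow_le_self (Nat.succ_ne_zero m) ih)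
      rw [h1, pow_succ' _ (m + 1)]
      exact Ideal.mul_mem_mul h2 ih
  exact key n

variable {p : ℕ} (hp : (p : ResidueField O) = 0) {σ σ' : Type} [Finite σ] [Finite σ']
  {α β : Type} [Fintype α] [DecidableEq α] [Fintype β] [DecidableEq β]

/-- The limit of the actions at finite level. -/
def limAct (act : ∀ n, MvPowerSeries σ O →ₐ[O] Matrix α α (Scal O I r ⧸ levelIdeal O I r p n)) :
    MvPowerSeries σ O →ₐ[O] Matrix α α (Scal O I r) :=
  { ulimAction (shrinks_levelIdeal hp) (fun n => (act n).toRingHom) with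
    commutes' := fun o => by
      refine (ulimAction_eq_scalar (shrinks_levelIdeal hp) (fun n => (act n).toRingHom)
        (algebraMap O (Scal O I r) o) (Eventually.of_forall fun n => ?_)).trans ?_
      · rw [AlgHom.toRingHom_eq_coe, AlgHom.coe_toRingHom, AlgHom.commutes,
          Matrix.algebraMap_eq_diagonal]
        rfl
      · rw [Matrix.algebraMap_eq_diagonal]
        rfl }

omit [Finite σ] in
theorem limAct_apply (act : ∀ n, MvPowerSeries σ O →ₐ[O] Matrix α α (Scal O I r ⧸ levelIdeal O I r p n))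
    (x : MvPowerSeries σ O) :
    limAct hp act x = ulimMat fun n => act n x := rfl

variable (act : ∀ n, MvPowerSeries σ O →ₐ[O] Matrix α α (Scal O I r ⧸ levelIdeal O I r p n))
  (act' : ∀ n, MvPowerSeries σ O →ₐ[O] Matrix β β (Scal O I r ⧸ levelIdeal O I r p n))

theorem limAct_ulim (x : ℕ → MvPowerSeries σ O) :
    limAct hp act (ulim x) = ulimMat fun n => act n (x n) :=
  ulimAction_ulim (shrinks_levelIdeal hp) (fun n => (act n).toRingHom) x

theorem hasScalars_limAct (z : ℕ → CVars I r → MvPowerSeries σ O)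
    (hm : ∀ n v, z n v ∈ maximalIdeal (MvPowerSeries σ O))
    (hz : ∀ v, ∀ᶠ n in limFilter,
      act n (z n v) = Matrix.scalar α (Ideal.Quotient.mk _ (zval v))) :
    HasScalars (limAct hp act) fun v => ulim fun n => z n v :=
  ⟨fun v => ulim_mem_of_eventually (Eventually.of_forall fun n => hm n v), fun v =>
    (ulimAction_ulim_eq_scalar (shrinks_levelIdeal hp) (fun n => (act n).toRingHom) _
      (fun _ => zval v) (hz v)).trans (by rw [ulim_const])⟩

omit [Finite σ] in
theorem prod_le_ker_limAct {ι : Type} (s : Finset ι) (C : ι → Ideal (MvPowerSeries σ O))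
    (h : ∀ᶠ n in limFilter, ∏ i ∈ s, C i ≤ RingHom.ker (act n).toRingHom) :
    ∏ i ∈ s, C i ≤ RingHom.ker (limAct hp act).toRingHom := fun x hx => by
  change limAct hp act x = 0
  rw [limAct_apply, ulimMat_congr (shrinks_levelIdeal hp) (f := fun n => act n x) (g := fun _ => 0)
    (h.mono fun n hn => hn hx), ulimMat_zero (shrinks_levelIdeal hp)]

omit [DecidableEq α] [Finite σ] in
theorem limAct_eq_sum {x : MvPowerSeries σ O}
    (F : ∀ n, Fin 2 → Matrix β α (Scal O I r ⧸ levelIdeal O I r p n))
    (U : ∀ n, Fin 2 → Matrix α β (Scal O I r ⧸ levelIdeal O I r p n))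
    (h : ∀ᶠ n in limFilter, act' n x = ∑ i, F n i * U n i) :
    limAct hp act' x = ∑ i, (ulimMat fun n => F n i) * ulimMat fun n => U n i := by
  rw [limAct_apply, ulimMat_congr (shrinks_levelIdeal hp) h, Fin.sum_univ_two]
  simp only [Fin.sum_univ_two]
  rw [ulimMat_add (shrinks_levelIdeal hp), ulimMat_mul (shrinks_levelIdeal hp),
    ulimMat_mul (shrinks_levelIdeal hp)]

omit [Finite σ] in
theorem limAct_intertwine (F : ∀ n, Matrix β α (Scal O I r ⧸ levelIdeal O I r p n))
    (x : MvPowerSeries σ O) (h : ∀ᶠ n in limFilter, F n * act n x = act' n x * F n) :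
    ulimMat F * limAct hp act x = limAct hp act' x * ulimMat F :=
  ulimMat_linear (shrinks_levelIdeal hp) (fun n => (act n).toRingHom)
    (fun n => (act' n).toRingHom) F x h

omit [Finite σ] in
theorem limAct_congr (act'' : ∀ n, MvPowerSeries σ O →ₐ[O]
      Matrix α α (Scal O I r ⧸ levelIdeal O I r p n)) (x : MvPowerSeries σ O)
    (h : ∀ i j, ∀ᶠ n in limFilter, act n x i j - act'' n x i j ∈
      ((maximalIdeal O).map (algebraMap O (Scal O I r))).map (Ideal.Quotient.mk _)) (i j : α) :
    limAct hp act x i j - limAct hp act'' x i j ∈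
      (maximalIdeal O).map (algebraMap O (Scal O I r)) := by
  set K := (maximalIdeal O).map (algebraMap O (Scal O I r))
  have hs := shrinks_levelIdeal (I := I) (r := r) hp
  rw [limAct_apply, limAct_apply, ulimMat_apply, ulimMat_apply, ← ulimQHom_apply hs,
    ← ulimQHom_apply hs, ← map_sub]
  refine mem_of_forall_mem_sup_pow K fun k => ?_
  obtain ⟨n, hn, h1, hk⟩ := ((h i j).and ((ulimQ_spec hs
    ((fun n => act n x i j) - fun n => act'' n x i j) k).and
      (eventually_limFilter_of_atTop (hs k)))).exists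
  have h2 : Ideal.Quotient.mk (levelIdeal O I r p n)
      (ulimQ ((fun n => act n x i j) - fun n => act'' n x i j)) ∈
      (K ⊔ maximalIdeal (Scal O I r) ^ k).map (Ideal.Quotient.mk (levelIdeal O I r p n)) := by
    rw [Ideal.map_sup, ← sub_add_cancel (Ideal.Quotient.mk _ _) (act n x i j - act'' n x i j)]
    exact add_mem (Submodule.mem_sup_right h1) (Submodule.mem_sup_left hn)
  rw [← Ideal.mem_comap, Ideal.comap_map_of_surjective' _ Ideal.Quotient.mk_surjective,
    Ideal.mk_ker, sup_eq_left.mpr (hk.trans le_sup_right)] at h2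
  exact h2

theorem constantCoeff_limAct (t : ℕ → MvPowerSeries σ O) (B : Matrix α α O)
    (h : ∀ᶠ n in limFilter, (act n (t n)).map (levelCC p n) = B) :
    (limAct hp act (ulim t)).map MvPowerSeries.constantCoeff = B := by
  have hs := shrinks_levelIdeal (I := I) (r := r) hp
  have hI : ∀ n, levelIdeal O I r p n ≤
      RingHom.ker (MvPowerSeries.constantCoeff (σ := SVars I r) (R := O)) :=
    levelIdeal_le_ker_constantCoeff p
  rw [limAct_ulim]
  ext i j
  have h0 := mk_ulimQ_eq_of_factor hs hI (x := fun n => act n (t n) i j)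
    (c := Ideal.Quotient.mk _ (algebraMap O _ (B i j))) (h.mono fun n hn => by
      obtain ⟨y, hy⟩ := Ideal.Quotient.mk_surjective (act n (t n) i j)
      rw [← hy, Ideal.Quotient.factor_mk, Ideal.Quotient.eq, RingHom.mem_ker, map_sub,
        sub_eq_zero, MvPowerSeries.algebraMap_apply]
      simp only [MvPowerSeries.constantCoeff_C, Algebra.algebraMap_self, RingHom.id_apply]
      rw [← hn, Matrix.map_apply, ← hy, levelCC_mk])
  rw [Ideal.Quotient.eq, RingHom.mem_ker, map_sub, sub_eq_zero] at h0
  simpa [ulimMat_apply, MvPowerSeries.algebraMap_apply] using h0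

/-- The limit of homomorphisms between ambient rings. -/
def limHom (ψ : ℕ → MvPowerSeries σ' O →ₐ[O] MvPowerSeries σ O) :
    MvPowerSeries σ' O →ₐ[O] MvPowerSeries σ O :=
  { ulimRingHom (fun n => (ψ n).toRingHom) with
    commutes' := fun o => ulimRingHom_eq_of_eventually _
      (Eventually.of_forall fun n => (ψ n).commutes o) }

omit [Finite σ'] in
theorem limHom_apply (ψ : ℕ → MvPowerSeries σ' O →ₐ[O] MvPowerSeries σ O) (x : MvPowerSeries σ' O) :
    limHom ψ x = ulim fun n => ψ n x := rfl

theorem overLocal_limHom {r₁ r₂ : ℕ} (ψ : ℕ → LocalRings.Ambient O I r₁ →ₐ[O]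
    LocalRings.Ambient O I r₂) (h : ∀ n, OverLocal (ψ n)) : OverLocal (limHom ψ) := fun v =>
  ulimRingHom_eq_of_eventually (fun n => (ψ n).toRingHom) (Eventually.of_forall fun n => h n v)

omit [Finite σ'] in
theorem limAct_comp (ψ : ℕ → MvPowerSeries σ' O →ₐ[O] MvPowerSeries σ O) :
    (limAct hp act).comp (limHom ψ) = limAct hp fun n => (act n).comp (ψ n) :=
  AlgHom.ext fun x => by rw [AlgHom.comp_apply, limHom_apply, limAct_ulim, limAct_apply]; rfl

/-- The limit of points. -/
def limPoint (θ : ℕ → MvPowerSeries σ O →ₐ[O] O) : MvPowerSeries σ O →ₐ[O] O :=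
  { ulimRingHom (fun n => (θ n).toRingHom) with
    commutes' := fun o => ulimRingHom_eq_of_eventually _
      (Eventually.of_forall fun n => (θ n).commutes o) }

theorem limPoint_ulim (θ : ℕ → MvPowerSeries σ O →ₐ[O] O) (x : ℕ → MvPowerSeries σ O) {a : O}
    (h : ∀ᶠ n in limFilter, θ n (x n) = a) : limPoint θ (ulim x) = a :=
  (ulimRingHom_ulim (fun n => (θ n).toRingHom) x).trans ((ulim_congr h).trans (ulim_const a))

omit [Finite σ] in
theorem le_ker_limPoint (θ : ℕ → MvPowerSeries σ O →ₐ[O] O) {C : Ideal (MvPowerSeries σ O)}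
    (h : ∀ᶠ n in limFilter, C ≤ RingHom.ker (θ n).toRingHom) :
    C ≤ RingHom.ker (limPoint θ).toRingHom := fun _ hx =>
  ulimRingHom_eq_of_eventually (fun n => (θ n).toRingHom) (h.mono fun _ hn => hn hx)

omit [IsAdicComplete (maximalIdeal O) O] [Finite (ResidueField O)] [Finite σ] [Finite σ'] in
/-- The variables go to the maximal ideal. -/
theorem map_X_mem (f : MvPowerSeries σ' O →ₐ[O] MvPowerSeries σ O) (v : σ') :
    f (MvPowerSeries.X v) ∈ maximalIdeal (MvPowerSeries σ O) := by
  rw [DefRing.mem_maximalIdeal_iff, mem_maximalIdeal, mem_nonunits_iff]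
  intro hu
  set a := MvPowerSeries.constantCoeff (f (MvPowerSeries.X v))
  have h1 : IsUnit (f (MvPowerSeries.X v - algebraMap O _ a)) :=
    IsUnit.map f (by simpa [MvPowerSeries.isUnit_iff_constantCoeff,
      MvPowerSeries.algebraMap_apply] using hu.neg)
  rw [map_sub, AlgHom.commutes, MvPowerSeries.isUnit_iff_constantCoeff] at h1
  simp [a, MvPowerSeries.algebraMap_apply] at h1

/-- If the variables are reached modulo an ideal, everything is. -/
theorem surjective_mod_of_vars (f : MvPowerSeries σ' O →ₐ[O] MvPowerSeries σ O)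
    (J : Ideal (MvPowerSeries σ O)) (h : ∀ v, ∃ y, MvPowerSeries.X v - f y ∈ J)
    (x : MvPowerSeries σ O) : ∃ y, x - f y ∈ J := by
  rcases eq_or_ne J ⊤ with rfl | hJ
  · exact ⟨0, Submodule.mem_top⟩
  set Q := MvPowerSeries σ O ⧸ J
  have : Nontrivial Q := Ideal.Quotient.nontrivial_iff.mpr hJ
  have : IsLocalRing Q := .of_surjective' (Ideal.Quotient.mk J) Ideal.Quotient.mk_surjective
  have : Finite (ResidueField Q) := by
    have : IsLocalHom (Ideal.Quotient.mk J) :=
      IsLocalHom.of_surjective _ Ideal.Quotient.mk_surjective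
    refine Finite.of_surjective (ResidueField.map (Ideal.Quotient.mk J)) ?_
    intro y
    obtain ⟨y, rfl⟩ := residue_surjective y
    obtain ⟨y, rfl⟩ := Ideal.Quotient.mk_surjective y
    exact ⟨residue _ y, ResidueField.map_residue _ y⟩
  let : Algebra (MvPowerSeries σ' O) Q := ((Ideal.Quotient.mk J).comp f.toRingHom).toAlgebra
  set g : MvPowerSeries σ' O →ₗ[MvPowerSeries σ' O] Q := Algebra.linearMap _ _
  have hmap : (maximalIdeal (MvPowerSeries σ' O)).map (algebraMap (MvPowerSeries σ' O) Q) =
      maximalIdeal Q := by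
    have hQm : maximalIdeal Q = (maximalIdeal (MvPowerSeries σ O)).map (Ideal.Quotient.mk J) :=
      (IsLocalRing.map_maximalIdeal_of_surjective _ Ideal.Quotient.mk_surjective).symm
    have hlm : (maximalIdeal (MvPowerSeries σ' O)).map (algebraMap (MvPowerSeries σ' O) Q) ≤
        maximalIdeal Q := by
      rw [hQm, DefRing.maximalIdeal_eq, RingHom.algebraMap_toAlgebra, ← Ideal.map_map]
      refine Ideal.map_mono ?_
      rw [Ideal.map_sup, sup_le_iff, Ideal.map_map]
      refine ⟨Ideal.map_le_iff_le_comap.mpr fun o ho => ?_,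
        DefRing.map_varIdeal_le f (map_X_mem f)⟩
      rw [Ideal.mem_comap, RingHom.comp_apply, AlgHom.toRingHom_eq_coe, RingHom.coe_coe,
        AlgHom.commutes, DefRing.mem_maximalIdeal_iff, MvPowerSeries.algebraMap_apply]
      simpa using ho
    refine le_antisymm hlm ?_
    rw [hQm, DefRing.maximalIdeal_eq, Ideal.map_sup, sup_le_iff, Ideal.map_map]
    refine ⟨Ideal.map_le_iff_le_comap.mpr fun o ho => ?_, ?_⟩
    · have h1 : algebraMap (MvPowerSeries σ' O) Q (algebraMap O _ o) =
          Ideal.Quotient.mk J (algebraMap O _ o) := by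
        rw [RingHom.algebraMap_toAlgebra]
        exact congrArg _ (f.commutes o)
      rw [Ideal.mem_comap, RingHom.comp_apply, ← h1]
      refine Ideal.mem_map_of_mem _ ?_
      rw [DefRing.mem_maximalIdeal_iff, MvPowerSeries.algebraMap_apply]
      simpa using ho
    · rw [DefRing.varIdeal, Ideal.map_span, Ideal.span_le]
      rintro _ ⟨_, ⟨v, rfl⟩, rfl⟩
      obtain ⟨y, hy⟩ := h v
      rw [SetLike.mem_coe, Ideal.Quotient.eq.mpr hy]
      have hmem : Ideal.Quotient.mk J (MvPowerSeries.X v) ∈ maximalIdeal Q := by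
        rw [hQm]
        exact Ideal.mem_map_of_mem _ (DefRing.varIdeal_le (Ideal.subset_span ⟨v, rfl⟩))
      rw [Ideal.Quotient.eq.mpr hy] at hmem
      refine Ideal.mem_map_of_mem (algebraMap (MvPowerSeries σ' O) Q) ?_
      exact (mem_maximalIdeal _).mpr fun hu => (mem_maximalIdeal _).mp hmem
        (hu.map (algebraMap (MvPowerSeries σ' O) Q))
  have : Module.Finite (MvPowerSeries σ' O) Q :=
    finite_of_pow_le_map (algebraMap (MvPowerSeries σ' O) Q) hmap.le 1 (by rw [pow_one, hmap])
  have hsurj : LinearMap.range g = ⊤ := by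
    refine le_antisymm le_top (Submodule.le_of_le_smul_of_le_jacobson_bot Module.Finite.fg_top
      (IsLocalRing.maximalIdeal_le_jacobson ⊥) fun q _ => ?_)
    obtain ⟨y, rfl⟩ := Ideal.Quotient.mk_surjective q
    rw [Ideal.smul_top_eq_map, hmap]
    obtain ⟨o, ho⟩ : ∃ o : O, y - algebraMap O _ o ∈ maximalIdeal (MvPowerSeries σ O) :=
      ⟨_, DefRing.varIdeal_le (DefRing.sub_C_constantCoeff_mem y)⟩
    rw [← add_sub_cancel (Ideal.Quotient.mk J (algebraMap O _ o)) (Ideal.Quotient.mk J y),
      ← map_sub]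
    refine Submodule.add_mem_sup ⟨algebraMap O _ o, ?_⟩ ?_
    · change Ideal.Quotient.mk J (f (algebraMap O _ o)) = _
      rw [AlgHom.commutes]
    · rw [Submodule.restrictScalars_mem,
        ← IsLocalRing.map_maximalIdeal_of_surjective _ (Ideal.Quotient.mk_surjective (I := J))]
      exact Ideal.mem_map_of_mem _ ho
  obtain ⟨y, hy⟩ := LinearMap.range_eq_top.mp hsurj (Ideal.Quotient.mk J x)
  exact ⟨y, Ideal.Quotient.eq.mp hy.symm⟩

end FermatAgent.RTLift.Engine
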