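import Fermat.Agent.RTLift.Engine.Base
import Fermat.Agent.RTLift.Patch.Slot

/-!
Patched pieces: actions through matrices over `O[[T, Y]]` containing the scalars. The prime
components of their supports, the wall step, the special fibre step and cokernels.
-/

set_option autoImplicit false

noncomputable section

namespace FermatAgent.RTLift.Engine

open IsLocalRing FermatAgent.RTLift.Patch Matrix

section Coker

variable {S : Type} [CommRing S] {α β : Type} [Fintype α] [DecidableEq α] [Fintype β] [DecidableEq β]

/-- The cokernel of two maps with left inverses is a free direct summand. -/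
theorem exists_coker [IsLocalRing S] (F : Fin 2 → Matrix β α S) (G : Fin 2 → Matrix α β S)
    (hGF : ∀ i j, G i * F j = if i = j then 1 else 0) :
    ∃ (k : ℕ) (P : Matrix (Fin k) β S) (L : Matrix β (Fin k) S), P * L = 1 ∧
      L * P = 1 - ∑ i, F i * G i ∧ (∀ i, P * F i = 0) ∧
      k + 2 * Fintype.card α = Fintype.card β := by
  set e : Matrix β β S := 1 - ∑ i, F i * G i with he
  have heF : ∀ j, e * F j = 0 := fun j => by
    rw [he, Matrix.sub_mul, Matrix.one_mul, Matrix.sum_mul,
      Finset.sum_eq_single j (fun i _ hi => by rw [Matrix.mul_assoc, hGF, if_neg hi, Matrix.mul_zero])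
        (by simp), Matrix.mul_assoc, hGF, if_pos rfl, Matrix.mul_one, sub_self]
  have hGe : ∀ j, G j * e = 0 := fun j => by
    rw [he, Matrix.mul_sub, Matrix.mul_one, Matrix.mul_sum,
      Finset.sum_eq_single j (fun i _ hi => by
        rw [← Matrix.mul_assoc, hGF, if_neg (Ne.symm hi), Matrix.zero_mul])
        (by simp), ← Matrix.mul_assoc, hGF, if_pos rfl, Matrix.one_mul, sub_self]
  have hee : e * e = e := by
    conv_lhs => arg 2; rw [he]
    rw [Matrix.mul_sub, Matrix.mul_one, Matrix.mul_sum]
    simp [← Matrix.mul_assoc, heF]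
  set E := Matrix.toLin' e
  set M := LinearMap.range E
  have hfix : ∀ x ∈ M, E x = x := by
    rintro _ ⟨y, rfl⟩
    rw [← LinearMap.comp_apply, ← Matrix.toLin'_mul, hee]
  have : Module.Projective S M := Module.Projective.of_split M.subtype
    (E.codRestrict M fun x => LinearMap.mem_range_self E x)
    (LinearMap.ext fun x => Subtype.ext (hfix x x.2))
  have : Module.Finite S M := Module.Finite.range E
  have : Module.Free S M := Module.free_of_flat_of_isLocalRing
  have hb := Module.finBasis S M
  refine ⟨Module.finrank S M,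
    LinearMap.toMatrix' (hb.equivFun.toLinearMap ∘ₗ E.codRestrict M fun x =>
      LinearMap.mem_range_self E x),
    LinearMap.toMatrix' (M.subtype ∘ₗ hb.equivFun.symm.toLinearMap), ?_, ?_, fun i => ?_, ?_⟩
  · rw [← LinearMap.toMatrix'_comp, ← LinearMap.toMatrix'_id (R := S)]
    refine congrArg _ (LinearMap.ext fun v => ?_)
    simp only [LinearMap.comp_apply, LinearEquiv.coe_coe, LinearMap.id_apply]
    conv_rhs => rw [← hb.equivFun.apply_symm_apply v]
    exact congrArg _ (Subtype.ext (hfix _ (hb.equivFun.symm v).2))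
  · rw [← LinearMap.toMatrix'_comp, ← LinearMap.toMatrix'_toLin' e]
    refine congrArg _ (LinearMap.ext fun v => ?_)
    simp [E]
  · rw [← LinearMap.toMatrix'_toLin' (F i), ← LinearMap.toMatrix'_comp]
    refine (congrArg _ (LinearMap.ext fun v => ?_)).trans (map_zero _)
    simp only [LinearMap.comp_apply, LinearEquiv.coe_coe, LinearMap.zero_apply]
    refine (congrArg _ (Subtype.ext ?_)).trans (map_zero hb.equivFun)
    change E (Matrix.toLin' (F i) v) = 0
    rw [← LinearMap.comp_apply, ← Matrix.toLin'_mul, heF, map_zero, LinearMap.zero_apply]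
  · -- `Sᵝ = M ⊕ Sᵅ ⊕ Sᵅ`
    have hequiv : (β → S) ≃ₗ[S] M × (Fin 2 → α → S) :=
      { toFun := fun x => (⟨E x, LinearMap.mem_range_self E x⟩, fun i => G i *ᵥ x)
        map_add' := fun x y => Prod.ext (Subtype.ext (map_add E x y))
          (funext fun i => Matrix.mulVec_add _ _ _)
        map_smul' := fun c x => Prod.ext (Subtype.ext (map_smul E c x))
          (funext fun i => Matrix.mulVec_smul _ _ _)
        invFun := fun y => (y.1 : β → S) + ∑ i, F i *ᵥ y.2 i
        left_inv := fun x => by
          simp [E, he, Matrix.mulVec_mulVec]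
        right_inv := fun y => by
          refine Prod.ext (Subtype.ext ?_) (funext fun j => ?_)
          · change E ((y.1 : β → S) + ∑ i, F i *ᵥ y.2 i) = _
            rw [map_add, map_sum, hfix _ y.1.2, add_eq_left]
            exact Finset.sum_eq_zero fun i _ => by
              rw [Matrix.toLin'_apply, Matrix.mulVec_mulVec, heF, Matrix.zero_mulVec]
          · have h1 : G j *ᵥ (y.1 : β → S) = 0 := by
              rw [← hfix _ y.1.2, Matrix.toLin'_apply, Matrix.mulVec_mulVec, hGe, Matrix.zero_mulVec]
            change G j *ᵥ ((y.1 : β → S) + ∑ i, F i *ᵥ y.2 i) = y.2 j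
            rw [Matrix.mulVec_add, h1, zero_add, Matrix.mulVec_sum,
              Finset.sum_eq_single j (fun i _ hi => by
                rw [Matrix.mulVec_mulVec, hGF, if_neg (Ne.symm hi), Matrix.zero_mulVec])
                (by simp), Matrix.mulVec_mulVec, hGF, if_pos rfl, Matrix.one_mulVec] }
    have := hequiv.finrank_eq
    rw [Module.finrank_prod, Module.finrank_pi, Module.finrank_pi_fintype] at this
    simp only [Module.finrank_pi, Finset.sum_const, Finset.card_univ, Fintype.card_fin,
      smul_eq_mul] at this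
    omega

variable {O R : Type} [CommRing O] [CommRing R] [Algebra O R] [Algebra O S]
  {k : ℕ} (act : R →ₐ[O] Matrix β β S) (actα : R →ₐ[O] Matrix α α S)
  (P : Matrix (Fin k) β S) (L : Matrix β (Fin k) S) (F : Fin 2 → Matrix β α S)
  (G : Fin 2 → Matrix α β S)

/-- The action on a cokernel. -/
def cokerAct (hPL : P * L = 1) (hLP : L * P = 1 - ∑ i, F i * G i) (hPF : ∀ i, P * F i = 0)
    (hF : ∀ i r, F i * actα r = act r * F i) : R →ₐ[O] Matrix (Fin k) (Fin k) S where
  toFun r := P * act r * L
  map_one' := by rw [map_one, Matrix.mul_one, hPL]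
  map_mul' r s := by
    have h : P * act r * (L * P) = P * act r := by
      rw [hLP, Matrix.mul_sub, Matrix.mul_one, sub_eq_self, Matrix.mul_sum]
      refine Finset.sum_eq_zero fun i _ => ?_
      rw [← Matrix.mul_assoc, Matrix.mul_assoc P, ← hF, ← Matrix.mul_assoc, hPF,
        Matrix.zero_mul, Matrix.zero_mul]
    rw [map_mul, ← Matrix.mul_assoc P, show P * act r * L * (P * act s * L) =
      P * act r * (L * P) * act s * L by simp only [Matrix.mul_assoc], h]
  map_zero' := by rw [map_zero, Matrix.mul_zero, Matrix.zero_mul]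
  map_add' r s := by rw [map_add, Matrix.mul_add, Matrix.add_mul]
  commutes' o := by
    rw [Algebra.algebraMap_eq_smul_one, map_smul, map_one, Matrix.mul_smul, Matrix.smul_mul,
      Matrix.mul_one, hPL, Algebra.algebraMap_eq_smul_one]

theorem cokerAct_apply (hPL : P * L = 1) (hLP : L * P = 1 - ∑ i, F i * G i)
    (hPF : ∀ i, P * F i = 0) (hF : ∀ i r, F i * actα r = act r * F i) (r : R) :
    cokerAct act actα P L F G hPL hLP hPF hF r = P * act r * L := rfl

end Coker

variable {O : Type} [CommRing O] [IsDomain O] [IsDiscreteValuationRing O]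
  [IsAdicComplete (maximalIdeal O) O] [Finite (ResidueField O)]
  {I : Type} [Finite I] {r : ℕ} {σ : Type} [Finite σ]

section Scalars

variable {α : Type} [Fintype α] [DecidableEq α]
  (act : MvPowerSeries σ O →ₐ[O] Matrix α α (Scal O I r))

/-- `z` lists elements acting as the variables of the coefficient ring. -/
structure HasScalars (z : CVars I r → MvPowerSeries σ O) : Prop where
  mem : ∀ v, z v ∈ maximalIdeal (MvPowerSeries σ O)
  act_z : ∀ v, act (z v) = Matrix.scalar α (zval v)

variable {act} {z : CVars I r → MvPowerSeries σ O} (hs : HasScalars act z)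
include hs

/-- The coefficient ring inside the acting ring. -/
def HasScalars.ev : Coef O I r →ₐ[O] MvPowerSeries σ O :=
  (DefRing.exists_eval z hs.mem).choose

omit [Finite (ResidueField O)] in
theorem HasScalars.ev_X (v : CVars I r) : hs.ev (MvPowerSeries.X v) = z v :=
  (DefRing.exists_eval z hs.mem).choose_spec v

theorem HasScalars.act_ev (a : Coef O I r) :
    act (hs.ev a) = Matrix.scalar α (zHom O I r a) := by
  let g : Coef O I r →ₐ[O] Matrix α α (Scal O I r) :=
    (IsScalarTower.toAlgHom O (Scal O I r) (Matrix α α (Scal O I r))).comp (zHom O I r)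
  have := hom_ext_matrix (act.comp hs.ev) g fun v => by
    rw [AlgHom.comp_apply, hs.ev_X, hs.act_z]
    simp [g, zHom_X, Matrix.algebraMap_eq_diagonal]
  refine (DFunLike.congr_fun this a).trans ?_
  simp [g, Matrix.algebraMap_eq_diagonal]

end Scalars

section Slots

variable {α : Type} [Fintype α] [DecidableEq α]
  (ρ : MvPowerSeries σ O →+* Matrix α α (Scal O I r))

instance instModuleSlotCoef : Module (Coef O I r) (Slot ρ) :=
  Module.compHom (Slot ρ) (zHom O I r).toRingHom

instance instFiniteSlotCoef : Module.Finite (Coef O I r) (Slot ρ) := by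
  let : Algebra (Coef O I r) (Scal O I r) := (zHom O I r).toRingHom.toAlgebra
  have : Module.Finite (Coef O I r) (Scal O I r) := finite_zHom
  have : IsScalarTower (Coef O I r) (Scal O I r) (Slot ρ) :=
    ⟨fun a s x => by rw [Algebra.smul_def, mul_smul]; rfl⟩
  exact Module.Finite.trans (Scal O I r) (Slot ρ)

omit [Finite (ResidueField O)] [Finite σ] in
theorem coef_smul_def (a : Coef O I r) (x : Slot ρ) : a • x = zHom O I r a • x := rfl

omit [IsDomain O] [IsDiscreteValuationRing O] [IsAdicComplete (maximalIdeal O) O]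
  [Finite (ResidueField O)] [Finite I] [Finite σ] in
theorem annihilator_slot : Module.annihilator (MvPowerSeries σ O) (Slot ρ) = RingHom.ker ρ := by
  ext x
  rw [Module.mem_annihilator, RingHom.mem_ker]
  refine ⟨fun h => ext_iff_mulVec.mpr fun v => ?_, fun h y => ?_⟩
  · rw [Matrix.zero_mulVec]
    have := congrArg (Slot.toFun ρ) (h ((Slot.toFun ρ).symm v))
    rwa [Slot.smul_apply, LinearEquiv.apply_symm_apply, map_zero] at this
  · refine (Slot.toFun ρ).injective ?_
    rw [Slot.smul_apply, h, Matrix.zero_mulVec, map_zero]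

end Slots

section Steps

variable {α β : Type} [Fintype α] [DecidableEq α] [Fintype β] [DecidableEq β]
  {act : MvPowerSeries σ O →ₐ[O] Matrix α α (Scal O I r)}
  {act' : MvPowerSeries σ O →ₐ[O] Matrix β β (Scal O I r)}
  {z : CVars I r → MvPowerSeries σ O}

theorem HasScalars.smul_eq (hs : HasScalars act z) (a : Coef O I r)
    (x : Slot act.toRingHom) : a • x = hs.ev a • x :=
  (Slot.smul_eq_of_scalar act.toRingHom (r := hs.ev a) (a := zHom O I r a) (hs.act_ev a) x).symm

theorem HasScalars.finite (hs : HasScalars act z) :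
    Module.Finite (MvPowerSeries σ O) (Slot act.toRingHom) :=
  finite_of_scalar_mem (A := Coef O I r) fun a => ⟨hs.ev a, hs.smul_eq a⟩

theorem HasScalars.mem_support_iff (hs : HasScalars act z)
    (P : PrimeSpectrum (MvPowerSeries σ O)) :
    P ∈ Module.support (MvPowerSeries σ O) (Slot act.toRingHom) ↔
      RingHom.ker act.toRingHom ≤ P.asIdeal := by
  have := hs.finite
  rw [Module.support_eq_zeroLocus, annihilator_slot, PrimeSpectrum.mem_zeroLocus,
    SetLike.coe_subset_coe]

/-- A prime of the support contains one of the components killing the piece, itself in the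
support. -/
theorem exists_component (hs : HasScalars act z) {ι : Type} [Fintype ι]
    (C : ι → Ideal (MvPowerSeries σ O)) (hprime : ∀ i, (C i).IsPrime)
    (hdim : ∀ i, ringKrullDim (MvPowerSeries σ O ⧸ C i) = ringKrullDim (Scal O I r))
    (hkill : ∏ i, C i ≤ RingHom.ker act.toRingHom) {P : Ideal (MvPowerSeries σ O)} [hP : P.IsPrime]
    (h : RingHom.ker act.toRingHom ≤ P) : ∃ i, C i ≤ P ∧ RingHom.ker act.toRingHom ≤ C i := by
  have : IsDomain (Scal O I r) := NoZeroDivisors.to_isDomain _
  obtain ⟨i, h1, h2⟩ := exists_component_le_of_mem_support (A := Coef O I r)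
    (M := Slot act.toRingHom) (Q := ⟨P, hP⟩) (fun a => ⟨hs.ev a, hs.smul_eq a⟩)
    (fun a x hax => by
      rw [coef_smul_def, smul_eq_zero] at hax
      exact hax.imp_left fun h0 => zHom_injective (h0.trans (map_zero _).symm))
    hprime (fun i => (hdim i).trans ringKrullDim_coef.symm) (by rwa [annihilator_slot])
    ((hs.mem_support_iff ⟨P, hP⟩).mpr h)
  exact ⟨i, h1, (hs.mem_support_iff ⟨C i, hprime i⟩).mp h2⟩

/-- The wall step. -/
theorem wall_step (hs : HasScalars act z) (F : Fin 2 → Matrix β α (Scal O I r))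
    (T U : Fin 2 → Matrix α β (Scal O I r) ) (V : Fin 2 → Matrix β α (Scal O I r))
    (hF : ∀ i x, F i * act x = act' x * F i) (hT : ∀ i x, T i * act' x = act x * T i)
    (hTV : ∀ i j, T i * V j = if i = j then 1 else 0)
    (E : Matrix (Fin 2) (Fin 2) (MvPowerSeries σ O)) (hE : ∀ i j, T i * F j = act (E i j))
    {P : Ideal (MvPowerSeries σ O)} [hP : P.IsPrime] (hdet : E.det ∈ P)
    (h : RingHom.ker act.toRingHom ≤ P) {x : MvPowerSeries σ O}
    (hx : act' x = ∑ i, F i * U i) : x ∈ P := by
  let N := Slot act.toRingHom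
  let N₁ := Slot act'.toRingHom
  have := hs.finite
  let res : (Fin 2 → N) →ₗ[MvPowerSeries σ O] N₁ :=
    ∑ i, (slotMap act.toRingHom act'.toRingHom (F i) (hF i)).comp (LinearMap.proj i)
  let tr : N₁ →ₗ[MvPowerSeries σ O] (Fin 2 → N) :=
    LinearMap.pi fun i => slotMap act'.toRingHom act.toRingHom (T i) (hT i)
  have hres : ∀ v, Slot.toFun act'.toRingHom (res v) =
      ∑ i, F i *ᵥ Slot.toFun act.toRingHom (v i) := fun v => by
    simp only [res, LinearMap.sum_apply, map_sum, LinearMap.comp_apply, LinearMap.proj_apply,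
      slotMap_apply]
  have htr : Function.Surjective tr := fun v => by
    refine ⟨(Slot.toFun act'.toRingHom).symm (∑ j, V j *ᵥ Slot.toFun act.toRingHom (v j)), ?_⟩
    funext i
    refine (Slot.toFun act.toRingHom).injective ?_
    rw [LinearMap.pi_apply, slotMap_apply, LinearEquiv.apply_symm_apply, Matrix.mulVec_sum,
      Finset.sum_eq_single i (fun j _ hj => by
        rw [Matrix.mulVec_mulVec, hTV, if_neg (Ne.symm hj), Matrix.zero_mulVec]) (by simp),
      Matrix.mulVec_mulVec, hTV, if_pos rfl, Matrix.one_mulVec]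
  have hmem := mem_support_coker_of_wall res tr htr E (fun v i => by
    refine (Slot.toFun act.toRingHom).injective ?_
    rw [LinearMap.pi_apply, slotMap_apply, hres, Matrix.mulVec_sum, map_sum]
    refine Finset.sum_congr rfl fun j _ => ?_
    rw [Matrix.mulVec_mulVec, hE, Slot.smul_apply]
    rfl) ⟨P, hP⟩ hdet ((hs.mem_support_iff ⟨P, hP⟩).mpr h)
  by_contra hxP
  refine (Module.notMem_support_iff'.mpr fun m => ⟨x, hxP, ?_⟩) hmem
  obtain ⟨y, rfl⟩ := Submodule.Quotient.mk_surjective _ m
  rw [← Submodule.Quotient.mk_smul, Submodule.Quotient.mk_eq_zero]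
  refine ⟨fun i => (Slot.toFun act.toRingHom).symm (U i *ᵥ Slot.toFun act'.toRingHom y),
    (Slot.toFun act'.toRingHom).injective ?_⟩
  rw [hres, Slot.smul_apply]
  change _ = act' x *ᵥ _
  rw [hx, Matrix.sum_mulVec]
  exact Finset.sum_congr rfl fun i _ => by
    rw [LinearEquiv.apply_symm_apply, Matrix.mulVec_mulVec]

/-- An element acting through matrices with entries in the ideal of finitely many scalars, which
act through elements of a prime of the support, lies in that prime. -/
theorem HasScalars.mem_of_entries_mem (hs : HasScalars act z) {ν : Type} [Fintype ν]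
    (c : ν → Scal O I r) (w : ν → MvPowerSeries σ O)
    (hw : ∀ v, act (w v) = Matrix.scalar α (c v)) {P : Ideal (MvPowerSeries σ O)} [hP : P.IsPrime]
    (hwP : ∀ v, w v ∈ P) (h : RingHom.ker act.toRingHom ≤ P) {x : MvPowerSeries σ O}
    (hx : ∀ i j, act x i j ∈ Ideal.span (Set.range c)) : x ∈ P := by
  have := hs.finite
  set 𝔞 : Ideal (MvPowerSeries σ O) := Ideal.span (Set.range w)
  have hle : LinearMap.range (x • (LinearMap.id :
      Slot act.toRingHom →ₗ[MvPowerSeries σ O] Slot act.toRingHom)) ≤
      𝔞 • (⊤ : Submodule (MvPowerSeries σ O) (Slot act.toRingHom)) := by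
    rintro _ ⟨y, rfl⟩
    choose d hd using fun i j => Ideal.mem_span_range_iff_exists_fun.mp (hx i j)
    have e : x • y = ∑ v, w v • (Slot.toFun act.toRingHom).symm
        ((Matrix.of fun i j => d i j v) *ᵥ Slot.toFun act.toRingHom y) := by
      refine (Slot.toFun act.toRingHom).injective ?_
      rw [Slot.smul_apply, map_sum]
      funext i
      change (act x *ᵥ _) i = _
      rw [Finset.sum_apply]
      simp only [Slot.smul_apply, LinearEquiv.apply_symm_apply]
      simp only [AlgHom.toRingHom_eq_coe, AlgHom.coe_toRingHom, hw]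
      simp only [Matrix.scalar_apply, Matrix.mulVec_diagonal]
      simp only [Matrix.mulVec, dotProduct, Matrix.of_apply, Finset.mul_sum]
      rw [Finset.sum_comm]
      refine Finset.sum_congr rfl fun j _ => ?_
      rw [← hd i j, Finset.sum_mul]
      exact Finset.sum_congr rfl fun v _ => by ring
    rw [LinearMap.smul_apply, LinearMap.id_apply, e]
    exact Submodule.sum_mem _ fun v _ =>
      Submodule.smul_mem_smul (Ideal.subset_span ⟨v, rfl⟩) Submodule.mem_top
  obtain ⟨p, hp, -, hcoeff, hp0⟩ :=
    LinearMap.exists_monic_and_natDegree_eq_and_coeff_mem_pow_and_aeval_eq_zero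
      (MvPowerSeries σ O) _ 𝔞 hle
  have hev : act (p.eval x) = 0 := by
    rw [← ext_iff_mulVec.symm]
    intro v
    have := congrArg (Slot.toFun act.toRingHom)
      (LinearMap.congr_fun hp0 ((Slot.toFun act.toRingHom).symm v))
    rw [← Module.End.one_eq_id, ← Algebra.algebraMap_eq_smul_one] at this
    rw [Polynomial.aeval_algebraMap_apply, Polynomial.coe_aeval_eq_eval,
      Module.algebraMap_end_apply, Slot.smul_apply, LinearEquiv.apply_symm_apply,
      LinearMap.zero_apply, map_zero] at this
    rw [Matrix.zero_mulVec]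
    exact this
  have hxn : x ^ p.natDegree ∈ P := by
    have h1 : p.eval x ∈ P := h hev
    rw [Polynomial.eval_eq_sum_range, Finset.sum_range_succ, hp.coeff_natDegree, one_mul] at h1
    refine (Ideal.add_mem_iff_right _ (Ideal.sum_mem _ fun k hk => ?_)).mp h1
    refine Ideal.mul_mem_right _ _ ((Ideal.span_le.mpr ?_)
      (Ideal.pow_le_self (Nat.sub_ne_zero_of_lt (Finset.mem_range.mp hk)) (hcoeff k)))
    rintro _ ⟨v, rfl⟩
    exact hwP v
  exact hP.mem_of_pow_mem _ hxn

/-- Pieces congruent modulo `ϖ` have the same support on the special fibre. -/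
theorem ker_le_of_congr (hs : HasScalars act z)
    (act' : MvPowerSeries σ O →ₐ[O] Matrix α α (Scal O I r))
    (hcongr : ∀ x i j, act x i j - act' x i j ∈
      (maximalIdeal O).map (algebraMap O (Scal O I r)))
    {P : Ideal (MvPowerSeries σ O)} [hP : P.IsPrime]
    (hϖ : (maximalIdeal O).map (algebraMap O (MvPowerSeries σ O)) ≤ P)
    (h : RingHom.ker act.toRingHom ≤ P) : RingHom.ker act'.toRingHom ≤ P := by
  intro x hx
  obtain ⟨ϖ, hϖi⟩ := IsDiscreteValuationRing.exists_irreducible O
  refine hs.mem_of_entries_mem (ν := Unit) (fun _ => algebraMap O (Scal O I r) ϖ)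
    (fun _ => algebraMap O (MvPowerSeries σ O) ϖ) (fun _ => ?_)
    (fun _ => hϖ (Ideal.mem_map_of_mem _ (hϖi.maximalIdeal_eq ▸ Ideal.mem_span_singleton_self ϖ)))
    h fun i j => ?_
  · rw [AlgHom.commutes, Matrix.algebraMap_eq_diagonal]
    rfl
  · have := hcongr x i j
    rw [show act' x = 0 from hx, Matrix.zero_apply, sub_zero, hϖi.maximalIdeal_eq, Ideal.map_span,
      Set.image_singleton] at this
    rwa [Set.range_const]

omit [IsAdicComplete (maximalIdeal O) O] [Finite (ResidueField O)] [Finite I] [Finite σ] in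
/-- A compression of a piece with scalars has scalars. -/
theorem HasScalars.compress {γ : Type} [Fintype γ] [DecidableEq γ] (hs : HasScalars act' z)
    {act'' : MvPowerSeries σ O →ₐ[O] Matrix γ γ (Scal O I r)} (P : Matrix γ β (Scal O I r))
    (L : Matrix β γ (Scal O I r)) (hPL : P * L = 1) (h : ∀ x, act'' x = P * act' x * L) :
    HasScalars act'' z :=
  ⟨hs.mem, fun v => by
    rw [h, hs.act_z, Matrix.scalar_apply, Matrix.scalar_apply, ← Matrix.smul_one_eq_diagonal,
      Matrix.mul_smul, Matrix.mul_one, Matrix.smul_mul, hPL, Matrix.smul_one_eq_diagonal]⟩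

omit [IsDomain O] [IsDiscreteValuationRing O] [IsAdicComplete (maximalIdeal O) O]
  [Finite (ResidueField O)] [Finite I] [Finite σ] in
/-- A right compression killed by a piece: the preimage factors through the maps. -/
theorem eq_sum_mul_of_compress {k : ℕ} (F : Fin 2 → Matrix β α (Scal O I r))
    (G : Fin 2 → Matrix α β (Scal O I r)) (P : Matrix (Fin k) β (Scal O I r))
    (L : Matrix β (Fin k) (Scal O I r)) (hLP : L * P = 1 - ∑ i, F i * G i)
    (hPF : ∀ i, P * F i = 0) (hF : ∀ i x, F i * act x = act' x * F i)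
    {x : MvPowerSeries σ O} (hx : P * act' x * L = 0) :
    act' x = ∑ i, F i * (G i * act' x) := by
  have h0 : (L * P) * act' x = 0 := by
    have h1 : L * P * act' x * (L * P) = 0 := by
      rw [show L * P * act' x * (L * P) = L * (P * act' x * L) * P by
        simp only [Matrix.mul_assoc], hx, Matrix.mul_zero, Matrix.zero_mul]
    nth_rw 2 [hLP] at h1
    rw [Matrix.mul_sub, Matrix.mul_one, Matrix.mul_sum, sub_eq_zero] at h1
    rw [h1]
    refine Finset.sum_eq_zero fun i _ => ?_
    rw [← Matrix.mul_assoc, Matrix.mul_assoc (L * P), ← hF, Matrix.mul_assoc L,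
      ← Matrix.mul_assoc P, hPF, Matrix.zero_mul, Matrix.mul_zero, Matrix.zero_mul]
  rw [hLP, Matrix.sub_mul, Matrix.one_mul, sub_eq_zero, Matrix.sum_mul] at h0
  exact h0.trans (Finset.sum_congr rfl fun i _ => Matrix.mul_assoc _ _ _)

end Steps

end FermatAgent.RTLift.Engine
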