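import Fermat.Agent.RTLift.Engine.Piece

/-!
A point of the support killing the variables gives a system in the base module.
-/

set_option autoImplicit false

noncomputable section

namespace FermatAgent.RTLift.Engine

open IsLocalRing FermatAgent.RTLift.Patch Matrix

variable {O : Type} [CommRing O] [IsDomain O] [IsDiscreteValuationRing O]
  [IsAdicComplete (maximalIdeal O) O] [Finite (ResidueField O)]
  {I : Type} [Finite I] {r : ℕ} {σ : Type} [Finite σ] {α : Type} [Fintype α] [DecidableEq α]
  {act : MvPowerSeries σ O →ₐ[O] Matrix α α (Scal O I r)}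
  {z : CVars I r → MvPowerSeries σ O}

omit [IsAdicComplete (maximalIdeal O) O] [Finite (ResidueField O)] in
/-- A power of the ideal of `(T, Y)` lies in the ideal of the values of `(Y, Z)`. -/
theorem exists_varIdeal_pow_le :
    ∃ N, DefRing.varIdeal (SVars I r) O ^ N ≤
      Ideal.span (Set.range (zval (O := O) (I := I) (r := r))) := by
  refine Ideal.exists_pow_le_of_le_radical_of_fg (Ideal.span_le.mpr ?_) (IsNoetherian.noetherian _)
  rintro _ ⟨j | y, rfl⟩
  · exact ⟨2, by rw [← zval_mul]; exact Ideal.mul_mem_right _ _ (Ideal.subset_span ⟨_, rfl⟩)⟩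
  · exact Ideal.le_radical (Ideal.subset_span ⟨.inl y, rfl⟩)

/-- A point of the support killing the variables of the coefficient ring: every relation between
the base operators holds between its values. -/
theorem point_step (hs : HasScalars act z) (θ : MvPowerSeries σ O →ₐ[O] O)
    (hz : ∀ v, θ (z v) = 0) (h : RingHom.ker act.toRingHom ≤ RingHom.ker θ.toRingHom)
    {J : Type} (t : J → MvPowerSeries σ O) (φ : MvPolynomial J O →ₐ[O] Matrix α α O)
    (hφ : ∀ l, φ (MvPolynomial.X l) = (act (t l)).map MvPowerSeries.constantCoeff)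
    {s : MvPolynomial J O} (hs0 : φ s = 0) :
    MvPolynomial.eval (fun l => θ (t l)) s = 0 := by
  obtain ⟨N, hN⟩ := exists_varIdeal_pow_le (O := O) (I := I) (r := r)
  have hθs : θ (MvPolynomial.aeval t s) = MvPolynomial.eval (fun l => θ (t l)) s := by
    rw [← AlgHom.comp_apply, MvPolynomial.comp_aeval]
    rfl
  set x := MvPolynomial.aeval t s
  set π := (MvPowerSeries.constantCoeff (σ := SVars I r) (R := O)).mapMatrix (m := α)
  have hπ : π (act x) = 0 := by
    rw [← hs0]
    have hc : π.comp (act.comp (MvPolynomial.aeval t)).toRingHom = φ.toRingHom := by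
      refine MvPolynomial.ringHom_ext (fun o => ?_) fun l => ?_
      · simp only [π, RingHom.comp_apply, AlgHom.toRingHom_eq_coe, AlgHom.coe_toRingHom,
          AlgHom.commutes, ← MvPolynomial.algebraMap_eq]
        ext i j
        simp [Matrix.algebraMap_matrix_apply, apply_ite MvPowerSeries.constantCoeff,
          MvPowerSeries.algebraMap_apply]
      · simp [π, hφ]
    exact DFunLike.congr_fun hc s
  have hent : ∀ i j, act x i j ∈ DefRing.varIdeal (SVars I r) O := fun i j => by
    have h0 : MvPowerSeries.constantCoeff (act x i j) = 0 := congrFun (congrFun hπ i) j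
    have := DefRing.sub_C_constantCoeff_mem (act x i j)
    rwa [h0, map_zero, sub_zero] at this
  have hpow : ∀ n, ∀ i j, act (x ^ n) i j ∈ DefRing.varIdeal (SVars I r) O ^ n := by
    intro n
    induction n with
    | zero => simp
    | succ n ih =>
      intro i j
      rw [pow_succ x, map_mul, Matrix.mul_apply, pow_succ (DefRing.varIdeal (SVars I r) O)]
      exact Ideal.sum_mem _ fun k _ => Ideal.mul_mem_mul (ih i k) (hent k j)
  have hPp : (RingHom.ker θ.toRingHom).IsPrime := RingHom.ker_isPrime _
  have : Fintype I := Fintype.ofFinite I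
  have hxN : x ^ N ∈ RingHom.ker θ.toRingHom :=
    hs.mem_of_entries_mem zval z hs.act_z (fun v => hz v) h fun i j => hN (hpow N i j)
  rw [← hθs]
  exact eq_zero_of_pow_eq_zero ((map_pow θ x N).symm.trans hxN)

end FermatAgent.RTLift.Engine
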