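import Fermat.Agent.RTLift.Engine.Family
import Fermat.Agent.RTLift.Engine.Point

/-!
The patched pieces of slots, and the steps at the level of slots: wall, `ψ`, injection, point.
-/

set_option autoImplicit false

noncomputable section

namespace FermatAgent.RTLift.Engine

open IsLocalRing FermatAgent.RTLift.Patch FermatAgent.RTLift.LocalRings Filter Matrix

variable {O : Type} [CommRing O] [IsDomain O] [IsDiscreteValuationRing O]
  [IsAdicComplete (maximalIdeal O) O] [Finite (ResidueField O)]
  {I : Type} [Finite I] {r rv p : ℕ} {D : Datum O I}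

/-- A matrix of the diamond ring at the finite level. -/
def lvl {α β : Type} {n : ℕ} (M : Matrix α β (Diamond O r p n)) :
    Matrix α β (Scal O I r ⧸ levelIdeal O I r p n) :=
  M.map (diamondHom O I r p n)

omit [IsDomain O] [IsDiscreteValuationRing O] [IsAdicComplete (maximalIdeal O) O]
  [Finite (ResidueField O)] [Finite I] in
theorem lvl_mul {α β γ : Type} [Fintype β] {n : ℕ} (M : Matrix α β (Diamond O r p n))
    (N : Matrix β γ (Diamond O r p n)) : lvl (I := I) (M * N) = lvl (I := I) M * lvl (I := I) N :=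
  Matrix.map_mul

omit [IsDomain O] [IsDiscreteValuationRing O] [IsAdicComplete (maximalIdeal O) O]
  [Finite (ResidueField O)] [Finite I] in
theorem lvl_eq_toLevel {α : Type} [Fintype α] [DecidableEq α] {n : ℕ}
    (M : Matrix α α (Diamond O r p n)) : toLevel (I := I) M = lvl M := rfl

omit [IsDomain O] [IsDiscreteValuationRing O] [IsAdicComplete (maximalIdeal O) O]
  [Finite (ResidueField O)] in
theorem mul_scalY {α β : Type} [Fintype α] [DecidableEq α] [Fintype β] [DecidableEq β] {n : ℕ}
    (G : MvPowerSeries (I × Fin 3) O) (M : Matrix β α (Scal O I r ⧸ levelIdeal O I r p n)) :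
    M * (scalY G : Matrix α α (Scal O I r ⧸ levelIdeal O I r p n)) =
      (scalY G : Matrix β β (Scal O I r ⧸ levelIdeal O I r p n)) * M := by
  simp only [scalY, RingHom.comp_apply, Matrix.scalar_apply]
  ext i j
  rw [Matrix.mul_diagonal, Matrix.diagonal_mul, mul_comm]

omit [IsDomain O] [IsDiscreteValuationRing O] [IsAdicComplete (maximalIdeal O) O]
  [Finite (ResidueField O)] in
/-- Intertwinings extend to framed actions. -/
theorem frameAct_intertwine {R : Type} [CommRing R] [Algebra O R] {s : Type} [Fintype s]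
    (e : Module.Basis s O R) {α β : Type} [Fintype α] [DecidableEq α] [Fintype β] [DecidableEq β]
    {n : ℕ} (act : R →ₐ[O] Matrix α α (Diamond O r p n))
    (act' : R →ₐ[O] Matrix β β (Diamond O r p n)) (M : Matrix β α (Diamond O r p n))
    (h : ∀ x, M * act x = act' x * M) (X : MvPowerSeries (I × Fin 3) R) :
    lvl (I := I) M * frameAct e act X = frameAct e act' X * lvl (I := I) M := by
  rw [← sum_coords e X, map_sum, map_sum, Matrix.mul_sum, Matrix.sum_mul]
  refine Finset.sum_congr rfl fun k _ => ?_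
  rw [frameAct_map_mul_C, frameAct_map_mul_C, lvl_eq_toLevel, lvl_eq_toLevel, ← Matrix.mul_assoc,
    mul_scalY, Matrix.mul_assoc, ← lvl_mul, h, lvl_mul, Matrix.mul_assoc]

namespace Family

variable (F : Family D rv r)

/-- The targets of the coefficient variables at level `n`. -/
def zTarget (n : ℕ) : CVars I r → MvPowerSeries (I × Fin 3) (F.R n)
  | .inl y => MvPowerSeries.X y
  | .inr j => MvPowerSeries.C (F.z n j)

/-- Lifts of the coefficient variables. -/
def zLift (n : ℕ) (v : CVars I r) : Ambient O I rv :=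
  Function.surjInv (F.π_surjective n) (F.zTarget n v)

omit [IsDomain O] [IsDiscreteValuationRing O] [IsAdicComplete (maximalIdeal O) O]
  [Finite (ResidueField O)] [Finite I] in
theorem π_zLift (n : ℕ) (v : CVars I r) : F.π n (F.zLift n v) = F.zTarget n v :=
  Function.surjInv_eq (F.π_surjective n) _

omit [IsAdicComplete (maximalIdeal O) O] [Finite (ResidueField O)] [Finite I] in
theorem zLift_mem (n : ℕ) (v : CVars I r) :
    F.zLift n v ∈ maximalIdeal (Ambient O I rv) := by
  refine (mem_maximalIdeal _).mpr fun hu => ?_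
  have h := MvPowerSeries.isUnit_iff_constantCoeff.mp (hu.map (F.π n))
  rw [π_zLift] at h
  rcases v with y | j
  · simp [zTarget] at h
  · rw [zTarget, MvPowerSeries.constantCoeff_C] at h
    exact (mem_maximalIdeal _).mp (F.z_mem n j) h

/-- The patched coefficient variables. -/
def zlim (v : CVars I r) : Ambient O I rv := ulim fun n => F.zLift n v

end Family

variable {F : Family D rv r} {k k' : ℕ}

omit [IsAdicComplete (maximalIdeal O) O] [Finite (ResidueField O)] [Finite I] [IsDomain O]
  [IsDiscreteValuationRing O] in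
theorem diamondHom_diamondZ (n : ℕ) (j : Fin r) :
    diamondHom O I r p n (diamondZ O r p n j) =
      Ideal.Quotient.mk _ (zval (O := O) (I := I) (.inr j)) := by
  rw [diamondZ, diamondHom_mk]
  congr 1
  rw [zval, map_mul, map_pow]
  have hX : inclT O I r (MvPowerSeries.X j) = MvPowerSeries.X (Sum.inl j) := by simp [inclT]
  have hu : IsUnit (1 + MvPowerSeries.X j : MvPowerSeries (Fin r) O) := by
    rw [MvPowerSeries.isUnit_iff_constantCoeff]
    simp
  rw [hX]
  congr 1
  refine (isUnit_one_add_X (O := O) (Sum.inl j : SVars I r)).mul_left_cancel ?_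
  rw [Ring.mul_inverse_cancel _ (isUnit_one_add_X _), ← hX, ← map_one (inclT O I r), ← map_add,
    ← map_mul, Ring.mul_inverse_cancel _ hu]

namespace Slot

variable (M : Slot F p k) (hp : (p : ResidueField O) = 0)

omit [IsAdicComplete (maximalIdeal O) O] [Finite (ResidueField O)] [IsDomain O]
  [IsDiscreteValuationRing O] in
theorem amb_zLift (n : ℕ) (v : CVars I r) :
    M.amb n (F.zLift n v) = Matrix.scalar (Fin k) (Ideal.Quotient.mk _ (zval v)) := by
  rcases v with y | j
  · rw [amb_apply, F.π_zLift, Family.zTarget,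
      ← MvPowerSeries.map_X (f := algebraMap O (F.R n)), frameAct_map]
    simp [scalY, inclY, zval]
  · rw [M.amb_of_π (F.π_zLift n (.inr j)), M.act_z, lvl_eq_toLevel, lvl, Matrix.scalar_apply,
      Matrix.diagonal_map (map_zero _), Matrix.scalar_apply]
    congr 1
    funext
    exact diamondHom_diamondZ n j

/-- The patched piece of a slot. -/
def piece : Ambient O I rv →ₐ[O] Matrix (Fin k) (Fin k) (Scal O I r) :=
  limAct hp M.amb

theorem hasScalars : HasScalars (M.piece hp) F.zlim :=
  hasScalars_limAct hp M.amb F.zLift F.zLift_mem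
    fun v => Eventually.of_forall fun n => M.amb_zLift n v

/-- The configurations kill the slot at almost all levels. -/
def Kills (𝒞 : Finset (I → Cfg)) : Prop :=
  ∀ᶠ n in atTop, ∀ y ∈ ∏ B ∈ 𝒞, F.cfgIdealR n B, M.act n y = 0

theorem prod_le_ker_piece {𝒞 : Finset (I → Cfg)} (h : M.Kills 𝒞) :
    ∏ B ∈ 𝒞, D.cfgIdeal rv B ≤ RingHom.ker (M.piece hp).toRingHom :=
  prod_le_ker_limAct hp M.amb 𝒞 _
    ((eventually_limFilter_of_atTop h).mono fun _ hn _ hx => M.amb_eq_zero hn hx)

end Slot

/-- The wall data at an index: restriction and transfer between two slots. -/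
structure WallData (N : Slot F p k) (N' : Slot F p k') (i0 : I) where
  /-- restrictions -/
  res : ∀ n, Fin 2 → Matrix (Fin k') (Fin k) (Diamond O r p n)
  /-- their left inverses -/
  resInv : ∀ n, Fin 2 → Matrix (Fin k) (Fin k') (Diamond O r p n)
  /-- transfers -/
  tra : ∀ n, Fin 2 → Matrix (Fin k) (Fin k') (Diamond O r p n)
  /-- their right inverses -/
  traInv : ∀ n, Fin 2 → Matrix (Fin k') (Fin k) (Diamond O r p n)
  resInv_res : ∀ n i j, resInv n i * res n j = if i = j then 1 else 0
  tra_traInv : ∀ n i j, tra n i * traInv n j = if i = j then 1 else 0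
  res_act : ∀ n i x, res n i * N.act n x = N'.act n x * res n i
  tra_act : ∀ n i x, tra n i * N'.act n x = N.act n x * tra n i
  tra_res : ∀ n i j, tra n i * res n j =
    N.act n ((!![(D.q i0 : F.R n) + 1, (F.frob n i0).trace;
                 (F.frob n i0).trace, (D.q i0 : F.R n) + 1]) i j)

/-- The configurations kill the cokernel of the restrictions at almost all levels. -/
def WallData.Kills {N : Slot F p k} {N' : Slot F p k'} {i0 : I} (w : WallData N N' i0)
    (𝒞 : Finset (I → Cfg)) : Prop :=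
  ∀ᶠ n in atTop, ∀ y ∈ ∏ B ∈ 𝒞, F.cfgIdealR n B,
    ∃ U : Fin 2 → Matrix (Fin k) (Fin k') (Diamond O r p n),
      N'.act n y = ∑ i, w.res n i * U i

omit [IsDomain O] [IsDiscreteValuationRing O] [IsAdicComplete (maximalIdeal O) O]
  [Finite (ResidueField O)] in
/-- Factorisations through the restrictions at a finite level. -/
theorem amb_eq_sum {N : Slot F p k} {N' : Slot F p k'}
    {res : ∀ n, Fin 2 → Matrix (Fin k') (Fin k) (Diamond O r p n)}
    (hres : ∀ n i x, res n i * N.act n x = N'.act n x * res n i) {n : ℕ} {𝒞 : Finset (I → Cfg)}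
    (h : ∀ y ∈ ∏ B ∈ 𝒞, F.cfgIdealR n B,
      ∃ U : Fin 2 → Matrix (Fin k) (Fin k') (Diamond O r p n), N'.act n y = ∑ i, res n i * U i)
    {x : Ambient O I rv} (hx : x ∈ ∏ B ∈ 𝒞, D.cfgIdeal rv B) :
    ∃ U : Fin 2 → Matrix (Fin k) (Fin k') (Scal O I r ⧸ levelIdeal O I r p n),
      N'.amb n x = ∑ i, lvl (I := I) (res n i) * U i := by
  set e := Module.Free.chooseBasis O (F.R n)
  have h1 := F.π_prod n 𝒞 hx
  rw [Ideal.map] at h1
  suffices key : ∀ X ∈ Ideal.span (MvPowerSeries.C '' (↑(∏ B ∈ 𝒞, F.cfgIdealR n B) : Set (F.R n))),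
      ∃ U : Fin 2 → Matrix (Fin k) (Fin k') (Scal O I r ⧸ levelIdeal O I r p n),
        frameAct e (N'.act n) X = ∑ i, lvl (I := I) (res n i) * U i from key _ h1
  intro X hX
  induction hX using Submodule.span_induction with
  | mem X hX =>
    obtain ⟨y, hy, rfl⟩ := hX
    obtain ⟨U, hU⟩ := h y hy
    refine ⟨fun i => lvl (U i), ?_⟩
    rw [frameAct_C, hU, map_sum]
    exact Finset.sum_congr rfl fun i _ => lvl_mul _ _
  | zero => exact ⟨0, by simp⟩
  | add X X' _ _ hX hX' =>
    obtain ⟨U, hU⟩ := hX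
    obtain ⟨U', hU'⟩ := hX'
    exact ⟨U + U', by simp [hU, hU', Matrix.mul_add, Finset.sum_add_distrib]⟩
  | smul c X _ hX =>
    obtain ⟨U, hU⟩ := hX
    refine ⟨fun i => frameAct e (N.act n) c * U i, ?_⟩
    rw [smul_eq_mul, map_mul, hU, Matrix.mul_sum]
    exact Finset.sum_congr rfl fun i _ => by
      rw [← Matrix.mul_assoc, ← Matrix.mul_assoc,
        frameAct_intertwine e (N.act n) (N'.act n) (res n i) (hres n i) c]

section Steps

variable [CharZero O] [Fintype I] [DecidableEq I] {q : ℕ} {ζ : I → O} (hp : (p : ResidueField O) = 0)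

/-- Raising at a `q ≢ 1`. -/
theorem WallData.raise {F : Family D r r} {N : Slot F p k} {N' : Slot F p k'} {i0 : I}
    (w : WallData N N' i0) (hV : D.Valid q ζ) {A : I → Cfg} (hA : ∀ i, D.Allowed i (A i))
    (hAp : IsPlain A) (hi0 : A i0 = .ur) {ε : ℤˣ} (hε : D.Allowed i0 (.wall ε))
    {𝒞 : Finset (I → Cfg)} (h𝒞 : Listed D 𝒞)
    (h𝒞i : ∀ B ∈ 𝒞, IsPlain B ∧ ∃ ε', B i0 = .st ε') (hkill : w.Kills 𝒞)
    (hsupp : RingHom.ker (N.piece hp).toRingHom ≤ D.cfgIdeal r A) :
    RingHom.ker (N'.piece hp).toRingHom ≤ D.cfgIdeal r (Function.update A i0 (.st ε)) := by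
  have hs := shrinks_levelIdeal (I := I) (r := r) hp
  have hite : ∀ n (i j : Fin 2) {γ : Type} [DecidableEq γ],
      lvl (I := I) (n := n) (if i = j then (1 : Matrix γ γ (Diamond O r p n)) else 0) =
        if i = j then 1 else 0 := fun n i j {γ} _ => by
    split_ifs
    · exact Matrix.map_one _ (map_zero _) (map_one _)
    · exact Matrix.map_zero _ (map_zero _)
  refine raise_wall hV (N.hasScalars hp) (N'.hasScalars hp)
    (fun i => ulimMat fun n => lvl (I := I) (w.res n i)) (fun i => ulimMat fun n => lvl (I := I) (w.resInv n i))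
    (fun i => ulimMat fun n => lvl (I := I) (w.tra n i)) (fun i => ulimMat fun n => lvl (I := I) (w.traInv n i))
    (fun i j => ?_) (fun i j => ?_) (fun i x => ?_) (fun i x => ?_) (fun i j => ?_)
    hA hAp hi0 hε h𝒞 h𝒞i (fun x hx => ?_) hsupp
  · rw [← ulimMat_mul hs, ulimMat_congr hs (g := fun n => if i = j then 1 else 0)
      (Eventually.of_forall fun n => by rw [← lvl_mul, w.resInv_res, hite])]
    split_ifs
    · exact ulimMat_one hs
    · exact ulimMat_zero hs
  · rw [← ulimMat_mul hs, ulimMat_congr hs (g := fun n => if i = j then 1 else 0)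
      (Eventually.of_forall fun n => by rw [← lvl_mul, w.tra_traInv, hite])]
    split_ifs
    · exact ulimMat_one hs
    · exact ulimMat_zero hs
  · exact limAct_intertwine hp N.amb N'.amb _ x
      (Eventually.of_forall fun n => frameAct_intertwine _ _ _ _ (w.res_act n i) _)
  · exact limAct_intertwine hp N'.amb N.amb _ x
      (Eventually.of_forall fun n => frameAct_intertwine _ _ _ _ (w.tra_act n i) _)
  · rw [← ulimMat_mul hs]
    refine (ulimMat_congr hs (g := fun n => N.amb n _)
      (Eventually.of_forall fun n => ?_)).trans (limAct_apply hp N.amb _).symm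
    rw [← lvl_mul, w.tra_res, ← lvl_eq_toLevel]
    refine (N.amb_of_π ?_).symm
    have htr : F.π n (D.frob r i0).trace = MvPowerSeries.C (F.frob n i0).trace := by
      rw [← trace_framed (I := I) i0, ← F.π_frob n i0, Matrix.trace_fin_two, Matrix.trace_fin_two,
        map_add, Matrix.map_apply, Matrix.map_apply]
    fin_cases i <;> fin_cases j <;> simp [htr]
  · choose! U hU using fun n (h : ∀ y ∈ ∏ B ∈ 𝒞, F.cfgIdealR n B,
        ∃ U : Fin 2 → Matrix (Fin k) (Fin k') (Diamond O r p n), N'.act n y = ∑ i, w.res n i * U i) =>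
      amb_eq_sum w.res_act h hx
    exact ⟨_, limAct_eq_sum hp N'.amb (fun n i => lvl (w.res n i)) U
      ((eventually_limFilter_of_atTop hkill).mono fun n hn => hU n hn)⟩

/-- Congruent slots modulo `ϖ`. -/
def SlotCongr (N Nψ : Slot F p k) : Prop :=
  ∀ n x i j, N.act n x i j - Nψ.act n x i j ∈
    (maximalIdeal O).map (algebraMap O (Diamond O r p n))

omit [CharZero O] [Fintype I] [DecidableEq I] in
theorem SlotCongr.piece {N Nψ : Slot F p k} (h : SlotCongr N Nψ) (x : Ambient O I rv) (i j : Fin k) :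
    N.piece hp x i j - Nψ.piece hp x i j ∈
      (maximalIdeal O).map (algebraMap O (Scal O I r)) := by
  refine limAct_congr hp N.amb Nψ.amb x (fun a b => Eventually.of_forall fun n => ?_) i j
  rw [Slot.amb_apply, Slot.amb_apply]
  set e := Module.Free.chooseBasis O (F.R n)
  rw [← sum_coords e (F.π n x), map_sum, map_sum, Matrix.sum_apply, Matrix.sum_apply,
    ← Finset.sum_sub_distrib]
  refine Ideal.sum_mem _ fun t _ => ?_
  rw [frameAct_map_mul_C, frameAct_map_mul_C, scalY, RingHom.comp_apply, Matrix.scalar_apply,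
    Matrix.diagonal_mul, Matrix.diagonal_mul, ← mul_sub]
  refine Ideal.mul_mem_left _ _ ?_
  rw [lvl_eq_toLevel, lvl_eq_toLevel, lvl, lvl, Matrix.map_apply, Matrix.map_apply, ← map_sub,
    Ideal.map_map,
    show (Ideal.Quotient.mk (levelIdeal O I r p n)).comp (algebraMap O (Scal O I r)) =
        (diamondHom O I r p n).toRingHom.comp (algebraMap O (Diamond O r p n)) from
      RingHom.ext fun o => ((diamondHom O I r p n).commutes o).symm,
    ← Ideal.map_map]
  exact Ideal.mem_map_of_mem (diamondHom O I r p n).toRingHom (h n (e t) a b)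

/-- The family read with another trace at one index. -/
def _root_.FermatAgent.RTLift.Engine.Family.withC (F : Family D rv r) (i0 : I) (c : O) :
    Family (Engine.withC D i0 c) rv r :=
  { F with }

/-- The ideal of a configuration with another trace at one index. -/
def _root_.FermatAgent.RTLift.Engine.Family.cfgIdealC (F : Family D rv r) (i0 : I) (c : O) (n : ℕ)
    (B : I → Cfg) : Ideal (F.R n) :=
  (F.withC i0 c).cfgIdealR n B

/-- The configurations of several data kill the slot at almost all levels. -/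
def Slot.KillsC (M : Slot F p k) (i0 : I) {ν : Type} (cν : ν → O)
    (𝒞 : Finset (ν × (I → Cfg))) : Prop :=
  ∀ᶠ n in atTop, ∀ y ∈ ∏ B ∈ 𝒞, F.cfgIdealC i0 (cν B.1) n B.2, M.act n y = 0

omit [CharZero O] [Fintype I] in
theorem Slot.prod_le_ker_pieceC (M : Slot F p k) {i0 : I} {ν : Type} {cν : ν → O}
    {𝒞 : Finset (ν × (I → Cfg))} (h : M.KillsC i0 cν 𝒞) :
    ∏ B ∈ 𝒞, (Engine.withC D i0 (cν B.1)).cfgIdeal rv B.2 ≤ RingHom.ker (M.piece hp).toRingHom :=
  prod_le_ker_limAct hp M.amb 𝒞 _
    ((eventually_limFilter_of_atTop h).mono fun n hn _ hx => M.amb_eq_zero_of_mem hn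
      (F.map_prod_le 𝒞 n _ _ (fun B _ _ hy => (F.withC i0 (cν B.1)).π_cfgIdeal n B.2 hy) hx))

/-- The `ψ` step for slots. -/
theorem SlotCongr.transfer {F : Family D r r} {N Nψ : Slot F p k} (h : SlotCongr N Nψ)
    (hV : D.Valid q ζ) {i0 : I} {ν : Type} (cν ξν : ν → O)
    (hVν : ∀ v, (Engine.withC D i0 (cν v)).Valid q (Function.update ζ i0 (ξν v)))
    {𝒞 : Finset (I → Cfg)} {𝒞ψ : Finset (ν × (I → Cfg))} (h𝒞 : Listed D 𝒞)
    (h𝒞p : ∀ B ∈ 𝒞, IsPlain B)
    (h𝒞ψ : ∀ B ∈ 𝒞ψ, (∀ i, (Engine.withC D i0 (cν B.1)).Allowed i (B.2 i)) ∧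
      ∀ i, ¬ (B.2 i).IsWall)
    (h𝒞ψi : ∀ B ∈ 𝒞ψ, B.2 i0 = .cc ∧ ∀ i ≠ i0, B.2 i = .ur ∨ ∃ ε, B.2 i = .st ε)
    (hk : N.Kills 𝒞) (hkψ : Nψ.KillsC i0 cν 𝒞ψ) {A : I → Cfg} (hA : ∀ i, D.Allowed i (A i))
    (hAp : IsPlain A) (hsupp : RingHom.ker (N.piece hp).toRingHom ≤ D.cfgIdeal r A)
    {b : Cfg} (hb : b = .ur ∨ ∃ ε, b = .st ε) (hba : D.Allowed i0 b) :
    Function.update A i0 b ∈ 𝒞 ∧
      RingHom.ker (N.piece hp).toRingHom ≤ D.cfgIdeal r (Function.update A i0 b) :=
  transfer_psi hV (N.hasScalars hp) (Nψ.hasScalars hp) (fun x => h.piece hp x) cν ξν hVν h𝒞 h𝒞p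
    h𝒞ψ h𝒞ψi (N.prod_le_ker_piece hp hk) (Nψ.prod_le_ker_pieceC hp hkψ) hA hAp hsupp hb hba

omit [CharZero O] [Fintype I] [DecidableEq I] [IsDomain O] [IsDiscreteValuationRing O]
  [IsAdicComplete (maximalIdeal O) O] [Finite (ResidueField O)] [Finite I] in
theorem _root_.FermatAgent.RTLift.Engine.Family.π_const {n : ℕ} (y : F.R n) :
    ∃ x, F.π n x = MvPowerSeries.C y :=
  F.π_surjective n _

omit [CharZero O] [Fintype I] [DecidableEq I] in
/-- The framed point of a point of a finite level. -/
def _root_.FermatAgent.RTLift.Engine.Family.pointY (θ : ∀ n, F.R n →ₐ[O] O) (n : ℕ) :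
    Ambient O I rv →ₐ[O] O :=
  { (((θ n).toRingHom.comp MvPowerSeries.constantCoeff).comp (F.π n).toRingHom) with
    commutes' := fun o => by
      change θ n (MvPowerSeries.constantCoeff (F.π n (algebraMap O _ o))) = o
      rw [AlgHom.commutes, MvPowerSeries.algebraMap_apply, MvPowerSeries.constantCoeff_C,
        AlgHom.commutes, Algebra.algebraMap_self, RingHom.id_apply] }

omit [CharZero O] [Fintype I] [DecidableEq I] [IsDomain O] [IsDiscreteValuationRing O]
  [IsAdicComplete (maximalIdeal O) O] [Finite (ResidueField O)] [Finite I] in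
theorem _root_.FermatAgent.RTLift.Engine.Family.pointY_apply (θ : ∀ n, F.R n →ₐ[O] O) (n : ℕ)
    (y : Ambient O I rv) :
    F.pointY θ n y = θ n (MvPowerSeries.constantCoeff (F.π n y)) := rfl

omit [CharZero O] [Fintype I] [DecidableEq I] [Finite I] in
/-- Points satisfying a configuration have their limit on its component. -/
theorem _root_.FermatAgent.RTLift.Engine.Family.cfgIdeal_le_ker_point (θ : ∀ n, F.R n →ₐ[O] O)
    {A : I → Cfg} (h : ∀ᶠ n in atTop, F.cfgIdealR n A ≤ RingHom.ker (θ n).toRingHom) :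
    D.cfgIdeal rv A ≤ RingHom.ker (limPoint (F.pointY θ)).toRingHom :=
  le_ker_limPoint (F.pointY θ) ((eventually_limFilter_of_atTop h).mono fun n hn y hy => by
    have h1 := Ideal.mem_map_of_mem MvPowerSeries.constantCoeff (F.π_cfgIdeal n A hy)
    rw [Ideal.map_map, show (MvPowerSeries.constantCoeff (σ := I × Fin 3) (R := F.R n)).comp
      MvPowerSeries.C = RingHom.id _ from RingHom.ext fun y => by simp,
      Ideal.map_id] at h1
    exact hn h1)

omit [CharZero O] [Fintype I] [DecidableEq I] in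
/-- A point of the support killing the diamond variables gives a system in the base module:
`φ` are the base operators, `t` elements acting as these with value `a` at the points. -/
theorem Slot.system_of_limPoint (N : Slot F p k) (θ : ∀ n, F.R n →ₐ[O] O)
    (hker : RingHom.ker (N.piece hp).toRingHom ≤ RingHom.ker (limPoint (F.pointY θ)).toRingHom)
    (hθz : ∀ᶠ n in atTop, ∀ j, θ n (F.z n j) = 0)
    {J : Type} (φ : MvPolynomial J O →ₐ[O] Matrix (Fin k) (Fin k) O) (a : J → O)
    (t : ∀ n, J → F.R n) (ht : ∀ l, ∀ᶠ n in atTop,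
      (N.act n (t n l)).map (diamondCC O r p n) = φ (MvPolynomial.X l) ∧ θ n (t n l) = a l)
    {s : MvPolynomial J O} (hs0 : φ s = 0) : MvPolynomial.eval a s = 0 := by
  choose x hx using fun n (l : J) => F.π_const (t n l)
  have hz : ∀ v, limPoint (F.pointY θ) (F.zlim v) = 0 := fun v =>
    limPoint_ulim (F.pointY θ) _ ((eventually_limFilter_of_atTop hθz).mono fun n hn => by
      rw [F.pointY_apply, F.π_zLift]
      rcases v with y | j
      · simp [Family.zTarget]
      · rw [Family.zTarget, MvPowerSeries.constantCoeff_C, hn])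
  have h := point_step (N.hasScalars hp) (limPoint (F.pointY θ)) hz hker
    (fun l => ulim fun n => x n l) φ
    (fun l => (constantCoeff_limAct hp N.amb (fun n => x n l) _
      ((eventually_limFilter_of_atTop (ht l)).mono fun n hn => by
        rw [N.amb_of_π (hx n l), ← hn.1]
        ext i j
        change levelCC p n (diamondHom O I r p n (N.act n (t n l) i j)) = _
        obtain ⟨w, hw⟩ := Ideal.Quotient.mk_surjective (N.act n (t n l) i j)
        rw [Matrix.map_apply, ← hw, diamondHom_mk, levelCC_mk]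
        exact (MvPowerSeries.constantCoeff_rename _ _).trans rfl)).symm) hs0
  have ha : (fun l => limPoint (F.pointY θ) (ulim fun n => x n l)) = a := funext fun l =>
    limPoint_ulim (F.pointY θ) _ ((eventually_limFilter_of_atTop (ht l)).mono fun n hn => by
      rw [F.pointY_apply, hx, MvPowerSeries.constantCoeff_C, hn.2])
  rwa [ha] at h

omit [CharZero O] [Fintype I] [DecidableEq I] in
/-- A point on a component of the support gives a system in the base module. -/
theorem Slot.system_of_point (N : Slot F p k) (θ : ∀ n, F.R n →ₐ[O] O)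
    {A : I → Cfg} (hsupp : RingHom.ker (N.piece hp).toRingHom ≤ D.cfgIdeal rv A)
    (hθ : ∀ᶠ n in atTop, (∀ j, θ n (F.z n j) = 0) ∧ F.cfgIdealR n A ≤ RingHom.ker (θ n).toRingHom)
    {J : Type} (φ : MvPolynomial J O →ₐ[O] Matrix (Fin k) (Fin k) O) (a : J → O)
    (t : ∀ n, J → F.R n) (ht : ∀ l, ∀ᶠ n in atTop,
      (N.act n (t n l)).map (diamondCC O r p n) = φ (MvPolynomial.X l) ∧ θ n (t n l) = a l)
    {s : MvPolynomial J O} (hs0 : φ s = 0) : MvPolynomial.eval a s = 0 :=
  N.system_of_limPoint hp θ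
    (hsupp.trans (F.cfgIdeal_le_ker_point θ (hθ.mono fun _ h => h.2)))
    (hθ.mono fun _ h => h.1) φ a t ht hs0

end Steps

end FermatAgent.RTLift.Engine
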