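import Fermat.Agent.RTLift.Engine.LevelAct
import Fermat.Agent.RTLift.Engine.SlotLimit
import Fermat.Agent.RTLift.Old.Lift

/-!
The wall maps at a prime `q` outside the level: the degeneracy maps and traces, normalised by a
square root `κ` of the character at `q`.
-/

set_option autoImplicit false

noncomputable section

namespace FermatAgent.RTLift.Engine

open FermatAgent.RTLift.Modules FermatAgent.RTLift.Old

section Linear

variable {O : Type} [CommRing O] {Λ : Type} [CommRing Λ] [Algebra O Λ] {R : Type} [CommRing R]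
  [Algebra O R] {M M' : Type} [AddCommGroup M] [Module Λ M] [Module O M] [IsScalarTower O Λ M]
  [AddCommGroup M'] [Module Λ M'] [Module O M'] [IsScalarTower O Λ M']

/-- Wall maps between two modules with actions. -/
structure LinWall (act : R →ₐ[O] Module.End Λ M) (act' : R →ₐ[O] Module.End Λ M') (q tr : R) where
  /-- restrictions -/
  res : Fin 2 → (M →ₗ[Λ] M')
  /-- their left inverses -/
  resInv : Fin 2 → (M' →ₗ[Λ] M)
  /-- transfers -/
  tra : Fin 2 → (M' →ₗ[Λ] M)
  /-- their right inverses -/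
  traInv : Fin 2 → (M →ₗ[Λ] M')
  resInv_res : ∀ i j v, resInv i (res j v) = if i = j then v else 0
  tra_traInv : ∀ i j v, tra i (traInv j v) = if i = j then v else 0
  res_act : ∀ i y v, res i (act y v) = act' y (res i v)
  tra_act : ∀ i y v, tra i (act' y v) = act y (tra i v)
  tra_res : ∀ i j v, tra i (res j v) = act ((!![q + 1, tr; tr, q + 1]) i j) v

/-- The wall maps from a left inverse of `α` and a right inverse of `β`. -/
def LinWall.ofPair (act : R →ₐ[O] Module.End Λ M) (act' : R →ₐ[O] Module.End Λ M') {q : ℕ} {tr : R}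
    (α : M × M →ₗ[Λ] M') (β : M' →ₗ[Λ] M × M) (g : M' →ₗ[Λ] M × M) (g' : M × M →ₗ[Λ] M')
    (hg : g.comp α = LinearMap.id) (hg' : β.comp g' = LinearMap.id) (κ κ' s : Λ) (hκ : κ * κ' = 1)
    (hs : κ * κ * s = 1) (T : Module.End Λ M) (htr : act tr = κ • T)
    (hβα : ∀ a b, β (α (a, b)) = ((q + 1) • a + T b, T a + s • (q + 1) • b))
    (hα : ∀ y a b, α (act y a, act y b) = act' y (α (a, b)))
    (hβ : ∀ y v, β (act' y v) = (act y (β v).1, act y (β v).2)) :
    LinWall act act' (q : R) tr where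
  res := ![α.comp (LinearMap.inl Λ M M), κ • α.comp (LinearMap.inr Λ M M)]
  resInv := ![(LinearMap.fst Λ M M).comp g, κ' • (LinearMap.snd Λ M M).comp g]
  tra := ![(LinearMap.fst Λ M M).comp β, κ • (LinearMap.snd Λ M M).comp β]
  traInv := ![g'.comp (LinearMap.inl Λ M M), κ' • g'.comp (LinearMap.inr Λ M M)]
  resInv_res i j v := by
    have h : ∀ w, g (α w) = w := fun w => LinearMap.congr_fun hg w
    fin_cases i <;> fin_cases j <;>
      simp [h, smul_smul, hκ]
  tra_traInv i j v := by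
    have h : ∀ w, β (g' w) = w := fun w => LinearMap.congr_fun hg' w
    fin_cases i <;> fin_cases j <;>
      simp [h, smul_smul, mul_comm κ', hκ]
  res_act i y v := by
    fin_cases i
    · simpa using hα y v 0
    · simpa using congrArg (κ • ·) (hα y 0 v)
  tra_act i y v := by
    fin_cases i
    · simpa using congrArg Prod.fst (hβ y v)
    · simpa using congrArg (fun w => κ • Prod.snd w) (hβ y v)
  tra_res i j v := by
    have hnat : ∀ w : M, act ((q : R) + 1) w = (q + 1) • w := fun w => by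
      rw [← Nat.cast_succ, map_natCast, Module.End.natCast_apply]
    fin_cases i <;> fin_cases j
    · simpa [hnat, add_smul] using congrArg Prod.fst (hβα v 0)
    · simpa [htr] using congrArg (fun w => κ • Prod.fst w) (hβα 0 v)
    · simpa [htr] using congrArg (fun w => κ • Prod.snd w) (hβα v 0)
    · simpa [hnat, smul_smul, hs, ← mul_assoc, add_smul] using
        congrArg (fun w => (κ * κ) • Prod.snd w) (hβα 0 v)

end Linear

section Level

variable {O : Type} [CommRing O] [IsLocalRing O] {Λ : Type} [CommRing Λ] [Algebra O Λ]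
  {M₀ M q : ℕ} [NeZero M] [NeZero q] [NeZero (M * q)] (h : M₀ ∣ M) (θ : (ZMod M₀)ˣ →* Λ)
  {x y : ℤ} (hxy : x * q - y * M = 1) (hq : q.Prime) (hqM : ¬ q ∣ M)
  {J : Type} {pr : J → Nat.Primes} (hpr : ∀ j, (pr j : ℕ) ≠ q) {ξ : J → IsLocalRing.ResidueField O}
  {R : Type} [CommRing R] [Algebra O R] {κv : Nat.Primes → Λ} {t : Nat.Primes → R}
  {act : R →ₐ[O] Module.End Λ (localH1 h θ Λ pr ξ)}
  {act' : R →ₐ[O] Module.End Λ (localH1 (h.mul_right q) θ Λ pr ξ)}

omit [NeZero M] in
include hqM in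
/-- The wall maps at a level, whose restrictions have the range of `α`. -/
theorem exists_linWall (B : Set Nat.Primes) (ha : IsTrAct h θ pr ξ B κv t act)
    (ha' : IsTrAct (h.mul_right q) θ pr ξ B κv t act') (hqB : (⟨q, hq⟩ : Nat.Primes) ∈ B)
    (hgen : Algebra.adjoin O (t '' Bᶜ) = ⊤)
    (κ : (ZMod M₀)ˣ →* Λ) (hθκ : ∀ u, θ u = κ u * κ u) {tr : R}
    (htr : act tr = κ (ZMod.unitOfCoprime q (coprime_of_bezout hxy h)) • localOp h θ pr ξ ⟨q, hq⟩)
    {g : localH1 (h.mul_right q) θ Λ pr ξ →ₗ[Λ] localH1 h θ Λ pr ξ × localH1 h θ Λ pr ξ}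
    (hg : g.comp (alphaLoc ξ h θ hxy hq hpr Λ) = LinearMap.id)
    {g' : localH1 h θ Λ pr ξ × localH1 h θ Λ pr ξ →ₗ[Λ] localH1 (h.mul_right q) θ Λ pr ξ}
    (hg' : (betaLoc ξ h θ hxy hq hpr Λ).comp g' = LinearMap.id) :
    ∃ w : LinWall act act' (q : R) tr,
      ∀ c, ∃ d : Fin 2 → localH1 h θ Λ pr ξ,
        alphaLoc ξ h θ hxy hq hpr Λ c = ∑ i, w.res i (d i) := by
  set u := ZMod.unitOfCoprime q (coprime_of_bezout hxy h)
  have hs : κ u * κ u * alScalar h θ hxy = 1 := by
    rw [← hθκ, alScalar, ← map_mul, mul_inv_cancel, map_one]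
  have hI : ∀ l : Nat.Primes, l ∉ B → (l : ℕ) ≠ q := fun l hl e =>
    hl ((Subtype.ext e : l = ⟨q, hq⟩) ▸ hqB)
  refine ⟨LinWall.ofPair act act' (alphaLoc ξ h θ hxy hq hpr Λ) (betaLoc ξ h θ hxy hq hpr Λ) g g'
    hg hg' (κ u) (κ u⁻¹) (alScalar h θ hxy) (by rw [← map_mul, mul_inv_cancel, map_one]) hs
    (localOp h θ pr ξ ⟨q, hq⟩) htr (fun a b => ?_)
    (fun y a b => ?_) (fun y v => ?_), fun c => ⟨![c.1, κ u⁻¹ • c.2], ?_⟩⟩
  · have e := beta_alpha h θ hxy hq hqM (a : H1 (levelChar h θ) Λ) (b : H1 (levelChar h θ) Λ)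
    rw [← coe_alphaLoc h θ hxy hq hpr (a, b), ← coe_betaLoc h θ hxy hq hpr] at e
    have e1 := congrArg Prod.fst e
    have e2 := congrArg Prod.snd e
    refine Prod.ext (Subtype.ext (e1.trans ?_)) (Subtype.ext (e2.trans ?_))
    · simp
      exact LinearMap.congr_fun (heckeOp_of_not_dvd h θ Λ (l := ⟨q, hq⟩) hqM).symm _
    · simp
      exact LinearMap.congr_fun (heckeOp_of_not_dvd h θ Λ (l := ⟨q, hq⟩) hqM).symm _
  · have hd : ∀ (i : Fin 2) v, (![(alphaLoc ξ h θ hxy hq hpr Λ).comp (LinearMap.inl Λ _ _),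
        (alphaLoc ξ h θ hxy hq hpr Λ).comp (LinearMap.inr Λ _ _)] i) (act y v) =
        act' y ((![(alphaLoc ξ h θ hxy hq hpr Λ).comp (LinearMap.inl Λ _ _),
        (alphaLoc ξ h θ hxy hq hpr Λ).comp (LinearMap.inr Λ _ _)] i) v) := fun i =>
      ha.intertwine ha' hgen _ (fun l hl v => by
        apply Subtype.ext
        fin_cases i
        · simpa [coe_alphaLoc, alpha_apply] using
            degI_heckeOp h θ (fun _ : Unit => l) hq (fun _ => hI l hl) () (v : H1 (levelChar h θ) Λ)
        · simpa [coe_alphaLoc, alpha_apply] using degD_heckeOp h θ (fun _ : Unit => l) hq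
            (fun _ => hI l hl) (coprime_of_bezout hxy h) () (v : H1 (levelChar h θ) Λ)) y
    have e0 := hd 0 a
    have e1 := hd 1 b
    simp only [Matrix.cons_val_zero, Matrix.cons_val_one, LinearMap.comp_apply,
      LinearMap.inl_apply, LinearMap.inr_apply] at e0 e1
    have split : ∀ c d : localH1 h θ Λ pr ξ, alphaLoc ξ h θ hxy hq hpr Λ (c, d) =
        alphaLoc ξ h θ hxy hq hpr Λ (c, 0) + alphaLoc ξ h θ hxy hq hpr Λ (0, d) := fun c d => by
      rw [← map_add, Prod.mk_add_mk, add_zero, zero_add]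
    rw [split, e0, e1, split a b, map_add]
  · have hd : ∀ (i : Fin 2) w, (![(LinearMap.fst Λ _ _).comp (betaLoc ξ h θ hxy hq hpr Λ),
        (LinearMap.snd Λ _ _).comp (betaLoc ξ h θ hxy hq hpr Λ)] i) (act' y w) =
        act y ((![(LinearMap.fst Λ _ _).comp (betaLoc ξ h θ hxy hq hpr Λ),
        (LinearMap.snd Λ _ _).comp (betaLoc ξ h θ hxy hq hpr Λ)] i) w) := fun i =>
      ha'.intertwine ha hgen _
        (fun l hl v => by
        apply Subtype.ext
        have e := beta_apply h θ hxy (v : H1 (levelChar (h.mul_right q) θ) Λ)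
        rw [← coe_betaLoc h θ hxy hq hpr] at e
        have e' := beta_apply h θ hxy
          (heckeOp (h.mul_right q) θ Λ l (v : H1 (levelChar (h.mul_right q) θ) Λ))
        rw [← coe_localOp, ← coe_betaLoc h θ hxy hq hpr] at e'
        fin_cases i
        · have t1 := trace_heckeOp h θ (fun _ : Unit => l) hq (fun _ => hI l hl) ()
            (v : H1 (levelChar (h.mul_right q) θ) Λ)
          exact (congrArg Prod.fst e').trans (t1.trans
            (congrArg (heckeOp h θ Λ l) (congrArg Prod.fst e).symm))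
        · have t1 := trace_heckeOp h θ (fun _ : Unit => l) hq (fun _ => hI l hl) ()
            (atkin h θ Λ hxy (v : H1 (levelChar (h.mul_right q) θ) Λ))
          have t2 := atkin_heckeOp h θ hxy (fun _ : Unit => l) hq (fun _ => hI l hl) ()
            (v : H1 (levelChar (h.mul_right q) θ) Λ)
          exact (congrArg Prod.snd e').trans (((congrArg _ t2).trans t1).trans
            (congrArg (heckeOp h θ Λ l) (congrArg Prod.snd e).symm))) y
    exact Prod.ext (hd 0 v) (hd 1 v)
  · have e : κ u * κ u⁻¹ = 1 := by rw [← map_mul, mul_inv_cancel, map_one]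
    obtain ⟨c₁, c₂⟩ := c
    simp [LinWall.ofPair, Fin.sum_univ_two, smul_smul, mul_comm (κ u⁻¹), e, ← map_add]

end Level

end FermatAgent.RTLift.Engine
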